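import Mathlib

/-!
# S33 library, block (Z), abstract part: quadratic actions

`R` commutative ring (Hecke algebra), `B` a finite ring (matrices over `ℤ / p ^ m`), `f : R → B`,
`ρ : G → B` commuting with `f`, and `ρ g + ε g ρ g⁻¹ = t g`.
-/

set_option autoImplicit false
set_option linter.unusedSimpArgs false

namespace Fermat.Agent.S33Lib

/-- a quadratic action: `ρ g + ε(g) ρ g⁻¹ = t(g)` with `ε` multiplicative, everything seen in `B` -/
structure QuadAct {R B G : Type*} [CommRing R] [Ring B] [Group G] (f : R →+* B) (ρ : G →* B)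
    (ε t : G → R) : Prop where
  comm : ∀ (x : R) (g : G), f x * ρ g = ρ g * f x
  eps_mul : ∀ g h : G, f (ε (g * h)) = f (ε g) * f (ε h)
  eps_one : f (ε 1) = 1
  quad : ∀ g : G, ρ g + f (ε g) * ρ g⁻¹ = f (t g)

variable {R B G : Type*} [CommRing R] [Ring B] [Group G] {f : R →+* B} {ρ : G →* B}
  {ε t : G → R}

theorem za_eps_inv_mul (hQ : QuadAct f ρ ε t) (a : G) : f (ε a⁻¹) * f (ε a) = 1 := by
  rw [← hQ.eps_mul, inv_mul_cancel, hQ.eps_one]

theorem za_eps_mul_inv (hQ : QuadAct f ρ ε t) (a : G) : f (ε a) * f (ε a⁻¹) = 1 := by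
  rw [← hQ.eps_mul, mul_inv_cancel, hQ.eps_one]

theorem za_f_comm (x y : R) : f x * f y = f y * f x := by
  rw [← map_mul, ← map_mul, mul_comm]

theorem za_eps_comm (hQ : QuadAct f ρ ε t) (a b : G) : f (ε (a⁻¹ * b⁻¹ * a * b)) = 1 := by
  rw [hQ.eps_mul, hQ.eps_mul, hQ.eps_mul]
  calc f (ε a⁻¹) * f (ε b⁻¹) * f (ε a) * f (ε b)
      = f (ε a⁻¹) * (f (ε b⁻¹) * f (ε a)) * f (ε b) := by rw [mul_assoc (f (ε a⁻¹))]
    _ = f (ε a⁻¹) * (f (ε a) * f (ε b⁻¹)) * f (ε b) := by rw [za_f_comm (ε b⁻¹)]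
    _ = (f (ε a⁻¹) * f (ε a)) * (f (ε b⁻¹) * f (ε b)) := by simp only [mul_assoc]
    _ = 1 := by rw [za_eps_inv_mul hQ, za_eps_inv_mul hQ, one_mul]

/-- (ZA1) `C* C = ε(a) ε(b) (2 - t([a,b]))` for `C = ρ a ρ b - ρ b ρ a` -/
theorem za_comm_norm (hQ : QuadAct f ρ ε t) (a b : G) :
    f (ε a * ε b) * (ρ b⁻¹ * ρ a⁻¹ - ρ a⁻¹ * ρ b⁻¹) * (ρ a * ρ b - ρ b * ρ a) =
      f (ε a * ε b * (2 - t (a⁻¹ * b⁻¹ * a * b))) := by
  have hq := hQ.quad (a⁻¹ * b⁻¹ * a * b)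
  rw [za_eps_comm hQ, one_mul] at hq
  have e : (ρ b⁻¹ * ρ a⁻¹ - ρ a⁻¹ * ρ b⁻¹) * (ρ a * ρ b - ρ b * ρ a)
      = 2 - (ρ (a⁻¹ * b⁻¹ * a * b) + ρ (a⁻¹ * b⁻¹ * a * b)⁻¹) := by
    simp only [← map_mul, mul_sub, sub_mul]
    have e1 : b⁻¹ * a⁻¹ * (a * b) = 1 := by group
    have e2 : a⁻¹ * b⁻¹ * (a * b) = a⁻¹ * b⁻¹ * a * b := by group
    have e3 : b⁻¹ * a⁻¹ * (b * a) = (a⁻¹ * b⁻¹ * a * b)⁻¹ := by group
    have e4 : a⁻¹ * b⁻¹ * (b * a) = 1 := by group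
    rw [e1, e2, e3, e4, map_one, ← one_add_one_eq_two]
    abel
  rw [mul_assoc, e, hq, map_mul (f) (ε a * ε b), map_sub, map_ofNat]

/-- (ZA7) columnwise choice -/
theorem za_exists_factor {n : Type*} [Fintype n] [DecidableEq n] {α : Type*} [CommRing α]
    (C M : Matrix n n α) (h : ∀ v : n → α, ∃ v' : n → α, C.mulVec v = M.mulVec v') :
    ∃ X : Matrix n n α, C = M * X := by
  choose w hw using fun j : n => h (Pi.single j 1)
  refine ⟨Matrix.of fun i j => w j i, ?_⟩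
  ext i j
  have := congrFun (hw j) i
  rw [Matrix.mulVec_single_one] at this
  rw [Matrix.mul_apply]
  simpa [Matrix.mulVec, dotProduct] using this

theorem za_mul_cancel {n : Type*} [Fintype n] [DecidableEq n] {α : Type*} [CommRing α]
    (M : Matrix n n α) (h : ∀ v : n → α, M.mulVec (M.mulVec v) = 0 → M.mulVec v = 0)
    (W : Matrix n n α) (hW : M * (M * W) = 0) : M * W = 0 := by
  ext i j
  have h1 : M.mulVec (M.mulVec (fun k => W k j)) = 0 := by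
    rw [Matrix.mulVec_mulVec]
    funext i'
    have := congrFun (congrFun hW i') j
    rw [← mul_assoc] at this
    simpa [Matrix.mulVec, dotProduct, Matrix.mul_apply] using this
  have := congrFun (h _ h1) i
  simpa [Matrix.mulVec, dotProduct, Matrix.mul_apply] using this

/-- (ZA6) in a finite ring: `M` injective on its image ⟹ `M ^ (k+1) = M` for some `k > 0` -/
theorem za_exists_pow {n : Type*} [Fintype n] [DecidableEq n] {α : Type*} [CommRing α] [Finite α]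
    (M : Matrix n n α) (h : ∀ v : n → α, M.mulVec (M.mulVec v) = 0 → M.mulVec v = 0) :
    ∃ k : ℕ, 0 < k ∧ M ^ (k + 1) = M := by
  obtain ⟨i, j, hij, he⟩ := Finite.exists_ne_map_eq_of_infinite (fun i : ℕ => M ^ (i + 1))
  wlog hlt : i < j generalizing i j
  · exact this j i hij.symm he.symm (lt_of_le_of_ne (not_lt.1 hlt) hij.symm)
  obtain ⟨d, rfl⟩ := Nat.exists_eq_add_of_lt hlt
  -- `M ^ (i + 1) * (1 - M ^ (d + 1)) = 0`
  have key : ∀ i : ℕ, M ^ (i + 1) * (1 - M ^ (d + 1)) = 0 → M * (1 - M ^ (d + 1)) = 0 := by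
    intro i
    induction i with
    | zero => intro h0; simpa using h0
    | succ i ih =>
      intro h0
      apply ih
      rw [pow_succ' M i, mul_assoc]
      apply za_mul_cancel M h
      have e : M * (M * (M ^ i * (1 - M ^ (d + 1)))) = M ^ (i + 1 + 1) * (1 - M ^ (d + 1)) := by
        rw [pow_succ' M (i + 1), pow_succ' M i]
        simp only [mul_assoc]
      rw [e]
      exact h0
  refine ⟨d + 1, Nat.succ_pos _, ?_⟩
  have h0 : M ^ (i + 1) * (1 - M ^ (d + 1)) = 0 := by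
    have he' : M ^ (i + 1) = M ^ (i + d + 1 + 1) := he
    rw [mul_sub, mul_one, ← pow_add, sub_eq_zero, he']
    congr 1
    omega
  have := key i h0
  rw [mul_sub, mul_one, sub_eq_zero, ← pow_succ'] at this
  exact this.symm

/-- (ZA2) **trace lemma**: a combination of group elements which acts as `0` (after localisation
at `𝔫`) has trace `0` (after localisation at `𝔫`) -/
theorem za_trace (hQ : QuadAct f ρ ε t) (𝔫 : Ideal R) [𝔫.IsPrime] (a b : G)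
    (hab : ε a * ε b * (2 - t (a⁻¹ * b⁻¹ * a * b)) ∉ 𝔫)
    {ι : Type*} (s : Finset ι) (c : ι → R) (g : ι → G) (η : R) (hη : η ∉ 𝔫)
    (h : f η * ∑ i ∈ s, f (c i) * ρ (g i) = 0) :
    ∃ η' : R, η' ∉ 𝔫 ∧ f (η' * ∑ i ∈ s, c i * t (g i)) = 0 := by
  set Y : B := ∑ i ∈ s, f (c i) * ρ (g i) with hY
  set Ys : B := ∑ i ∈ s, f (c i * ε (g i)) * ρ (g i)⁻¹ with hYs
  have hsh : ∀ x : G, f (∑ i ∈ s, c i * t (g i * x)) = Y * ρ x + f (ε x) * ρ x⁻¹ * Ys := by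
    intro x
    rw [map_sum, hY, hYs, Finset.sum_mul, Finset.mul_sum, ← Finset.sum_add_distrib]
    apply Finset.sum_congr rfl
    intro i _
    rw [map_mul, ← hQ.quad (g i * x), hQ.eps_mul, mul_inv_rev, map_mul ρ, map_mul ρ, mul_add]
    congr 1
    · rw [mul_assoc]
    · calc f (c i) * (f (ε (g i)) * f (ε x) * (ρ x⁻¹ * ρ (g i)⁻¹))
          = (f (c i) * f (ε (g i)) * f (ε x)) * ρ x⁻¹ * ρ (g i)⁻¹ := by simp only [mul_assoc]
        _ = (f (ε x) * f (c i * ε (g i))) * ρ x⁻¹ * ρ (g i)⁻¹ := by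
            rw [← map_mul, ← map_mul, ← map_mul]; congr 3; ring
        _ = f (ε x) * (f (c i * ε (g i)) * ρ x⁻¹) * ρ (g i)⁻¹ := by simp only [mul_assoc]
        _ = f (ε x) * (ρ x⁻¹ * f (c i * ε (g i))) * ρ (g i)⁻¹ := by rw [hQ.comm]
        _ = f (ε x) * ρ x⁻¹ * (f (c i * ε (g i)) * ρ (g i)⁻¹) := by simp only [mul_assoc]
  set S : R := ∑ i ∈ s, c i * t (g i) with hS
  have hs1 : f S = Y + Ys := by
    have := hsh 1
    simp only [mul_one, map_one, inv_one, hQ.eps_one, one_mul] at this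
    exact this
  have hZ : f (η * S) = f η * Ys := by rw [map_mul, hs1, mul_add, h, zero_add]
  have hl : ∀ x : G, ∃ l : R, ρ x * f (η * S) = f l := by
    intro x
    refine ⟨ε x * (η * ∑ i ∈ s, c i * t (g i * x⁻¹)), ?_⟩
    rw [hZ, map_mul f (ε x), map_mul f η, hsh x⁻¹, inv_inv, mul_add, ← mul_assoc (f η) Y, h,
      zero_mul, zero_add]
    calc ρ x * (f η * Ys) = (f (ε x) * f (ε x⁻¹)) * ρ x * (f η * Ys) := by
          rw [za_eps_mul_inv hQ, one_mul]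
      _ = f (ε x) * (f (ε x⁻¹) * (ρ x * f η) * Ys) := by simp only [mul_assoc]
      _ = f (ε x) * (f (ε x⁻¹) * (f η * ρ x) * Ys) := by rw [hQ.comm]
      _ = f (ε x) * ((f (ε x⁻¹) * f η) * ρ x * Ys) := by simp only [mul_assoc]
      _ = f (ε x) * ((f η * f (ε x⁻¹)) * ρ x * Ys) := by rw [za_f_comm η]
      _ = f (ε x) * (f η * (f (ε x⁻¹) * ρ x * Ys)) := by simp only [mul_assoc]
  obtain ⟨la, hla⟩ := hl a
  have hC : (ρ a * ρ b - ρ b * ρ a) * f (η * S) = 0 := by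
    rw [sub_mul, sub_eq_zero]
    calc ρ a * ρ b * f (η * S) = ρ a * (f (η * S) * ρ b) := by rw [mul_assoc, hQ.comm]
      _ = (ρ a * f (η * S)) * ρ b := by rw [mul_assoc]
      _ = ρ b * (ρ a * f (η * S)) := by rw [hla, hQ.comm]
      _ = ρ b * ρ a * f (η * S) := by rw [mul_assoc]
  refine ⟨ε a * ε b * (2 - t (a⁻¹ * b⁻¹ * a * b)) * η, ?_, ?_⟩
  · intro hmem
    rcases (Ideal.IsPrime.mul_mem_iff_mem_or_mem inferInstance).1 hmem with h1 | h1
    · exact hab h1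
    · exact hη h1
  · rw [mul_assoc, map_mul, ← za_comm_norm hQ a b, mul_assoc, hC, mul_zero]

section Split

open scoped Pointwise in
/-- (ZA3) `t(τ) = 1 + ε(τ)` after localisation at `𝔫` -/
theorem za_split [Finite B] (hQ : QuadAct f ρ ε t) (𝔫 : Ideal R) [𝔫.IsMaximal] (τ b : G)
    (hab : ε τ * ε b * (2 - t (τ⁻¹ * b⁻¹ * τ * b)) ∉ 𝔫)
    (htr : t τ - 1 - ε τ ∈ 𝔫)
    (k : ℕ) (hk : 0 < k) (hM : (ρ τ - 1) ^ (k + 1) = ρ τ - 1) :
    ∃ η : R, η ∉ 𝔫 ∧ f (η * (t τ - 1 - ε τ)) = 0 := by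
  obtain ⟨k, rfl⟩ : ∃ k', k = k' + 1 := ⟨k - 1, by omega⟩
  set M : B := ρ τ - 1 with hMdef
  set e : B := M ^ (k + 1) with he
  set u : R := t τ - 1 - ε τ with hu
  have hττ : ρ τ⁻¹ * ρ τ = 1 := by rw [← map_mul, inv_mul_cancel, map_one]
  have hττ' : ρ τ * ρ τ⁻¹ = 1 := by rw [← map_mul, mul_inv_cancel, map_one]
  have hfu : f u = ρ τ + f (ε τ) * ρ τ⁻¹ - 1 - f (ε τ) := by
    rw [hu, map_sub, map_sub, map_one, ← hQ.quad τ]
  have h1 : M * (1 - e) = 0 := by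
    rw [mul_sub, mul_one, he, ← pow_succ', hM, sub_self]
  have h2 : ρ τ * (1 - e) = 1 - e := by
    have : (ρ τ - 1) * (1 - e) = 0 := h1
    rw [sub_mul, one_mul, sub_eq_zero] at this
    exact this
  have h3 : ρ τ⁻¹ * (1 - e) = 1 - e := by
    calc ρ τ⁻¹ * (1 - e) = ρ τ⁻¹ * (ρ τ * (1 - e)) := by rw [h2]
      _ = 1 - e := by rw [← mul_assoc, hττ, one_mul]
  have h4 : f u * (1 - e) = 0 := by
    rw [hfu, sub_mul, sub_mul, add_mul, mul_assoc, h2, h3, one_mul]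
    abel
  have h5 : M * (ρ τ - f (ε τ)) = f u * ρ τ := by
    rw [hQ.comm, hfu, hMdef]
    have : ρ τ * (f (ε τ) * ρ τ⁻¹) = f (ε τ) := by
      rw [← mul_assoc, ← hQ.comm, mul_assoc, hττ', mul_one]
    rw [mul_sub (ρ τ) _ (f (ε τ)), mul_sub (ρ τ) _ 1, mul_add, this, mul_sub, sub_mul, sub_mul,
      one_mul, one_mul, mul_one]
    abel
  have hcM : ∀ x : R, Commute (f x) M := by
    intro x
    exact (Commute.sub_right (hQ.comm x τ) (Commute.one_right _))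
  let _ : Module R B := Module.compHom B f
  have hsm : ∀ (r : R) (x : B), r • x = f r * x := fun _ _ => rfl
  set Λ : Submodule R B := Submodule.span R {z | ∃ (g : G) (x : B), z = ρ g * (1 - e) * x} with hΛ
  have hΛu : ∀ z ∈ Λ, f u * z = 0 := by
    intro z hz
    induction hz using Submodule.span_induction with
    | mem z hz =>
      obtain ⟨g, x, rfl⟩ := hz
      rw [← mul_assoc, ← mul_assoc, hQ.comm, mul_assoc (ρ g), h4, mul_zero, zero_mul]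
    | zero => rw [mul_zero]
    | add x y _ _ hx hy => rw [mul_add, hx, hy, add_zero]
    | smul r x _ hx => rw [hsm, ← mul_assoc, za_f_comm, mul_assoc, hx, mul_zero]
  have hΛρ : ∀ (h : G), ∀ z ∈ Λ, ρ h * z ∈ Λ := by
    intro h z hz
    induction hz using Submodule.span_induction with
    | mem z hz =>
      obtain ⟨g, x, rfl⟩ := hz
      apply Submodule.subset_span
      exact ⟨h * g, x, by rw [map_mul]; simp only [mul_assoc]⟩
    | zero => rw [mul_zero]; exact Λ.zero_mem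
    | add x y _ _ hx hy => rw [mul_add]; exact Λ.add_mem hx hy
    | smul r x _ hx =>
      rw [hsm, ← mul_assoc, ← hQ.comm, mul_assoc, ← hsm]
      exact Λ.smul_mem _ hx
  have hnρ : ∀ (h : G), ∀ z ∈ 𝔫 • (⊤ : Submodule R B), ρ h * z ∈ 𝔫 • (⊤ : Submodule R B) := by
    intro h z hz
    induction hz using Submodule.smul_induction_on' with
    | smul r hr m _ =>
      rw [hsm, ← mul_assoc, ← hQ.comm, mul_assoc, ← hsm]
      exact Submodule.smul_mem_smul hr Submodule.mem_top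
    | add x _ y _ hx hy => rw [mul_add]; exact Submodule.add_mem _ hx hy
  set P : Submodule R B := Λ ⊔ 𝔫 • (⊤ : Submodule R B) with hP
  have hPρ : ∀ (h : G), ∀ z ∈ P, ρ h * z ∈ P := by
    intro h z hz
    obtain ⟨z₁, hz₁, z₂, hz₂, rfl⟩ := Submodule.mem_sup.1 hz
    rw [mul_add]
    exact Submodule.add_mem _ (Submodule.mem_sup_left (hΛρ h z₁ hz₁))
      (Submodule.mem_sup_right (hnρ h z₂ hz₂))
  have hy : ∀ x : B, (ρ τ - f (ε τ)) * x ∈ P := by
    intro x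
    have e1 : (ρ τ - f (ε τ)) * x = (1 - e) * ((ρ τ - f (ε τ)) * x) + e * ((ρ τ - f (ε τ)) * x) := by
      rw [sub_mul 1 e, one_mul, sub_add_cancel]
    rw [e1]
    refine Submodule.add_mem _ (Submodule.mem_sup_left ?_) (Submodule.mem_sup_right ?_)
    · apply Submodule.subset_span
      exact ⟨1, (ρ τ - f (ε τ)) * x, by rw [map_one, one_mul]⟩
    · have e2 : e * ((ρ τ - f (ε τ)) * x) = u • (M ^ k * (ρ τ * x)) := by
        rw [hsm, he, pow_succ, mul_assoc, ← mul_assoc M, h5, mul_assoc (f u), ← mul_assoc (M ^ k),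
          ← ((hcM u).pow_right k).eq, mul_assoc]
      rw [e2]
      exact Submodule.smul_mem_smul htr Submodule.mem_top
  have hC : ∀ x : B, (ρ τ * ρ b - ρ b * ρ τ) * x ∈ P := by
    intro x
    have e1 : (ρ τ * ρ b - ρ b * ρ τ) * x
        = (ρ τ - f (ε τ)) * (ρ b * x) - ρ b * ((ρ τ - f (ε τ)) * x) := by
      have : f (ε τ) * (ρ b * x) = ρ b * (f (ε τ) * x) := by
        rw [← mul_assoc, hQ.comm, mul_assoc]
      rw [sub_mul, sub_mul, sub_mul, mul_sub, this]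
      simp only [mul_assoc]
      abel
    rw [e1]
    exact Submodule.sub_mem _ (hy _) (hPρ b _ (hy x))
  have hn : ∀ x : B, f (ε τ * ε b * (2 - t (τ⁻¹ * b⁻¹ * τ * b))) * x ∈ P := by
    intro x
    rw [← za_comm_norm hQ τ b, mul_assoc, mul_assoc, ← hsm]
    apply P.smul_mem
    rw [sub_mul, mul_assoc, mul_assoc]
    exact Submodule.sub_mem _ (hPρ _ _ (hPρ _ _ (hC x))) (hPρ _ _ (hPρ _ _ (hC x)))
  have htop : (⊤ : Submodule R B) ≤ Λ ⊔ 𝔫 • (⊤ : Submodule R B) := by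
    intro x _
    obtain ⟨y, i, hi, hyi⟩ := Ideal.IsMaximal.exists_inv (inferInstance : 𝔫.IsMaximal) hab
    have e1 : x = y • (f (ε τ * ε b * (2 - t (τ⁻¹ * b⁻¹ * τ * b))) * x) + i • x := by
      rw [hsm, hsm, ← mul_assoc, ← map_mul, ← add_mul, ← map_add, hyi, map_one, one_mul]
    rw [e1]
    exact Submodule.add_mem _ (P.smul_mem _ (hn x))
      (Submodule.mem_sup_right (Submodule.smul_mem_smul hi Submodule.mem_top))
  have hfg : (⊤ : Submodule R B).FG := Module.Finite.fg_top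
  obtain ⟨r, hr1, hr2⟩ :=
    Submodule.exists_sub_one_mem_and_smul_le_of_fg_of_le_sup hfg le_rfl htop
  refine ⟨r, ?_, ?_⟩
  · intro hr
    have : (1 : R) ∈ 𝔫 := by
      have := 𝔫.sub_mem hr hr1
      simpa using this
    exact (Ideal.IsMaximal.ne_top inferInstance) ((Ideal.eq_top_iff_one 𝔫).2 this)
  · have hmem : r • (1 : B) ∈ Λ :=
      hr2 (Submodule.smul_mem_pointwise_smul (1 : B) r ⊤ Submodule.mem_top)
    have := hΛu _ hmem
    rw [hsm, mul_one, ← map_mul, mul_comm] at this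
    exact this

/-- `(ρτ - ε τ)(ρτ - 1) = u ρτ` -/
theorem za_quad_factor (hQ : QuadAct f ρ ε t) (τ : G) :
    (ρ τ - f (ε τ)) * (ρ τ - 1) = f (t τ - 1 - ε τ) * ρ τ := by
  have hττ' : ρ τ⁻¹ * ρ τ = 1 := by rw [← map_mul, inv_mul_cancel, map_one]
  rw [map_sub, map_sub, map_one, ← hQ.quad τ, sub_mul _ _ (ρ τ), sub_mul _ _ (ρ τ), add_mul,
    mul_assoc, hττ', mul_one, one_mul, mul_sub, sub_mul, mul_one]
  abel

/-- the four term version of the trace lemma -/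
theorem za_trace_four (hQ : QuadAct f ρ ε t) (𝔫 : Ideal R) [𝔫.IsPrime] (a b : G)
    (hab : ε a * ε b * (2 - t (a⁻¹ * b⁻¹ * a * b)) ∉ 𝔫) (x : R) (g₁ g₂ g₃ g₄ : G) (η : R)
    (hη : η ∉ 𝔫) (h : f η * (ρ g₁ - ρ g₂ - f x * ρ g₃ + f x * ρ g₄) = 0) :
    ∃ η' : R, η' ∉ 𝔫 ∧ f (η' * (t g₁ - t g₂ - x * t g₃ + x * t g₄)) = 0 := by
  obtain ⟨η', h1, h2⟩ := za_trace hQ 𝔫 a b hab (Finset.univ : Finset (Fin 4)) ![1, -1, -x, x]
    ![g₁, g₂, g₃, g₄] η hη (by
      rw [Fin.sum_univ_four]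
      simp only [Matrix.cons_val_zero, Matrix.cons_val_one, Matrix.cons_val]
      rw [← h]
      congr 1
      simp only [map_one, map_neg, one_mul, neg_mul]
      abel)
  refine ⟨η', h1, ?_⟩
  rw [← h2]
  congr 2
  rw [Fin.sum_univ_four]
  simp only [Matrix.cons_val_zero, Matrix.cons_val_one, Matrix.cons_val]
  ring

/-- (ZA4) inertia -/
theorem za_inertia [Finite B] (hQ : QuadAct f ρ ε t) (𝔫 : Ideal R) [𝔫.IsMaximal] (τ b : G)
    (hab : ε τ * ε b * (2 - t (τ⁻¹ * b⁻¹ * τ * b)) ∉ 𝔫)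
    (htr : t τ - 1 - ε τ ∈ 𝔫)
    (k : ℕ) (hk : 0 < k) (hM : (ρ τ - 1) ^ (k + 1) = ρ τ - 1)
    (σ : G) (X : B) (hσ : ρ σ - 1 = (ρ τ - 1) * X) (g : G) :
    ∃ η : R, η ∉ 𝔫 ∧
      f (η * (t (τ * σ * g) - t (τ * g) - ε τ * t (σ * g) + ε τ * t g)) = 0 := by
  obtain ⟨η, hη, hηu⟩ := za_split hQ 𝔫 τ b hab htr k hk hM
  refine za_trace_four hQ 𝔫 τ b hab (ε τ) _ _ _ _ η hη ?_
  have e : ρ (τ * σ * g) - ρ (τ * g) - f (ε τ) * ρ (σ * g) + f (ε τ) * ρ g
      = (ρ τ - f (ε τ)) * (ρ σ - 1) * ρ g := by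
    simp only [map_mul, sub_mul, mul_sub, mul_one, one_mul, mul_assoc]
    abel
  rw [e, hσ, ← mul_assoc (ρ τ - f (ε τ)), za_quad_factor hQ, ← mul_assoc, ← mul_assoc, ← mul_assoc,
    ← map_mul, hηu, zero_mul, zero_mul, zero_mul]

/-- (ZA5) decomposition group -/
theorem za_decomp [Finite B] (hQ : QuadAct f ρ ε t) (𝔫 : Ideal R) [𝔫.IsMaximal] (τ b : G)
    (hab : ε τ * ε b * (2 - t (τ⁻¹ * b⁻¹ * τ * b)) ∉ 𝔫)
    (htr : t τ - 1 - ε τ ∈ 𝔫)
    (k : ℕ) (hk : 0 < k) (hM : (ρ τ - 1) ^ (k + 1) = ρ τ - 1)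
    (σ : G) (X : B) (hσ : ρ σ * (ρ τ - 1) = (ρ τ - 1) * X) (g : G) :
    ∃ η : R, η ∉ 𝔫 ∧
      f (η * (t (τ * σ * τ * g) - t (τ * σ * g) - ε τ * t (σ * τ * g) + ε τ * t (σ * g))) = 0 := by
  obtain ⟨η, hη, hηu⟩ := za_split hQ 𝔫 τ b hab htr k hk hM
  refine za_trace_four hQ 𝔫 τ b hab (ε τ) _ _ _ _ η hη ?_
  have e : ρ (τ * σ * τ * g) - ρ (τ * σ * g) - f (ε τ) * ρ (σ * τ * g) + f (ε τ) * ρ (σ * g)
      = (ρ τ - f (ε τ)) * (ρ σ * (ρ τ - 1)) * ρ g := by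
    simp only [map_mul, sub_mul, mul_sub, mul_one, one_mul, mul_assoc]
    abel
  rw [e, hσ, ← mul_assoc (ρ τ - f (ε τ)), za_quad_factor hQ, ← mul_assoc, ← mul_assoc, ← mul_assoc,
    ← map_mul, hηu, zero_mul, zero_mul, zero_mul]

end Split

end Fermat.Agent.S33Lib
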