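import Fermat.Agent.S33.ZDefs
import Fermat.Agent.S33.ZAbs

/-!
# S33 library, block (Z), leaf (ZH): Hecke operators approximating `ρ g + ε(g) ρ g⁻¹`
-/

set_option autoImplicit false

noncomputable section

namespace Fermat.Agent.S33Lib

open IsLocalRing Polynomial CuspForm
open Fermat.Agent.S53Lib Fermat.Agent.S31Lib
open Fermat.Agent.ESLib (TT0 IsESData redM)

variable {N : ℕ} [NeZero N] {S : Finset ℕ} {p : ℕ}
  {𝒪 : Type} [CommRing 𝒪] [IsDomain 𝒪] [IsDiscreteValuationRing 𝒪]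
  [IsAdicComplete (IsLocalRing.maximalIdeal 𝒪) 𝒪]
  {θ : CuspForm.heckeAlgebra N 2 (↑S : Set ℕ) →+* IsLocalRing.ResidueField 𝒪}
  {T : Type} [CommRing T] [IsLocalRing T] [IsNoetherianRing T]
  [IsAdicComplete (IsLocalRing.maximalIdeal T) T] [Algebra 𝒪 T] [IsLocalHom (algebraMap 𝒪 T)]
  [Module.Finite 𝒪 T] [Module.Free 𝒪 T]

/-- the characteristic polynomials of Frobenius elements of a matrix form of `H.ρ` -/
def FrobChar (H : CuspForm.HeckeGaloisRepDatum N (↑S : Set ℕ) 𝒪 θ T) (r' : GQ →* M2 T) : Prop :=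
  ∀ (ℓ : ℕ) (hℓ : ℓ.Prime) (hℓN : ¬ ℓ ∣ N) (hℓS : ℓ ∉ (↑S : Set ℕ))
    (A : ValuationSubring (AlgebraicClosure ℚ)), A.LiesOverPrime ℓ → ∀ τ : GQ,
    A.IsFrobeniusAt τ ℓ →
    (r' τ).charpoly = X ^ 2 - C (H.π (heckeAlgebra.T hℓ hℓN hℓS)) * X + C ((ℓ : T))

theorem exists_hecke_approx (hp : p.Prime)
    (hp𝒪 : (p : 𝒪) ∈ IsLocalRing.maximalIdeal 𝒪) (hpS : p ∈ S)
    (hNS : ∀ q : ℕ, q.Prime → q ∣ N → q ∈ S) {r : ℕ}
    {Θ : TT0 N →+* Matrix (Fin r) (Fin r) ℤ}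
    {ρ : (n : ℕ) → GQ →* Matrix (Fin r) (Fin r) (ZMod (p ^ n))} (hES : IsESData N p r Θ ρ)
    (H : CuspForm.HeckeGaloisRepDatum N (↑S : Set ℕ) 𝒪 θ T)
    (r' : GQ →* M2 T) (hc : MatCont r') (hchar : FrobChar H r')
    (m n : ℕ) (hnm : n ≤ m) (ω : GQ →* (ZMod (p ^ m))ˣ)
    (hω₁ : ∃ L : IntermediateField ℚ (AlgebraicClosure ℚ), FiniteDimensional ℚ L ∧
        ∀ σ : GQ, (∀ x ∈ L, σ x = x) → ω σ = 1)
    (hω₂ : ∀ ℓ : ℕ, ℓ.Prime → ℓ ≠ p → ∀ A : ValuationSubring (AlgebraicClosure ℚ),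
        A.LiesOverPrime ℓ → ∀ σ : GQ, A.IsFrobeniusAt σ ℓ →
          ((ω σ : (ZMod (p ^ m))ˣ) : ZMod (p ^ m)) = (ℓ : ZMod (p ^ m)))
    (g : GQ) :
    ∃ (t : heckeAlgebra N 2 (↑S : Set ℕ)) (e : ℕ),
      redH r p m (Θ (incT hNS t)) =
        ρ m g + (e : Matrix (Fin r) (Fin r) (ZMod (p ^ m))) * ρ m g⁻¹ ∧
      (e : ZMod (p ^ m)) = ((ω g : (ZMod (p ^ m))ˣ) : ZMod (p ^ m)) ∧
      H.π t - (r' g).trace ∈ maximalIdeal T ^ n ∧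
      (e : T) - (r' g).det ∈ maximalIdeal T ^ n := by
  obtain ⟨L₁, hL₁, hLr⟩ := hc n
  obtain ⟨L₂, hL₂, hLρ⟩ := hES.level m
  obtain ⟨Lω, hLωfd, hLω⟩ := hω₁
  have hfd : FiniteDimensional ℚ (L₁ ⊔ L₂ ⊔ Lω : IntermediateField ℚ (AlgebraicClosure ℚ)) := by
    have : FiniteDimensional ℚ (L₁ ⊔ L₂ : IntermediateField ℚ (AlgebraicClosure ℚ)) :=
      IntermediateField.finiteDimensional_sup _ _
    exact IntermediateField.finiteDimensional_sup _ _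
  obtain ⟨U, hUo, hUn, hU⟩ := exists_open_normal_le _ hfd
  obtain ⟨ℓ, A, τ, k, -, hℓ, hℓS, hA, hτ, hk, -⟩ := weakCheb U hUo hUn g S
  have hℓN : ¬ ℓ ∣ N := fun h => hℓS (hNS ℓ hℓ h)
  have hℓS' : ℓ ∉ (↑S : Set ℕ) := by simpa using hℓS
  have hℓp : ℓ ≠ p := fun h => hℓS (h ▸ hpS)
  have hu1 : ∀ i j, (r' (g⁻¹ * τ ^ k) - 1) i j ∈ maximalIdeal T ^ n :=
    hLr _ fun x hx => hU _ hk x (le_sup_left (b := Lω) (le_sup_left (b := L₂) hx))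
  have hu2 : ρ m (g⁻¹ * τ ^ k) = 1 :=
    hLρ _ fun x hx => hU _ hk x (le_sup_left (b := Lω) (le_sup_right (a := L₁) hx))
  have hu3 : ω (g⁻¹ * τ ^ k) = 1 :=
    hLω _ fun x hx => hU _ hk x (le_sup_right (a := L₁ ⊔ L₂) hx)
  have hτg : τ ^ k = g * (g⁻¹ * τ ^ k) := by group
  have hg : ρ m (τ ^ k) = ρ m g := by rw [hτg, map_mul, hu2, mul_one]
  have hginv : ρ m ((τ ^ k)⁻¹) = ρ m g⁻¹ := by
    have e1 : ρ m ((τ ^ k)⁻¹) * ρ m g = 1 := by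
      rw [← hg, ← map_mul, inv_mul_cancel, map_one]
    have e2 : ρ m g * ρ m g⁻¹ = 1 := by rw [← map_mul, mul_inv_cancel, map_one]
    calc ρ m ((τ ^ k)⁻¹) = ρ m ((τ ^ k)⁻¹) * (ρ m g * ρ m g⁻¹) := by rw [e2, mul_one]
      _ = ρ m g⁻¹ := by rw [← mul_assoc, e1, one_mul]
  refine ⟨newton (heckeAlgebra.T hℓ hℓN hℓS') (ℓ : _) k, ℓ ^ k, ?_, ?_, ?_, ?_⟩
  · rw [newton_trunk hNS hES m hℓ hℓN hℓS' hℓp A τ hA hτ k, hg, hginv, Nat.cast_pow]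
  · have e1 : ω (τ ^ k) = ω g := by rw [hτg, map_mul, hu3, mul_one]
    rw [← e1, map_pow, Units.val_pow_eq_pow_val, hω₂ ℓ hℓ hℓp A hA τ hτ, Nat.cast_pow]
  · have e₁ : (r' (τ ^ k)).trace - (r' g).trace ∈ maximalIdeal T ^ n := by
      rw [hτg]
      exact trace_sub_trace_mem _ r' _ _ hu1
    have e₂ : H.π (newton (heckeAlgebra.T hℓ hℓN hℓS') (ℓ : _) k) = (r' (τ ^ k)).trace := by
      rw [map_pow, trace_pow_eq_newton _ _ _ (hchar ℓ hℓ hℓN hℓS' A hA τ hτ), map_newton,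
        map_natCast]
    rw [e₂]
    exact e₁
  · have e₁ : (r' (τ ^ k)).det - (r' g).det ∈ maximalIdeal T ^ n := by
      rw [hτg]
      exact det_sub_det_mem _ r' _ _ hu1
    have hdet : (r' τ).det = (ℓ : T) := by
      have h1 := Matrix.det_eq_sign_charpoly_coeff (r' τ)
      rw [hchar ℓ hℓ hℓN hℓS' A hA τ hτ] at h1
      simpa [coeff_X, coeff_C] using h1
    have e₂ : ((ℓ ^ k : ℕ) : T) = (r' (τ ^ k)).det := by
      rw [map_pow, Matrix.det_pow, hdet, Nat.cast_pow]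
    rw [e₂]
    exact e₁

end Fermat.Agent.S33Lib
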