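import Fermat.Agent.S33.ZDefs
import Fermat.Agent.S33.ZAbs

/-!
# S33 library, block (Z), leaf (ZC): the cyclotomic character mod `p ^ m`, with its defining
property
-/

set_option autoImplicit false
set_option linter.style.haveILetI false

noncomputable section

namespace Fermat.Agent.S33Lib

open Fermat.Agent.S53Lib Fermat.Agent.S31Lib

theorem exists_cyclo_pow2 (p : ℕ) (hp : p.Prime) (m : ℕ) (hm : 0 < m) :
    ∃ ω : GQ →* (ZMod (p ^ m))ˣ,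
      (∃ L : IntermediateField ℚ (AlgebraicClosure ℚ), FiniteDimensional ℚ L ∧
        ∀ σ : GQ, (∀ x ∈ L, σ x = x) → ω σ = 1) ∧
      (∀ ℓ : ℕ, ℓ.Prime → ℓ ≠ p → ∀ A : ValuationSubring (AlgebraicClosure ℚ),
        A.LiesOverPrime ℓ → ∀ σ : GQ, A.IsFrobeniusAt σ ℓ →
          ((ω σ : (ZMod (p ^ m))ˣ) : ZMod (p ^ m)) = (ℓ : ZMod (p ^ m))) ∧
      (∀ (σ : GQ) (a : ℕ), ((ω σ : (ZMod (p ^ m))ˣ) : ZMod (p ^ m)) = (a : ZMod (p ^ m)) →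
        ∀ ζ : AlgebraicClosure ℚ, ζ ^ p = 1 → σ ζ = ζ ^ a) := by
  haveI : NeZero (p ^ m) := ⟨pow_ne_zero m hp.ne_zero⟩
  obtain ⟨ζ, hζ⟩ := HasEnoughRootsOfUnity.exists_primitiveRoot (AlgebraicClosure ℚ) (p ^ m)
  have hint : IsIntegral ℤ ζ := hζ.isIntegral (NeZero.pos _)
  have hnd : ∀ ℓ : ℕ, ℓ.Prime → ℓ ≠ p → ¬ ℓ ∣ p ^ m := fun ℓ hℓ hℓp h =>
    hℓp ((Nat.prime_dvd_prime_iff_eq hℓ hp).mp (hℓ.dvd_of_dvd_pow h))
  have hone : ∀ σ : GQ, σ ζ = ζ → hζ.autToPow ℚ σ = 1 := by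
    intro σ h
    apply Units.ext
    rw [cy_autToPow_eq hζ σ 1 (by rw [h, pow_one]), Nat.cast_one, Units.val_one]
  refine ⟨hζ.autToPow ℚ, ?_, ?_, ?_⟩
  · refine ⟨IntermediateField.adjoin ℚ {ζ},
      IntermediateField.adjoin.finiteDimensional (hint.tower_top), ?_⟩
    intro σ hσ
    exact hone σ (hσ ζ (IntermediateField.mem_adjoin_simple_self ℚ ζ))
  · intro ℓ hℓ hℓp A hA σ hσ
    exact cy_autToPow_eq hζ σ ℓ
      (Fermat.Agent.ChebLib.frobenius_zeta A σ ℓ (p ^ m) hℓ hA hσ (hnd ℓ hℓ hℓp) ζ hζ.pow_eq_one)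
  · intro σ a ha ξ hξ
    -- `σ ζ = ζ ^ a`
    have hspec := hζ.autToPow_spec ℚ σ
    have hσζ : σ ζ = ζ ^ a := by
      rw [← hspec]
      have hfin : IsOfFinOrder ζ :=
        isOfFinOrder_iff_pow_eq_one.2 ⟨p ^ m, NeZero.pos _, hζ.pow_eq_one⟩
      rw [hfin.pow_eq_pow_iff_modEq, ← hζ.eq_orderOf, ← ZMod.natCast_eq_natCast_iff,
        ZMod.natCast_zmod_val]
      exact ha
    -- `ξ` is a power of `ζ`
    have hξ' : ξ ^ (p ^ m) = 1 := by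
      obtain ⟨m', rfl⟩ : ∃ m', m = m' + 1 := ⟨m - 1, by omega⟩
      rw [pow_succ', pow_mul, hξ, one_pow]
    obtain ⟨i, -, rfl⟩ := hζ.eq_pow_of_pow_eq_one hξ'
    rw [map_pow, hσζ, ← pow_mul, ← pow_mul, mul_comm]

end Fermat.Agent.S33Lib
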