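import Fermat.Agent.S33.MKeyP
import Fermat.Agent.S36.NrmAux

/-!
# S33 library, (LD): level descent `2 N → N` for KEY at level `p M`
-/

set_option autoImplicit false
set_option synthInstance.maxHeartbeats 400000
set_option linter.unusedSectionVars false
set_option linter.style.haveILetI false

open AlgebraicCurve IntermediateField ModularCurve
  Fermat.Agent.S24Lib Fermat.Agent.FFLib Fermat.Agent.S18Lib Fermat.Agent.S28Lib
  Fermat.Agent.ESLib Fermat.Agent.S34Lib Fermat.Agent.S36Lib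

namespace Fermat.Agent.S33Lib

noncomputable section

section WC

variable (M p : ℕ) [NeZero M] [NeZero p] [hpF : Fact p.Prime] (hpM : ¬ p ∣ M)

/-- `w_p J_e = J_{p e}` for `e ∣ M` -/
theorem LD_wq_J (e : ℕ) (he : e ∣ M) (h : Wq_J e ∈ FB (p * M)) :
    ((wq M p hpM ⟨Wq_J e, h⟩ : FB (p * M)) : LaurentSeries Qb) = Wq_J (p * e) := by
  rw [coe_wq M p hpM (Wq_J e) (Wq_J_mem he) h, Wq_qExpand_J]

/-- `w_p J_{p e} = J_e` for `e ∣ M` -/
theorem LD_wq_J_mul (e : ℕ) (he : e ∣ M) (h : Wq_J (p * e) ∈ FB (p * M)) :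
    ((wq M p hpM ⟨Wq_J (p * e), h⟩ : FB (p * M)) : LaurentSeries Qb) = Wq_J e := by
  have h0 : Wq_J e ∈ FB (p * M) := Wq_J_mem (Dvd.dvd.mul_left he p)
  have h1 : (⟨Wq_J (p * e), h⟩ : FB (p * M)) = wq M p hpM ⟨Wq_J e, h0⟩ :=
    Subtype.ext (LD_wq_J M p hpM e he h0).symm
  rw [h1, wq_wq]

/-- (WC) `w_p` at the levels `p M` and `p (2 M)` -/
theorem coe_wq_two_mul (hpM2 : ¬ p ∣ 2 * M) (x : LaurentSeries Qb) (hx : x ∈ FB (p * M))
    (hx' : x ∈ FB (p * (2 * M))) :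
    ((wq (2 * M) p hpM2 ⟨x, hx'⟩ : FB (p * (2 * M))) : LaurentSeries Qb) =
      ((wq M p hpM ⟨x, hx⟩ : FB (p * M)) : LaurentSeries Qb) := by
  have hd : p * M ∣ p * (2 * M) := Nat.mul_dvd_mul_left p (Dvd.intro_left 2 rfl)
  let f : FB (p * M) →+* LaurentSeries Qb :=
    ((FB (p * (2 * M))).val : FB (p * (2 * M)) →+* LaurentSeries Qb).comp
      (((wq (2 * M) p hpM2 : FB (p * (2 * M)) ≃ₐ[Qb] FB (p * (2 * M))) :
        FB (p * (2 * M)) →+* FB (p * (2 * M))).comp (aHom hd : FB (p * M) →+* FB (p * (2 * M))))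
  let g : FB (p * M) →+* LaurentSeries Qb :=
    ((FB (p * M)).val : FB (p * M) →+* LaurentSeries Qb).comp
      ((wq M p hpM : FB (p * M) ≃ₐ[Qb] FB (p * M)) : FB (p * M) →+* FB (p * M))
  have hfg : f = g := by
    apply Wq_ringHom_ext
    · intro c
      show ((wq (2 * M) p hpM2 (aHom hd (algebraMap Qb (FB (p * M)) c)) : FB (p * (2 * M))) :
          LaurentSeries Qb) = ((wq M p hpM (algebraMap Qb (FB (p * M)) c) : FB (p * M)) :
          LaurentSeries Qb)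
      rw [AlgHom.commutes, AlgEquiv.commutes, AlgEquiv.commutes]
      rfl
    · intro d hdd
      show ((wq (2 * M) p hpM2 (aHom hd ⟨Wq_J d, Wq_J_mem hdd⟩) : FB (p * (2 * M))) :
          LaurentSeries Qb) = ((wq M p hpM ⟨Wq_J d, Wq_J_mem hdd⟩ : FB (p * M)) :
          LaurentSeries Qb)
      rw [aHom_eq]
      obtain ⟨d₁, d₂, h1, h2, rfl⟩ := (Nat.dvd_mul).1 hdd
      rcases (Nat.dvd_prime hpF.out).1 h1 with rfl | rfl
      · simp only [one_mul]
        rw [LD_wq_J M p hpM d₂ h2, LD_wq_J (2 * M) p hpM2 d₂ (Dvd.dvd.mul_left h2 2)]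
      · rw [LD_wq_J_mul M d₁ hpM d₂ h2, LD_wq_J_mul (2 * M) d₁ hpM2 d₂ (Dvd.dvd.mul_left h2 2)]
  have := congrArg (fun φ : FB (p * M) →+* LaurentSeries Qb => φ ⟨x, hx⟩) hfg
  exact this

end WC

section CUBE

/-- a root of unity in `ℚ̄((q))` is a constant -/
theorem LD_const_of_pow_eq_one (n : ℕ) (hn : 0 < n) (u : LaurentSeries Qb) (hu : u ^ n = 1) :
    ∃ c : Qb, u = HahnSeries.C c := by
  have hint : IsIntegral Qb u := by
    refine ⟨Polynomial.X ^ n - 1, Polynomial.monic_X_pow_sub_C 1 hn.ne', ?_⟩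
    simp [hu]
  have hdeg : (minpoly Qb u).degree = 1 :=
    IsAlgClosed.degree_eq_one_of_irreducible Qb (minpoly.irreducible hint)
  obtain ⟨c, hc⟩ := minpoly.mem_range_of_degree_eq_one Qb u hdeg
  exact ⟨c, by rw [← hc, algebraMap_laurentSeries_eq_single]; rfl⟩

/-- (CUBE) -/
theorem mem_FB_of_pow_mem (N : ℕ) [NeZero N] (h2 : ¬ 2 ∣ N) (n : ℕ) (hn : 0 < n)
    (a : LaurentSeries Qb) (ha : a ∈ FB (2 * N)) (han : a ^ n ∈ FB N) : a ∈ FB N := by
  haveI : Fact (Nat.Prime 2) := Nat.fact_prime_two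
  by_cases ha0 : a = 0
  · rw [ha0]; exact (FB N).zero_mem
  letI := (IntermediateField.inclusion (FB_le N 2)).toRingHom.toAlgebra
  have hd := D2_degree (FB_le N 2)
  have h1 : (CongruenceSubgroup.Gamma0 (2 * N)).index =
      (CongruenceSubgroup.Gamma0 N).index * (2 + 1) := by
    rw [Fermat.Agent.S20Lib.index_Gamma0 (2 * N),
      Fermat.Agent.S20Lib.dedekindPsi_mul_of_not_dvd (NeZero.ne N) Nat.prime_two h2,
      ← Fermat.Agent.S20Lib.index_Gamma0 N, mul_comm]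
  have hrank : Module.finrank (FB N) (FB (2 * N)) = 3 := by
    rw [h1] at hd
    exact (Nat.eq_of_mul_eq_mul_left (Nat.pos_of_ne_zero (D2_index_ne_zero N)) hd).symm
  let φ : FB (2 * N) →+* LaurentSeries Qb :=
    ((FB (2 * N)).val : FB (2 * N) →+* LaurentSeries Qb).comp
      ((wq N 2 h2 : FB (2 * N) ≃ₐ[Qb] FB (2 * N)) : FB (2 * N) →+* FB (2 * N))
  have hφ : ∀ x : FB (2 * N), φ x = ((wq N 2 h2 x : FB (2 * N)) : LaurentSeries Qb) :=
    fun _ => rfl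
  have halg : ∀ (s : LaurentSeries Qb) (hs : s ∈ FB N),
      algebraMap (FB N) (FB (2 * N)) ⟨s, hs⟩ = ⟨s, FB_le N 2 hs⟩ := fun _ _ => rfl
  let E' : IntermediateField (FB N) (FB (2 * N)) :=
    Subfield.toIntermediateField ((qExpand Qb 2).fieldRange.comap φ) (by
      rintro ⟨s, hs⟩
      rw [halg s hs, Subfield.mem_comap, RingHom.mem_fieldRange, hφ]
      exact ⟨s, (coe_wq N 2 h2 s hs (FB_le N 2 hs)).symm⟩)
  have hE' : ∀ x : FB (2 * N), x ∈ E' ↔ ∃ y, qExpand Qb 2 y = φ x := fun x => Iff.rfl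
  haveI : IsSimpleOrder (IntermediateField (FB N) (FB (2 * N))) :=
    IntermediateField.isSimpleOrder_of_finrank_prime _ _ (by rw [hrank]; exact Nat.prime_three)
  have hmem : (⟨a, ha⟩ : FB (2 * N)) ∈ E' := by
    rw [hE', hφ]
    set b : LaurentSeries Qb := ((wq N 2 h2 ⟨a, ha⟩ : FB (2 * N)) : LaurentSeries Qb) with hb
    have hpw : (⟨a, ha⟩ : FB (2 * N)) ^ n = ⟨a ^ n, FB_le N 2 han⟩ :=
      Subtype.ext (SubmonoidClass.coe_pow _ _)
    have hbn : b ^ n = (qExpand Qb 2 a) ^ n := by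
      rw [← map_pow, ← coe_wq N 2 h2 (a ^ n) han (FB_le N 2 han), hb, ← SubmonoidClass.coe_pow,
        ← map_pow, hpw]
    have hq0 : qExpand Qb 2 a ≠ 0 := by
      intro h
      exact ha0 (qExpand_injective (R := Qb) 2 (h.trans (map_zero _).symm))
    obtain ⟨c, hc⟩ := LD_const_of_pow_eq_one n hn (b / qExpand Qb 2 a) (by
      rw [div_pow, hbn, div_self (pow_ne_zero n hq0)])
    refine ⟨HahnSeries.C c * a, ?_⟩
    rw [map_mul, qExpand_C, ← hc, div_mul_cancel₀ _ hq0]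
  rcases eq_bot_or_eq_top E' with hbot | htop
  · rw [hbot, IntermediateField.mem_bot] at hmem
    obtain ⟨⟨s, hs⟩, hx⟩ := hmem
    rw [halg s hs] at hx
    have : s = a := congrArg Subtype.val hx
    rw [← this]
    exact hs
  · exfalso
    have hJ : Wq_J (2 * 1) ∈ FB (2 * N) := Wq_J_mem (Nat.mul_dvd_mul_left 2 (one_dvd N))
    have hm : (⟨Wq_J (2 * 1), hJ⟩ : FB (2 * N)) ∈ E' := by rw [htop]; exact IntermediateField.mem_top
    rw [hE', hφ, LD_wq_J_mul N 2 h2 1 (one_dvd N) hJ] at hm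
    obtain ⟨y, hy⟩ := hm
    have h3 : (Wq_J 1).coeff (-1 : ℤ) = 1 := by
      rw [Wq_J_eq, coeffEmb_coeff, qExpand_one_apply, coeff_jq_neg_one, map_one]
    rw [← hy, qExpand_coeff_of_not_dvd 2 y (by norm_num)] at h3
    exact zero_ne_one h3

end CUBE

section LD

variable (M p : ℕ) [NeZero M] [NeZero p] [hpF : Fact p.Prime] (hpM : ¬ p ∣ M)
variable (A : ValuationSubring Qb)

/-- **KEY at level `p M`** -/
theorem key_pM (hp2 : p ≠ 2) (hA : A.LiesOverPrime p)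
    (τ₀ : GQ) (hτ₀ : τ₀ ∈ A.inertiaSubgroupIn ℚ) (ζ : Qb) (hζ : ζ ^ p = 1) (hmove : τ₀ ζ ≠ ζ)
    (h : FB (p * M)) (hK : IsKum (p * M) p h) (h1 : GOne A (h : LaurentSeries Qb))
    (h2 : GOne A ((wq M p hpM h : FB (p * M)) : LaurentSeries Qb))
    (g : FB (p * M)) (hg : gal (p * M) τ₀ h = g ^ p * h) : ∃ a : FB (p * M), h = a ^ p := by
  by_cases h2M : 2 ∣ M
  · exact key_pM_base M p hpM A (Or.inl h2M) hp2 hA τ₀ hτ₀ ζ hζ hmove h hK h1 h2 g hg
  have hpM2 : ¬ p ∣ 2 * M := by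
    intro hdv
    rcases (Nat.Prime.dvd_mul hpF.out).1 hdv with h' | h'
    · exact hp2 ((Nat.prime_dvd_prime_iff_eq hpF.out Nat.prime_two).1 h')
    · exact hpM h'
  have hd : p * M ∣ p * (2 * M) := Nat.mul_dvd_mul_left p (Dvd.intro_left 2 rfl)
  obtain ⟨x, hx⟩ := h
  obtain ⟨y, hy⟩ := g
  have hx' : x ∈ FB (p * (2 * M)) := FB_le_of_dvd hd hx
  have hy' : y ∈ FB (p * (2 * M)) := FB_le_of_dvd hd hy
  have hK' : IsKum (p * (2 * M)) p (⟨x, hx'⟩ : FB (p * (2 * M))) := by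
    have := aHom_isKum hd hK
    rwa [aHom_eq] at this
  have h2' : GOne A ((wq (2 * M) p hpM2 ⟨x, hx'⟩ : FB (p * (2 * M))) : LaurentSeries Qb) := by
    rw [coe_wq_two_mul M p hpM hpM2 x hx hx']
    exact h2
  have hg0 : coeffMap (τ₀ : Qb →+* Qb) x = y ^ p * x := by
    have := congrArg Subtype.val hg
    rw [coe_gal] at this
    exact this
  have hg' : gal (p * (2 * M)) τ₀ (⟨x, hx'⟩ : FB (p * (2 * M))) =
      (⟨y, hy'⟩ : FB (p * (2 * M))) ^ p * ⟨x, hx'⟩ := by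
    apply Subtype.ext
    rw [coe_gal]
    exact hg0
  obtain ⟨⟨a, ha⟩, hha⟩ := key_pM_base (2 * M) p hpM2 A (Or.inl (Dvd.intro M rfl)) hp2 hA τ₀ hτ₀ ζ
    hζ hmove ⟨x, hx'⟩ hK' h1 h2' ⟨y, hy'⟩ hg'
  have hxa : x = a ^ p := congrArg Subtype.val hha
  have hcomm : p * (2 * M) = 2 * (p * M) := Nat.mul_left_comm p 2 M
  have ha2 : a ∈ FB (2 * (p * M)) := hcomm ▸ ha
  have h2pM : ¬ 2 ∣ p * M := by
    intro hdv
    rcases (Nat.Prime.dvd_mul Nat.prime_two).1 hdv with h' | h'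
    · exact hp2 ((Nat.prime_dvd_prime_iff_eq Nat.prime_two hpF.out).1 h').symm
    · exact h2M h'
  have haM : a ∈ FB (p * M) :=
    mem_FB_of_pow_mem (p * M) h2pM p hpF.out.pos a ha2 (hxa ▸ hx)
  exact ⟨⟨a, haM⟩, Subtype.ext hxa⟩

end LD

end

end Fermat.Agent.S33Lib
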