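import Fermat.Agent.S33.XDefs

/-!
# S33 library, block (X), leaf (XS): small lemmas on constants
-/

set_option autoImplicit false

open Fermat.Agent.S18Lib Fermat.Agent.S34Lib

namespace Fermat.Agent.S33Lib

variable {K k F Φ : Type*} [Field K] [Field k] [Field F] [Algebra K F] [CommRing Φ] [Algebra k Φ]
  {A : ValuationSubring K} {resK : A →+* k}

/-! ### helpers -/

/-- `R.const` as a ring homomorphism -/
def xsC (R : RedG A resK F Φ) : A →+* R.O where
  toFun := R.const
  map_one' := Subtype.ext (map_one (algebraMap K F))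
  map_mul' a b := Subtype.ext (map_mul (algebraMap K F) (a : K) (b : K))
  map_zero' := Subtype.ext (map_zero (algebraMap K F))
  map_add' a b := Subtype.ext (map_add (algebraMap K F) (a : K) (b : K))

theorem xs_const (R : RedG A resK F Φ) (a : A) : R.const a = xsC R a := rfl

theorem xs_red_C (R : RedG A resK F Φ) (a : A) :
    R.red (xsC R a) = algebraMap k Φ (resK a) := R.red_const a

theorem xs_coe_C (R : RedG A resK F Φ) (a : A) :
    ((xsC R a : R.O) : F) = algebraMap K F (a : K) := rfl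

theorem xs_res_eq_zero_iff (hres : Function.Surjective resK) (a : A) :
    resK a = 0 ↔ A.valuation (a : K) < 1 := by
  rw [resK_eq_zero_iff hres, ← A.valuation_lt_one_iff, IsLocalRing.mem_maximalIdeal,
    mem_nonunits_iff]

theorem xs_res_ne_zero_iff (hres : Function.Surjective resK) (a : A) :
    resK a ≠ 0 ↔ A.valuation (a : K) = 1 := by
  rw [Ne, resK_eq_zero_iff hres, not_not, A.valuation_eq_one_iff]

theorem xs_algebraMap_inj [Nontrivial Φ] : Function.Injective (algebraMap k Φ) :=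
  (algebraMap k Φ).injective

/-- `x = t y` with `t ∈ 𝔪` has zero reduction -/
theorem xs_red_eq_zero (R : RedG A resK F Φ) (hres : Function.Surjective resK) (x y : R.O)
    (t : K) (ht : A.valuation t < 1) (h : ((x : R.O) : F) = algebraMap K F t * y) :
    R.red x = 0 := by
  have htA : t ∈ A := (A.valuation_le_one_iff t).1 ht.le
  have h1 : x = xsC R ⟨t, htA⟩ * y := Subtype.ext h
  rw [h1, map_mul, xs_red_C, (xs_res_eq_zero_iff hres ⟨t, htA⟩).2 ht, map_zero, zero_mul]

theorem xs_coe_ne_zero (R : RedG A resK F Φ) {x : R.O} (hx : R.red x ≠ 0) :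
    ((x : R.O) : F) ≠ 0 := by
  intro h
  apply hx
  have : x = 0 := Subtype.ext h
  rw [this, map_zero]

/-- a prime binomial expansion -/
theorem xs_binom {S : Type*} [CommRing S] {p : ℕ} (hp : p.Prime) (s t : S) :
    ∃ Q : S, (s + t) ^ p = s ^ p + t ^ p + p * t * (s ^ (p - 1) + t * Q) := by
  obtain ⟨n, rfl⟩ : ∃ n, p = n + 2 := ⟨p - 2, by have := hp.two_le; omega⟩
  have hI : Finset.Ioo 0 (n + 2) = insert (n + 1) (Finset.Ioo 0 (n + 1)) := by
    ext i
    simp only [Finset.mem_Ioo, Finset.mem_insert]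
    omega
  refine ⟨s * ∑ i ∈ Finset.Ioo 0 (n + 1),
    s ^ (i - 1) * t ^ (n - i) * ((n + 2).choose i / (n + 2) : ℕ), ?_⟩
  rw [add_pow_prime_eq hp, hI, Finset.sum_insert (by simp)]
  have h1 : ∑ i ∈ Finset.Ioo 0 (n + 1),
      s ^ (i - 1) * t ^ (n + 2 - i - 1) * ((n + 2).choose i / (n + 2) : ℕ)
      = t * ∑ i ∈ Finset.Ioo 0 (n + 1),
        s ^ (i - 1) * t ^ (n - i) * ((n + 2).choose i / (n + 2) : ℕ) := by
    rw [Finset.mul_sum]
    refine Finset.sum_congr rfl fun i hi => ?_
    rw [Finset.mem_Ioo] at hi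
    have : n + 2 - i - 1 = (n - i) + 1 := by omega
    rw [this, pow_succ]
    ring
  rw [h1]
  have h2 : (n + 2).choose (n + 1) / (n + 2) = 1 := by
    have : (n + 2).choose (n + 1) = n + 2 := by
      rw [show n + 2 = (n + 1) + 1 from rfl, Nat.choose_succ_self_right]
    rw [this]
    exact Nat.div_self (by omega)
  rw [h2]
  have h3 : n + 2 - (n + 1) - 1 = 0 := by omega
  have h4 : n + 1 - 1 = n := by omega
  have h5 : n + 2 - 1 = n + 1 := by omega
  rw [h3, h4, h5, pow_succ s n]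
  push_cast
  ring

/-- `p`-th roots of elements of `1 + 𝔪` and of units -/
theorem xs_exists_root [IsAlgClosed K] (p : ℕ) (hp : 0 < p) (a : A) :
    ∃ α : A, α ^ p = a := by
  obtain ⟨z, hz⟩ := IsAlgClosed.exists_pow_nat_eq (a : K) hp
  have hzA : z ∈ A := by
    rw [← A.valuation_le_one_iff]
    have h1 : A.valuation z ^ p ≤ 1 := by
      rw [← map_pow, hz]
      exact A.valuation_le_one a
    exact (pow_le_one_iff_of_nonneg zero_le hp.ne').1 h1
  exact ⟨⟨z, hzA⟩, Subtype.ext hz⟩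

theorem xs_eq_one_of_pow {S : Type*} [CommRing S] [IsReduced S] (p : ℕ) [Fact p.Prime]
    [CharP S p] {x : S} (h : x ^ p = 1) : x = 1 := by
  have h1 : (x - 1) ^ p = 0 := by rw [sub_pow_char, h, one_pow, sub_self]
  exact sub_eq_zero.1 (pow_eq_zero_iff (Fact.out : p.Prime).ne_zero |>.1 h1)

theorem xs_charP [Nontrivial Φ] (p : ℕ) [CharP k p] : CharP Φ p :=
  charP_of_injective_algebraMap (xs_algebraMap_inj (k := k) (Φ := Φ)) p

/-- the kernel of `resK` is the maximal ideal: consequence of the `RedG` structure alone -/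
theorem xs_ker [Nontrivial Φ] (R : RedG A resK F Φ) (a : A) : resK a = 0 ↔ ¬ IsUnit a := by
  constructor
  · intro h hu
    have := hu.map resK
    rw [h] at this
    exact not_isUnit_zero this
  · intro h
    by_contra hne
    apply h
    have h1 : IsUnit (R.red (R.const a)) := by
      rw [R.red_const]
      exact (isUnit_iff_ne_zero.2 hne).map (algebraMap k Φ)
    obtain ⟨b, hb⟩ := (R.isUnit_of_red _ h1).exists_right_inv
    have hbF : algebraMap K F (a : K) * ((b : R.O) : F) = 1 := congrArg Subtype.val hb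
    have ha0 : (a : K) ≠ 0 := by
      intro h0
      rw [h0, map_zero, zero_mul] at hbF
      exact zero_ne_one hbF
    have hb2 : ((b : R.O) : F) = algebraMap K F (a : K)⁻¹ := by
      rw [map_inv₀]
      exact eq_inv_of_mul_eq_one_right hbF
    have hinv : (a : K)⁻¹ ∈ A := by
      rw [← R.algebraMap_mem_iff, ← hb2]
      exact b.2
    exact IsUnit.of_mul_eq_one (⟨_, hinv⟩ : A) (Subtype.ext (mul_inv_cancel₀ ha0))

theorem xs_red_eq_zero' [Nontrivial Φ] (R : RedG A resK F Φ) (x y : R.O)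
    (t : K) (ht : A.valuation t < 1) (h : ((x : R.O) : F) = algebraMap K F t * y) :
    R.red x = 0 := by
  have htA : t ∈ A := (A.valuation_le_one_iff t).1 ht.le
  have h1 : x = xsC R ⟨t, htA⟩ * y := Subtype.ext h
  have h2 : resK ⟨t, htA⟩ = 0 := by
    rw [xs_ker R, ← mem_nonunits_iff, ← IsLocalRing.mem_maximalIdeal, A.valuation_lt_one_iff]
    exact ht
  rw [h1, map_mul, xs_red_C, h2, map_zero, zero_mul]

theorem xs_le_of_red_ne_zero' [Nontrivial Φ] (R : RedG A resK F Φ)
    (x y : R.O) (c c' : K) (hx : R.red x ≠ 0)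
    (h : algebraMap K F c * ((x : R.O) : F) = algebraMap K F c' * y) :
    A.valuation c ≤ A.valuation c' := by
  by_contra hlt
  push Not at hlt
  have hc0 : c ≠ 0 := by
    rintro rfl
    rw [map_zero] at hlt
    exact not_lt_zero hlt
  apply hx
  apply xs_red_eq_zero' R x y (c' / c)
  · rw [map_div₀]
    exact (div_lt_one₀ (zero_lt_iff.2 ((map_ne_zero _).2 hc0))).2 hlt
  · have hcF : algebraMap K F c ≠ 0 := by simpa using hc0
    rw [map_div₀, div_mul_eq_mul_div, ← h, mul_div_cancel_left₀ _ hcF]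

/-! ## (XS) `S33/XScale.lean` : small lemmas on constants -/

/-- `c x = c' y`, `red x ≠ 0` ⟹ `v(c') ≤ v(c)` is impossible to violate: `c ∣ c'`-form -/
theorem xs_le_of_red_ne_zero (R : RedG A resK F Φ) (hres : Function.Surjective resK)
    (x y : R.O) (c c' : K) (hx : R.red x ≠ 0)
    (h : algebraMap K F c * ((x : R.O) : F) = algebraMap K F c' * y) :
    A.valuation c ≤ A.valuation c' := by
  by_contra hlt
  push Not at hlt
  have hc0 : c ≠ 0 := by
    rintro rfl
    rw [map_zero] at hlt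
    exact not_lt_zero hlt
  apply hx
  apply xs_red_eq_zero R hres x y (c' / c)
  · rw [map_div₀]
    exact (div_lt_one₀ (zero_lt_iff.2 ((map_ne_zero _).2 hc0))).2 hlt
  · have hcF : algebraMap K F c ≠ 0 := by simpa using hc0
    rw [map_div₀, div_mul_eq_mul_div, ← h, mul_div_cancel_left₀ _ hcF]

/-- `x = c y`, `red x ≠ 0`, `red y ≠ 0` ⟹ `c` is a unit of `A` -/
theorem xs_unit_of_red_ne_zero (R : RedG A resK F Φ) (hres : Function.Surjective resK)
    (x y : R.O) (c : K) (hx : R.red x ≠ 0) (hy : R.red y ≠ 0)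
    (h : ((x : R.O) : F) = algebraMap K F c * y) : A.valuation c = 1 := by
  apply le_antisymm
  · have := xs_le_of_red_ne_zero R hres y x c 1 hy (by rw [map_one, one_mul, h])
    rwa [map_one] at this
  · have := xs_le_of_red_ne_zero R hres x y 1 c hx (by rw [map_one, one_mul, h])
    rwa [map_one] at this

/-- normalisation of a `p`-th root: `c g ^ p` reduces to `1` ⟹ `g = γ g₀`, `red g₀ = 1`,
`c γ ^ p ∈ 1 + 𝔪` -/
theorem xs_normalize (R : RedG A resK F Φ) (hres : Function.Surjective resK) [IsReduced Φ]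
    [Nontrivial Φ] [IsAlgClosed k] (p : ℕ) [Fact p.Prime] [CharP k p] (g : F) (c : K) (x : R.O)
    (hx : R.red x = 1) (h : ((x : R.O) : F) = algebraMap K F c * g ^ p) :
    ∃ (γ : K) (g₀ : R.O) (a : A), γ ≠ 0 ∧ R.red g₀ = 1 ∧ g = algebraMap K F γ * g₀ ∧
      (a : K) = c * γ ^ p ∧ resK a = 1 := by
  have hp : p.Prime := Fact.out
  have : CharP Φ p := xs_charP (k := k) p
  have hx1 : R.red x ≠ 0 := by rw [hx]; exact one_ne_zero
  have hg0 : g ≠ 0 := by
    rintro rfl
    apply xs_coe_ne_zero R hx1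
    rw [h, zero_pow hp.ne_zero, mul_zero]
  obtain ⟨γ', hγ'0, g', hg', hgg'⟩ := R.exists_scale g hg0
  have hg'p : R.red (g' ^ p) ≠ 0 := by
    rw [map_pow]
    exact pow_ne_zero _ hg'
  have hxe : ((x : R.O) : F) = algebraMap K F (c * γ' ^ p) * ((g' ^ p : R.O) : F) := by
    rw [h, hgg', mul_pow, map_mul, map_pow]
    push_cast
    ring
  have hv := xs_unit_of_red_ne_zero R hres x (g' ^ p) (c * γ' ^ p) hx1 hg'p hxe
  have haA : c * γ' ^ p ∈ A := (A.valuation_le_one_iff _).1 hv.le
  set a' : A := ⟨c * γ' ^ p, haA⟩ with ha'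
  have ha'0 : resK a' ≠ 0 := (xs_res_ne_zero_iff hres a').2 hv
  have hx2 : x = xsC R a' * g' ^ p := Subtype.ext hxe
  have h1 : algebraMap k Φ (resK a') * R.red g' ^ p = 1 := by
    rw [← hx, hx2, map_mul, xs_red_C, map_pow]
  obtain ⟨β, hβ⟩ := IsAlgClosed.exists_pow_nat_eq (resK a')⁻¹ hp.pos
  have hβ0 : β ≠ 0 := by
    rintro rfl
    rw [zero_pow hp.ne_zero] at hβ
    exact inv_ne_zero ha'0 hβ.symm
  have h2 : R.red g' ^ p = algebraMap k Φ β ^ p := by
    calc R.red g' ^ p = algebraMap k Φ ((resK a')⁻¹ * resK a') * R.red g' ^ p := by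
          rw [inv_mul_cancel₀ ha'0, map_one, one_mul]
      _ = algebraMap k Φ (resK a')⁻¹ * (algebraMap k Φ (resK a') * R.red g' ^ p) := by
          rw [map_mul, mul_assoc]
      _ = algebraMap k Φ (resK a')⁻¹ := by rw [h1, mul_one]
      _ = algebraMap k Φ β ^ p := by rw [← hβ, map_pow]
  have h3 : R.red g' = algebraMap k Φ β := by
    have h4 : (R.red g' - algebraMap k Φ β) ^ p = 0 := by rw [sub_pow_char, h2, sub_self]
    exact sub_eq_zero.1 ((pow_eq_zero_iff hp.ne_zero).1 h4)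
  obtain ⟨b, hb⟩ := hres β
  have hbv : A.valuation (b : K) = 1 := (xs_res_ne_zero_iff hres b).1 (by rw [hb]; exact hβ0)
  have hb0 : (b : K) ≠ 0 := by
    intro h0
    rw [h0, map_zero] at hbv
    exact zero_ne_one hbv
  have hbinv : (b : K)⁻¹ ∈ A := by
    rw [← A.valuation_le_one_iff, map_inv₀, hbv, inv_one]
  set b' : A := ⟨(b : K)⁻¹, hbinv⟩ with hb'
  have hb'b : b' * b = 1 := Subtype.ext (inv_mul_cancel₀ hb0)
  have hresb' : resK b' * β = 1 := by rw [← hb, ← map_mul, hb'b, map_one]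
  refine ⟨γ' * b, xsC R b' * g', a' * b ^ p, mul_ne_zero hγ'0 hb0, ?_, ?_, ?_, ?_⟩
  · rw [map_mul, xs_red_C, h3, ← map_mul, hresb', map_one]
  · rw [hgg']
    change _ = algebraMap K F (γ' * b) * (algebraMap K F (b : K)⁻¹ * ((g' : R.O) : F))
    rw [← mul_assoc, ← map_mul, mul_assoc γ', mul_inv_cancel₀ hb0, mul_one]
  · change c * γ' ^ p * (b : K) ^ p = _
    rw [mul_pow, mul_assoc]
  · rw [map_mul, map_pow, hb, hβ, mul_inv_cancel₀ ha'0]

end Fermat.Agent.S33Lib
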