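import Fermat.Agent.S31.Unipotent

/-!
# S33 library: the interface (ORD) between the geometric part and the algebraic part
-/

set_option autoImplicit false

namespace Fermat.Agent.S33Lib

open Fermat.Agent.S53Lib (GQ)
open Matrix

/-- **(ORD)** for a place `A` above `p` and `τ₀` in its inertia group: with `M = ρ_n(τ₀) - 1`,
`Im M` is stable under the decomposition group, contains `Im (ρ_n(σ) - 1)` for `σ` in the inertia
group, and `Ker M ∩ Im M = 0`. -/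
structure IsOrdData (p r : ℕ) (ρ : (n : ℕ) → GQ →* Matrix (Fin r) (Fin r) (ZMod (p ^ n)))
    (A : ValuationSubring (AlgebraicClosure ℚ)) (τ₀ : GQ) : Prop where
  dec : ∀ (n : ℕ), ∀ σ ∈ A.decompositionSubgroup ℚ, ∀ v : Fin r → ZMod (p ^ n),
    ∃ v' : Fin r → ZMod (p ^ n), ρ n σ *ᵥ ((ρ n τ₀ - 1) *ᵥ v) = (ρ n τ₀ - 1) *ᵥ v'
  ine : ∀ (n : ℕ), ∀ σ ∈ A.inertiaSubgroupIn ℚ, ∀ v : Fin r → ZMod (p ^ n),
    ∃ v' : Fin r → ZMod (p ^ n), (ρ n σ - 1) *ᵥ v = (ρ n τ₀ - 1) *ᵥ v'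
  inj : ∀ (n : ℕ) (v : Fin r → ZMod (p ^ n)),
    (ρ n τ₀ - 1) *ᵥ ((ρ n τ₀ - 1) *ᵥ v) = 0 → (ρ n τ₀ - 1) *ᵥ v = 0

end Fermat.Agent.S33Lib
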