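import Fermat.Agent.S33.MDefs
import Fermat.Agent.S33.MDescent
import Fermat.Agent.S33.XScale
import Fermat.Agent.S33.ZDefs
import Fermat.Agent.S34.UnipKummer
import Fermat.Agent.ES.TrunkX

/-!
# S33 library, modular part, block (T): the trunk clause (ORD)
-/

set_option autoImplicit false
set_option synthInstance.maxHeartbeats 400000
set_option linter.unusedSectionVars false

open AlgebraicCurve IntermediateField ModularCurve
  Fermat.Agent.S24Lib Fermat.Agent.FFLib Fermat.Agent.S18Lib Fermat.Agent.S28Lib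
  Fermat.Agent.ESLib Fermat.Agent.S34Lib

namespace Fermat.Agent.S33Lib

noncomputable section

variable (M p : ℕ) [NeZero M] [NeZero p] [hpF : Fact p.Prime] (hpM : ¬ p ∣ M)
variable (A : ValuationSubring Qb) (hA : A.LiesOverPrime p)

/-! ### `GOne` -/

theorem mt_gOne_mul {A : ValuationSubring Qb} {f g : LaurentSeries Qb} (hf : GOne A f)
    (hg : GOne A g) : GOne A (f * g) := by
  obtain ⟨h1, e1⟩ := hf
  obtain ⟨h2, e2⟩ := hg
  refine ⟨(gRing A).mul_mem h1 h2, ?_⟩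
  have : (⟨f * g, (gRing A).mul_mem h1 h2⟩ : gRing A) = ⟨f, h1⟩ * ⟨g, h2⟩ := rfl
  rw [this, map_mul, e1, e2, one_mul]

theorem mt_gOne_inv {A : ValuationSubring Qb} {f : LaurentSeries Qb} (hf : GOne A f) :
    GOne A f⁻¹ := by
  obtain ⟨h1, e1⟩ := hf
  have h2 := inv_mem_gRing A ⟨f, h1⟩ (by rw [e1]; exact one_ne_zero)
  refine ⟨h2, ?_⟩
  have hf0 : f ≠ 0 := by
    rintro rfl
    have : (⟨0, h1⟩ : gRing A) = 0 := rfl
    rw [this, map_zero] at e1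
    exact zero_ne_one e1
  have h3 : (⟨f, h1⟩ : gRing A) * ⟨f⁻¹, h2⟩ = 1 := Subtype.ext (mul_inv_cancel₀ hf0)
  have h4 := congrArg (gRed A) h3
  rw [map_mul, e1, one_mul, map_one] at h4
  exact h4

variable {M p hpM A}
variable {R : RedG A (IsLocalRing.residue A) (FB (p * M)) (FT A M × FT A M)}

theorem mt_red_eq_one_iff (hR : IsQRed2 M p hpM A R) (x : FB (p * M)) :
    (∃ hx : x ∈ R.O, R.red ⟨x, hx⟩ = 1) ↔
      GOne A (x : LaurentSeries Qb) ∧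
        GOne A ((wq M p hpM x : FB (p * M)) : LaurentSeries Qb) := by
  constructor
  · rintro ⟨hx, hred⟩
    obtain ⟨h1, h2⟩ := (hR.mem_iff x).1 hx
    refine ⟨⟨h1, ?_⟩, ⟨h2, ?_⟩⟩
    · rw [← hR.red_fst ⟨x, hx⟩ h1, hred]
      rfl
    · rw [← hR.red_snd ⟨x, hx⟩ h2, hred]
      rfl
  · rintro ⟨⟨h1, e1⟩, ⟨h2, e2⟩⟩
    have hx : x ∈ R.O := (hR.mem_iff x).2 ⟨h1, h2⟩
    refine ⟨hx, Prod.ext (Subtype.ext ?_) (Subtype.ext ?_)⟩
    · rw [hR.red_fst ⟨x, hx⟩ h1, e1]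
      rfl
    · rw [hR.red_snd ⟨x, hx⟩ h2, e2]
      rfl

variable (M p hpM A)

/-- a root of unity in a function field is a constant -/
theorem mt_const_of_pow_eq_one (N : ℕ) [NeZero N] (z : FB N) (n : ℕ) (hn : 0 < n)
    (hz : z ^ n = 1) : ∃ ξ : Qb, z = algebraMap Qb (FB N) ξ := by
  have h1 : z ∈ (algebraMap Qb (FB N)).range := by
    rw [← mem_L_zero_iff (isFF_FB N), mem_L_iff]
    intro v
    right
    have h2 := ma_ord_pow v z n
    rw [hz, v.ord_one] at h2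
    have hn' : (n : ℤ) ≠ 0 := by exact_mod_cast hn.ne'
    have h3 : v.ord z = 0 := by
      rcases mul_eq_zero.1 h2.symm with h | h
      · exact absurd h hn'
      · exact h
    rw [h3]
    simp
  obtain ⟨ξ, hξ⟩ := h1
  exact ⟨ξ, hξ.symm⟩

/-- (T0) KEY modulo `p ^ n` -/
theorem key_pow (hp2 : p ≠ 2) (hA : A.LiesOverPrime p)
    (τ₀ : GQ) (hτ₀ : τ₀ ∈ A.inertiaSubgroupIn ℚ) (ζ : Qb) (hζ : ζ ^ p = 1) (hmove : τ₀ ζ ≠ ζ)
    (n : ℕ) (h : FB (p * M)) (hK : IsKum (p * M) (p ^ n) h) (h1 : GOne A (h : LaurentSeries Qb))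
    (h2 : GOne A ((wq M p hpM h : FB (p * M)) : LaurentSeries Qb))
    (g : FB (p * M)) (hg : gal (p * M) τ₀ h = g ^ (p ^ n) * h) :
    ∃ a : FB (p * M), h = a ^ (p ^ n) := by
  have hp : p.Prime := hpF.out
  induction n generalizing h g with
  | zero => exact ⟨h, by simp⟩
  | succ n ih =>
    have := isAlgClosed_kk A
    have : CharP (kk A) p := charP_kk hpF.out hA
    have hK' : IsKum (p * M) p h :=
      ⟨hK.1, fun P => dvd_trans (by exact_mod_cast dvd_pow_self p (Nat.succ_ne_zero n)) (hK.2 P)⟩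
    have hg' : gal (p * M) τ₀ h = (g ^ (p ^ n)) ^ p * h := by
      rw [hg, ← pow_mul, pow_succ]
    obtain ⟨a, ha⟩ := key_pM M p hpM A hp2 hA τ₀ hτ₀ ζ hζ hmove h hK' h1 h2 _ hg'
    obtain ⟨R, hR⟩ := exists_red2 M p hpM A hA
    obtain ⟨hx, hred⟩ := (mt_red_eq_one_iff hR h).2 ⟨h1, h2⟩
    obtain ⟨γ, g₀, a', hγ, hg₀, hag, -, -⟩ :=
      xs_normalize R IsLocalRing.residue_surjective p a 1 ⟨h, hx⟩ hred (by
        rw [map_one, one_mul]; exact ha)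
    set a₀ : FB (p * M) := ((g₀ : R.O) : FB (p * M)) with ha₀
    obtain ⟨k1, k2⟩ := (mt_red_eq_one_iff hR a₀).1 ⟨g₀.2, hg₀⟩
    have hγF : algebraMap Qb (FB (p * M)) γ ≠ 0 := by simpa using hγ
    have ha0 : a ≠ 0 := by
      rintro rfl
      exact hK.1 (by rw [ha, zero_pow hp.ne_zero])
    have ha₀0 : a₀ ≠ 0 := by
      intro h0
      apply ha0
      rw [hag, h0, mul_zero]
    have hKa : IsKum (p * M) (p ^ n) a₀ := by
      refine ⟨ha₀0, fun P => ?_⟩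
      have e1 := hK.2 P
      rw [ha, ma_ord_pow, hag, P.ord_mul hγF ha₀0, ord_algebraMap, zero_add] at e1
      have hp0 : (p : ℤ) ≠ 0 := by exact_mod_cast hp.ne_zero
      push_cast at e1 ⊢
      rw [pow_succ, mul_comm] at e1
      exact (mul_dvd_mul_iff_left hp0).1 e1
    -- the Galois action
    have hτγ : τ₀ γ ≠ 0 := by simpa using hγ
    have hτγF : algebraMap Qb (FB (p * M)) (τ₀ γ) ≠ 0 := by simpa using hτγ
    have hgc : gal (p * M) τ₀ (algebraMap Qb (FB (p * M)) γ) =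
        algebraMap Qb (FB (p * M)) (τ₀ γ) := arithmeticRingAut_algebraMap _ τ₀ γ
    have hg0 : g ≠ 0 := by
      rintro rfl
      rw [zero_pow (pow_pos hp.pos _).ne', zero_mul] at hg
      exact hK.1 ((map_eq_zero_iff _ (gal (p * M) τ₀).injective).1 hg)
    set X : FB (p * M) := gal (p * M) τ₀ a₀ with hX
    set Y : FB (p * M) := g ^ (p ^ n) * (algebraMap Qb (FB (p * M)) γ /
      algebraMap Qb (FB (p * M)) (τ₀ γ)) * a₀ with hY
    have hY0 : Y ≠ 0 :=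
      mul_ne_zero (mul_ne_zero (pow_ne_zero _ hg0) (div_ne_zero hγF hτγF)) ha₀0
    have hXY : X ^ p = Y ^ p := by
      have e1 : gal (p * M) τ₀ h = (algebraMap Qb (FB (p * M)) (τ₀ γ) * X) ^ p := by
        rw [ha, map_pow, hag, map_mul, hgc]
      have e2 : (algebraMap Qb (FB (p * M)) (τ₀ γ) * X) ^ p =
          (g ^ (p ^ n)) ^ p * (algebraMap Qb (FB (p * M)) γ * a₀) ^ p := by
        rw [← e1, hg', ha, hag]
      rw [hY, mul_pow, mul_pow, div_pow]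
      rw [mul_pow, mul_pow] at e2
      field_simp
      linear_combination e2
    obtain ⟨ξ, hξ⟩ := mt_const_of_pow_eq_one (p * M) (X / Y) p hp.pos (by
      rw [div_pow, hXY, div_self (pow_ne_zero _ hY0)])
    obtain ⟨e, he⟩ := IsAlgClosed.exists_pow_nat_eq (ξ * (γ / τ₀ γ)) (pow_pos hp.pos n)
    have hga : gal (p * M) τ₀ a₀ = (algebraMap Qb (FB (p * M)) e * g) ^ (p ^ n) * a₀ := by
      have e1 : X = algebraMap Qb (FB (p * M)) ξ * Y := by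
        rw [← hξ, div_mul_cancel₀ _ hY0]
      rw [← hX, e1, hY, mul_pow, ← map_pow, he, map_mul, map_div₀]
      ring
    obtain ⟨a₁, ha₁⟩ := ih a₀ hKa k1 k2 _ hga
    obtain ⟨c, hc⟩ := IsAlgClosed.exists_pow_nat_eq (γ ^ p) (pow_pos hp.pos (n + 1))
    refine ⟨algebraMap Qb (FB (p * M)) c * a₁, ?_⟩
    rw [mul_pow, ← map_pow, hc, ha, hag, mul_pow, map_pow, ha₁, ← pow_mul, pow_succ]

/-- (T1) the decomposition group preserves `≡ 1` -/
theorem gOne_decomp (σ : GQ) (hσ : σ ∈ A.decompositionSubgroup ℚ) (f : LaurentSeries Qb)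
    (hf : GOne A f) : GOne A (coeffMap (σ : Qb →+* Qb) f) := by
  obtain ⟨hmem, hred⟩ := hf
  have h1 := gNum_spec A ⟨f, hmem⟩
  have e2 := gRed_eq A ⟨f, hmem⟩ (gDen_ne A ⟨f, hmem⟩) h1
  rw [hred, eq_comm, div_eq_one_iff_eq (gDen_ne A ⟨f, hmem⟩)] at e2
  set a := gNum A ⟨f, hmem⟩
  set s := gDen A ⟨f, hmem⟩
  have h2 : coeffMap (σ : Qb →+* Qb) f * cE A (coeffMap (actA A σ hσ) s)
      = cE A (coeffMap (actA A σ hσ) a) := by
    rw [cE_def, cE_def, coeffMap_subtype_actA, coeffMap_subtype_actA, ← cE_def, ← cE_def, ← h1,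
      map_mul]
  have hcoef : ∀ (y : LaurentSeries A) (n : ℤ), (cR A (coeffMap (actA A σ hσ) y)).coeff n =
      (⟨σ, hσ⟩ : A.decompositionSubgroup ℚ) • (cR A y).coeff n := by
    intro y n
    rw [cR_def, cR_def, coeffMap_coeff, coeffMap_coeff, coeffMap_coeff, residue_actA]
  have h3 : cR A (coeffMap (actA A σ hσ) s) ≠ 0 := by
    intro h0
    apply gDen_ne A ⟨f, hmem⟩
    ext n
    have h4 := hcoef s n
    rw [h0, HahnSeries.coeff_zero, eq_comm, smul_eq_zero_iff_eq] at h4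
    rw [h4, HahnSeries.coeff_zero]
  have h5 : cR A (coeffMap (actA A σ hσ) a) = cR A (coeffMap (actA A σ hσ) s) := by
    ext n
    rw [hcoef, hcoef, e2]
  have hmem' : coeffMap (σ : Qb →+* Qb) f ∈ gRing A :=
    ⟨coeffMap (actA A σ hσ) a, coeffMap (actA A σ hσ) s, h3, h2⟩
  refine ⟨hmem', ?_⟩
  rw [gRed_eq A ⟨_, hmem'⟩ h3 h2, h5, div_self h3]

/-- (T2) every Kummer class is represented, up to `m`-th powers, by a function whose two
reductions are nonzero; hence `σ f / f ≡ (1, 1)` up to `m`-th powers for `σ` in inertia -/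
theorem exists_gOne_inertia (hA : A.LiesOverPrime p) (σ : GQ) (hσ : σ ∈ A.inertiaSubgroupIn ℚ)
    (m : ℕ) (hm : 0 < m) (f : FB (p * M)) (hf : f ≠ 0) :
    ∃ G u : FB (p * M), G ≠ 0 ∧ gal (p * M) σ f = G ^ m * u * f ∧
      GOne A (u : LaurentSeries Qb) ∧
      GOne A ((wq M p hpM u : FB (p * M)) : LaurentSeries Qb) := by
  obtain ⟨R, hR⟩ := exists_red2 M p hpM A hA
  obtain ⟨c, G₀, h, hc, hG₀, hu, hf'⟩ :=
    exists_normalize IsLocalRing.residue_surjective R f hf m hm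
  obtain ⟨hσh, hσr⟩ := inertia_mem hR σ hσ h
  obtain ⟨uh, huh⟩ := R.isUnit_of_red h hu
  set hi : R.O := ((uh⁻¹ : R.Oˣ) : R.O) with hhi_def
  have hhi : h * hi = 1 := by rw [← huh, hhi_def]; simp
  have hhiF : ((h : R.O) : FB (p * M)) * ((hi : R.O) : FB (p * M)) = 1 :=
    congrArg Subtype.val hhi
  have hh0 : ((h : R.O) : FB (p * M)) ≠ 0 := left_ne_zero_of_mul_eq_one hhiF
  set u : R.O := ⟨_, hσh⟩ * hi with hu_def
  have hru : R.red u = 1 := by rw [hu_def, map_mul, hσr, ← map_mul, hhi, map_one]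
  have huF : ((u : R.O) : FB (p * M)) * h = gal (p * M) σ h := by
    show gal (p * M) σ h * ((hi : R.O) : FB (p * M)) * h = _
    rw [mul_assoc, mul_comm ((hi : R.O) : FB (p * M)), hhiF, mul_one]
  obtain ⟨d, hd⟩ := IsAlgClosed.exists_pow_nat_eq (σ c / c) hm
  have hσc : σ c ≠ 0 := by simpa using hc
  have hd0 : d ≠ 0 := by
    rintro rfl
    rw [zero_pow hm.ne'] at hd
    exact div_ne_zero hσc hc hd.symm
  have hgc : gal (p * M) σ (algebraMap Qb (FB (p * M)) c) = algebraMap Qb (FB (p * M)) (σ c) :=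
    arithmeticRingAut_algebraMap _ σ c
  have hσG : gal (p * M) σ G₀ ≠ 0 := (map_ne_zero_iff _ (gal (p * M) σ).injective).mpr hG₀
  have hcF : algebraMap Qb (FB (p * M)) c ≠ 0 := by simpa using hc
  refine ⟨algebraMap Qb (FB (p * M)) d * (gal (p * M) σ G₀ / G₀), u, ?_, ?_,
    (mt_red_eq_one_iff hR u).1 ⟨u.2, hru⟩⟩
  · exact mul_ne_zero (by simpa using hd0) (div_ne_zero hσG hG₀)
  · have e1 : gal (p * M) σ f =
        algebraMap Qb (FB (p * M)) (σ c) * gal (p * M) σ G₀ ^ m * gal (p * M) σ h := by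
      conv_lhs => rw [hf']
      rw [map_mul, map_mul, map_pow, hgc]
    have e2 : algebraMap Qb (FB (p * M)) (σ c) =
        algebraMap Qb (FB (p * M)) d ^ m * algebraMap Qb (FB (p * M)) c := by
      rw [← map_pow, hd, ← map_mul, div_mul_cancel₀ _ hc]
    rw [e1, ← huF, e2]
    conv_rhs => rw [hf']
    rw [mul_pow, div_pow]
    field_simp

/-- the subgroup `T_n` of classes of functions `≡ (1, 1)` -/
def mtT {r : ℕ} (b : Module.Basis (Fin r) ℤ (EP (p * M) ℤ)) (m : ℕ) :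
    Set (Fin r → ZMod m) :=
  {v | ∃ h : FB (p * M), P.Kap b m h v ∧ GOne A (h : LaurentSeries Qb) ∧
    GOne A ((wq M p hpM h : FB (p * M)) : LaurentSeries Qb)}

theorem mt_sub_mem (H : TrunkHyp (p * M)) {r : ℕ}
    (b : Module.Basis (Fin r) ℤ (EP (p * M) ℤ)) {m : ℕ} (hm : 0 < m)
    {v v' : Fin r → ZMod m} (hv : v ∈ mtT M p hpM A b m) (hv' : v' ∈ mtT M p hpM A b m) :
    v - v' ∈ mtT M p hpM A b m := by
  obtain ⟨h, hK, h1, h2⟩ := hv
  obtain ⟨h', hK', h1', h2'⟩ := hv'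
  refine ⟨h * h'⁻¹, ?_, ?_, ?_⟩
  · rw [sub_eq_add_neg]
    exact hK.mul H hm (hK'.inv H hm)
  · exact mt_gOne_mul h1 (mt_gOne_inv h1')
  · rw [map_mul, map_inv₀]
    exact mt_gOne_mul h2 (mt_gOne_inv h2')

theorem mt_inertia_mem (H : TrunkHyp (p * M)) {r : ℕ}
    (b : Module.Basis (Fin r) ℤ (EP (p * M) ℤ)) (hA : A.LiesOverPrime p) {m : ℕ} (hm : 0 < m)
    (σ : GQ) (hσ : σ ∈ A.inertiaSubgroupIn ℚ) (v : Fin r → ZMod m) :
    (P.rhoM b H hm σ - 1).mulVec v ∈ mtT M p hpM A b m := by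
  obtain ⟨f, hf⟩ := P.Kap.exists (b := b) H hm v
  have hf0 := hf.ne_zero H hm
  obtain ⟨G, u, hG, hgal, hu1, hu2⟩ := exists_gOne_inertia M p hpM A hA σ hσ m hm f hf0
  have h1 := P.rhoM_spec H hm σ hf
  have h2 := h1.mul H hm (hf.inv H hm)
  have e1 : gal (p * M) σ f * f⁻¹ = G ^ m * u := by
    rw [hgal, mul_inv_cancel_right₀ hf0]
  rw [e1] at h2
  have h3 := h2.pow_mul H hm (inv_ne_zero hG)
  have e2 : G⁻¹ ^ m * (G ^ m * u) = u := by
    rw [← mul_assoc, ← mul_pow, inv_mul_cancel₀ hG, one_pow, one_mul]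
  rw [e2] at h3
  refine ⟨u, ?_, hu1, hu2⟩
  rw [Matrix.sub_mulVec, Matrix.one_mulVec, sub_eq_add_neg]
  exact h3

theorem mt_decomp_mem (H : TrunkHyp (p * M)) {r : ℕ}
    (b : Module.Basis (Fin r) ℤ (EP (p * M) ℤ)) {m : ℕ} (hm : 0 < m)
    (σ : GQ) (hσ : σ ∈ A.decompositionSubgroup ℚ) {v : Fin r → ZMod m}
    (hv : v ∈ mtT M p hpM A b m) : (P.rhoM b H hm σ).mulVec v ∈ mtT M p hpM A b m := by
  obtain ⟨h, hK, h1, h2⟩ := hv
  refine ⟨gal (p * M) σ h, P.rhoM_spec H hm σ hK, gOne_decomp A σ hσ _ h1, ?_⟩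
  rw [wq_gal]
  exact gOne_decomp A σ hσ _ h2

theorem mt_injOn (hp2 : p ≠ 2) (H : TrunkHyp (p * M)) {r : ℕ}
    (b : Module.Basis (Fin r) ℤ (EP (p * M) ℤ)) (hA : A.LiesOverPrime p)
    (τ₀ : GQ) (hτ₀ : τ₀ ∈ A.inertiaSubgroupIn ℚ) (ζ : Qb) (hζ : ζ ^ p = 1) (hmove : τ₀ ζ ≠ ζ)
    (n : ℕ) {v : Fin r → ZMod (p ^ n)} (hv : v ∈ mtT M p hpM A b (p ^ n))
    (h0 : (P.rhoM b H (pow_pos hpF.out.pos n) τ₀ - 1).mulVec v = 0) : v = 0 := by
  have hm := pow_pos hpF.out.pos n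
  obtain ⟨h, hK, h1, h2⟩ := hv
  rw [Matrix.sub_mulVec, Matrix.one_mulVec, sub_eq_zero] at h0
  have k1 := P.rhoM_spec H hm τ₀ hK
  rw [h0] at k1
  have k2 := k1.mul H hm (hK.inv H hm)
  rw [add_neg_cancel] at k2
  obtain ⟨g, -, hg⟩ := k2.eq_pow H hm
  have hh0 := hK.ne_zero H hm
  have hg' : gal (p * M) τ₀ h = g ^ (p ^ n) * h := by
    rw [← hg, inv_mul_cancel_right₀ hh0]
  obtain ⟨a, ha⟩ := key_pow M p hpM A hp2 hA τ₀ hτ₀ ζ hζ hmove n h (hK.isKum H hm) h1 h2 g hg'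
  have ha0 : a ≠ 0 := by
    rintro rfl
    exact hh0 (by rw [ha, zero_pow hm.ne'])
  rw [ha] at hK
  exact hK.unique H hm (P.Kap.pow_self H hm ha0)

theorem mt_surjOn (hp2 : p ≠ 2) (H : TrunkHyp (p * M)) {r : ℕ}
    (b : Module.Basis (Fin r) ℤ (EP (p * M) ℤ)) (hA : A.LiesOverPrime p)
    (τ₀ : GQ) (hτ₀ : τ₀ ∈ A.inertiaSubgroupIn ℚ) (ζ : Qb) (hζ : ζ ^ p = 1) (hmove : τ₀ ζ ≠ ζ)
    (n : ℕ) {v : Fin r → ZMod (p ^ n)} (hv : v ∈ mtT M p hpM A b (p ^ n)) :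
    ∃ v' : Fin r → ZMod (p ^ n), v = (P.rhoM b H (pow_pos hpF.out.pos n) τ₀ - 1).mulVec v' := by
  have hm := pow_pos hpF.out.pos n
  have : NeZero (p ^ n) := ⟨hm.ne'⟩
  let φ : mtT M p hpM A b (p ^ n) → mtT M p hpM A b (p ^ n) := fun w =>
    ⟨(P.rhoM b H hm τ₀ - 1).mulVec w.1, mt_inertia_mem M p hpM A H b hA hm τ₀ hτ₀ w.1⟩
  have hφ : Function.Injective φ := by
    intro w w' hww
    have e1 : (P.rhoM b H hm τ₀ - 1).mulVec w.1 = (P.rhoM b H hm τ₀ - 1).mulVec w'.1 :=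
      congrArg Subtype.val hww
    have e2 : (P.rhoM b H hm τ₀ - 1).mulVec (w.1 - w'.1) = 0 := by
      rw [Matrix.mulVec_sub, e1, sub_self]
    have e3 := mt_injOn M p hpM A hp2 H b hA τ₀ hτ₀ ζ hζ hmove n
      (mt_sub_mem M p hpM A H b hm w.2 w'.2) e2
    exact Subtype.ext (sub_eq_zero.1 e3)
  obtain ⟨w, hw⟩ := (Finite.injective_iff_surjective.1 hφ) ⟨v, hv⟩
  exact ⟨w.1, (congrArg Subtype.val hw).symm⟩

/-- (T3) -/
theorem rhoM_isOrdData (hp2 : p ≠ 2) (hpM : ¬ p ∣ M) (H : TrunkHyp (p * M)) {r : ℕ}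
    (b : Module.Basis (Fin r) ℤ (EP (p * M) ℤ)) (hA : A.LiesOverPrime p)
    (τ₀ : GQ) (hτ₀ : τ₀ ∈ A.inertiaSubgroupIn ℚ) (ζ : Qb) (hζ : ζ ^ p = 1) (hmove : τ₀ ζ ≠ ζ) :
    IsOrdData p r (fun n => P.rhoM b H (pow_pos hpF.out.pos n)) A τ₀ where
  dec n σ hσ v :=
    mt_surjOn M p hpM A hp2 H b hA τ₀ hτ₀ ζ hζ hmove n
      (mt_decomp_mem M p hpM A H b _ σ hσ (mt_inertia_mem M p hpM A H b hA _ τ₀ hτ₀ v))
  ine n σ hσ v :=
    mt_surjOn M p hpM A hp2 H b hA τ₀ hτ₀ ζ hζ hmove n (mt_inertia_mem M p hpM A H b hA _ σ hσ v)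
  inj n v h0 :=
    mt_injOn M p hpM A hp2 H b hA τ₀ hτ₀ ζ hζ hmove n (mt_inertia_mem M p hpM A H b hA _ τ₀ hτ₀ v)
      h0

/-- the trunk with the clause (ORD) -/
theorem exists_esData_ord (hp2 : p ≠ 2) (hpM : ¬ p ∣ M) :
    ∃ (r : ℕ) (Θ : TT0 (p * M) →+* Matrix (Fin r) (Fin r) ℤ)
      (ρ : (n : ℕ) → GQ →* Matrix (Fin r) (Fin r) (ZMod (p ^ n))), IsESData (p * M) p r Θ ρ ∧
      ∀ A : ValuationSubring Qb, A.LiesOverPrime p → ∀ τ₀ ∈ A.inertiaSubgroupIn ℚ,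
        (∃ ζ : Qb, ζ ^ p = 1 ∧ τ₀ ζ ≠ ζ) → IsOrdData p r ρ A τ₀ := by
  set H := (trunkHyp0 (p * M)).toTrunkHyp with hH
  obtain ⟨r, b, Θ₀, hinj, hTr⟩ := H.theta
  refine ⟨r, P.ThM b Θ₀, _, P.isESData p H hinj hTr, ?_⟩
  rintro A hA τ₀ hτ₀ ⟨ζ, hζ, hmove⟩
  exact rhoM_isOrdData M p A hp2 hpM H b hA τ₀ hτ₀ ζ hζ hmove

end

end Fermat.Agent.S33Lib
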