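import Fermat.Agent.S36.K0d
import Fermat.Prelude.Def_GaloisRep_LocalConditions

/-!
# S33 library, block (G1): the inertia group at `p` acts non-trivially on `μ_p`
-/

set_option autoImplicit false

namespace Fermat.Agent.S33Lib

local notation "Qbar" => AlgebraicClosure ℚ
local notation "GQ" => (AlgebraicClosure ℚ ≃ₐ[ℚ] AlgebraicClosure ℚ)

/-- (G1) the inertia group at `p` acts non-trivially on `μ_p` -/
theorem exists_inertia_moving_zeta (p : ℕ) (hp : p.Prime) (hp2 : p ≠ 2)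
    (A : ValuationSubring Qbar) (hA : A.LiesOverPrime p) :
    ∃ τ₀ ∈ A.inertiaSubgroupIn ℚ, ∃ ζ : Qbar, ζ ^ p = 1 ∧ τ₀ ζ ≠ ζ := by
  haveI : NeZero (p : Qbar) := ⟨by exact_mod_cast hp.ne_zero⟩
  obtain ⟨ζ, hζ⟩ := HasEnoughRootsOfUnity.exists_primitiveRoot Qbar p
  have h2 : ¬ p ∣ 2 := by
    intro h
    exact hp2 ((Nat.prime_dvd_prime_iff_eq hp Nat.prime_two).1 h)
  obtain ⟨σ, hσ, hσζ⟩ := Fermat.Agent.S36Lib.exists_inertia_zeta A hp hA hζ 2 h2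
  refine ⟨σ, hσ, ζ, hζ.pow_eq_one, ?_⟩
  rw [hσζ]
  intro h
  have h0 : ζ ≠ 0 := hζ.ne_zero hp.ne_zero
  have h1 : ζ = 1 := by
    have : ζ * ζ = ζ * 1 := by rw [mul_one, ← sq, h]
    exact mul_left_cancel₀ h0 this
  exact hζ.ne_one hp.one_lt h1

end Fermat.Agent.S33Lib
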