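import Fermat.Agent.S33.ZDefs
import Fermat.Agent.S33.ZAbs

/-!
# S33 library, block (Z), leaves (ZF1) (ZF2): the final linear algebra
-/

set_option autoImplicit false

noncomputable section

namespace Fermat.Agent.S33Lib

open IsLocalRing Polynomial CuspForm
open Fermat.Agent.S53Lib Fermat.Agent.S31Lib

/-- a basis of `A ^ 2` from an invertible matrix: the columns -/
theorem zf_exists_basis {A : Type} [CommRing A] (P Q : M2 A) (hPQ : P * Q = 1) (hQP : Q * P = 1) :
    ∃ b : Module.Basis (Fin 2) A (Fin 2 → A), ∀ i j, b i j = P j i := by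
  have h1 : Matrix.toLin' P ∘ₗ Matrix.toLin' Q = LinearMap.id := by
    rw [← Matrix.toLin'_mul, hPQ, Matrix.toLin'_one]
  have h2 : Matrix.toLin' Q ∘ₗ Matrix.toLin' P = LinearMap.id := by
    rw [← Matrix.toLin'_mul, hQP, Matrix.toLin'_one]
  refine ⟨(Pi.basisFun A (Fin 2)).map
    (LinearEquiv.ofLinearMap (Matrix.toLin' P) (Matrix.toLin' Q) h1 h2), fun i j => ?_⟩
  rw [Module.Basis.map_apply, Pi.basisFun_apply]
  show (Matrix.toLin' P (Pi.single i 1)) j = P j i
  rw [Matrix.toLin'_apply, Matrix.mulVec_single_one]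
  rfl

/-- the key: a matrix of unit trace and zero determinant over a local ring -/
theorem zf_exists_basis_range {A : Type} [CommRing A] [IsLocalRing A] (n : M2 A)
    (htr : IsUnit n.trace) (hdet : n.det = 0) :
    ∃ (b : Module.Basis (Fin 2) A (Fin 2 → A)) (c : Fin 2 → A), b 0 = n.mulVec c ∧
      ∀ u : Fin 2 → A, n.mulVec u ∈ A ∙ b 0 := by
  rw [Matrix.trace_fin_two] at htr
  rw [Matrix.det_fin_two] at hdet
  rcases IsLocalRing.isUnit_or_isUnit_of_isUnit_add htr with h | h
  · obtain ⟨z, hw1⟩ : ∃ z : A, n 0 0 * z = 1 := by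
      obtain ⟨w, hw⟩ := h
      exact ⟨↑w⁻¹, by rw [← hw]; exact w.mul_inv⟩
    obtain ⟨b, hb⟩ := zf_exists_basis !![n 0 0, 0; n 1 0, 1] !![z, 0; -n 1 0 * z, 1]
      (by
        ext i j
        fin_cases i <;> fin_cases j <;>
          simp only [Matrix.mul_apply, Fin.sum_univ_two, Matrix.of_apply, Matrix.cons_val',
            Matrix.cons_val_zero, Matrix.cons_val_one, Matrix.cons_val_fin_one, Fin.zero_eta,
            Fin.mk_one, Fin.isValue, Matrix.one_apply_eq, ne_eq, zero_ne_one, one_ne_zero,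
            not_false_eq_true, Matrix.one_apply_ne]
        · linear_combination hw1
        · ring
        · ring
        · ring)
      (by
        ext i j
        fin_cases i <;> fin_cases j <;>
          simp only [Matrix.mul_apply, Fin.sum_univ_two, Matrix.of_apply, Matrix.cons_val',
            Matrix.cons_val_zero, Matrix.cons_val_one, Matrix.cons_val_fin_one, Fin.zero_eta,
            Fin.mk_one, Fin.isValue, Matrix.one_apply_eq, ne_eq, zero_ne_one, one_ne_zero,
            not_false_eq_true, Matrix.one_apply_ne]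
        · linear_combination hw1
        · ring
        · linear_combination (-n 1 0) * hw1
        · ring)
    have hb0 : b 0 = n.mulVec ![1, 0] := by
      ext j
      rw [hb]
      fin_cases j <;> simp [Matrix.mulVec, dotProduct, Fin.sum_univ_two]
    refine ⟨b, ![1, 0], hb0, fun u => ?_⟩
    rw [Submodule.mem_span_singleton]
    refine ⟨u 0 + z * n 0 1 * u 1, ?_⟩
    ext j
    rw [Pi.smul_apply, hb, smul_eq_mul]
    fin_cases j
    · simp [Matrix.mulVec, dotProduct, Fin.sum_univ_two]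
      linear_combination (n 0 1 * u 1) * hw1
    · simp [Matrix.mulVec, dotProduct, Fin.sum_univ_two]
      linear_combination (n 1 1 * u 1) * hw1 - (z * u 1) * hdet
  · obtain ⟨z, hw1⟩ : ∃ z : A, n 1 1 * z = 1 := by
      obtain ⟨w, hw⟩ := h
      exact ⟨↑w⁻¹, by rw [← hw]; exact w.mul_inv⟩
    obtain ⟨b, hb⟩ := zf_exists_basis !![n 0 1, 1; n 1 1, 0] !![0, z; 1, -n 0 1 * z]
      (by
        ext i j
        fin_cases i <;> fin_cases j <;>
          simp only [Matrix.mul_apply, Fin.sum_univ_two, Matrix.of_apply, Matrix.cons_val',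
            Matrix.cons_val_zero, Matrix.cons_val_one, Matrix.cons_val_fin_one, Fin.zero_eta,
            Fin.mk_one, Fin.isValue, Matrix.one_apply_eq, ne_eq, zero_ne_one, one_ne_zero,
            not_false_eq_true, Matrix.one_apply_ne]
        · ring
        · ring
        · ring
        · linear_combination hw1)
      (by
        ext i j
        fin_cases i <;> fin_cases j <;>
          simp only [Matrix.mul_apply, Fin.sum_univ_two, Matrix.of_apply, Matrix.cons_val',
            Matrix.cons_val_zero, Matrix.cons_val_one, Matrix.cons_val_fin_one, Fin.zero_eta,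
            Fin.mk_one, Fin.isValue, Matrix.one_apply_eq, ne_eq, zero_ne_one, one_ne_zero,
            not_false_eq_true, Matrix.one_apply_ne]
        · linear_combination hw1
        · ring
        · linear_combination (-n 0 1) * hw1
        · ring)
    have hb0 : b 0 = n.mulVec ![0, 1] := by
      ext j
      rw [hb]
      fin_cases j <;> simp [Matrix.mulVec, dotProduct, Fin.sum_univ_two]
    refine ⟨b, ![0, 1], hb0, fun u => ?_⟩
    rw [Submodule.mem_span_singleton]
    refine ⟨u 1 + z * n 1 0 * u 0, ?_⟩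
    ext j
    rw [Pi.smul_apply, hb, smul_eq_mul]
    fin_cases j
    · simp [Matrix.mulVec, dotProduct, Fin.sum_univ_two]
      linear_combination (n 0 0 * u 0) * hw1 - (z * u 0) * hdet
    · simp [Matrix.mulVec, dotProduct, Fin.sum_univ_two]
      linear_combination (n 1 0 * u 0) * hw1

/-- (ZF1) -/
theorem exists_line_of_matrix {A : Type} [CommRing A] [IsLocalRing A] (r' : GQ →* M2 A)
    (τ : GQ) (hd : IsUnit ((r' τ).det - 1)) (htr : (r' τ).trace = 1 + (r' τ).det)
    (D I : Set GQ)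
    (hD : ∀ σ ∈ D, (r' τ - (r' τ).det • 1) * r' σ * (r' τ - 1) = 0)
    (hI : ∀ σ ∈ I, (r' τ - (r' τ).det • 1) * (r' σ - 1) = 0) :
    ∃ L : Submodule A (Fin 2 → A),
      (∃ b : Module.Basis (Fin 2) A (Fin 2 → A), L = A ∙ b 0) ∧
      (∀ σ ∈ D, ∀ v ∈ L, (r' σ).mulVec v ∈ L) ∧
      (∀ σ ∈ I, ∀ v : Fin 2 → A, (r' σ).mulVec v - v ∈ L) := by
  set M := r' τ with hM
  set d := M.det with hdd
  have htrn : (M - 1).trace = d - 1 := by
    rw [Matrix.trace_sub, htr, Matrix.trace_one]
    simp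
    ring
  have hdetn : (M - 1).det = 0 := by
    have h1 := htr
    rw [Matrix.trace_fin_two] at h1
    have h2 : d = M 0 0 * M 1 1 - M 0 1 * M 1 0 := by rw [hdd, Matrix.det_fin_two]
    rw [Matrix.det_fin_two]
    simp only [Matrix.sub_apply, Matrix.one_apply_eq,
      Matrix.one_apply_ne (show (0 : Fin 2) ≠ 1 by decide),
      Matrix.one_apply_ne (show (1 : Fin 2) ≠ 0 by decide), sub_zero]
    linear_combination (-1 : A) * h2 - h1
  obtain ⟨b, c, hb0, hrange⟩ := zf_exists_basis_range (M - 1) (htrn ▸ hd) hdetn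
  obtain ⟨w, hw⟩ := hd
  have hw1 : (↑w⁻¹ : A) * (d - 1) = 1 := by rw [← hw]; exact w.inv_mul
  -- the kernel of `M - d` is contained in the line
  have hker : ∀ u : Fin 2 → A, (M - d • 1).mulVec u = 0 → u ∈ A ∙ b 0 := by
    intro u hu
    have h1 : (M - 1).mulVec u = (d - 1) • u := by
      have h2 : M - 1 = (M - d • 1) + (d - 1) • 1 := by
        rw [sub_smul, one_smul]; abel
      rw [h2, Matrix.add_mulVec, hu, zero_add, Matrix.smul_mulVec, Matrix.one_mulVec]
    have h3 : u = (M - 1).mulVec ((↑w⁻¹ : A) • u) := by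
      rw [Matrix.mulVec_smul, h1, smul_smul, hw1, one_smul]
    rw [h3]
    exact hrange _
  refine ⟨A ∙ b 0, ⟨b, rfl⟩, ?_, ?_⟩
  · intro σ hσ v hv
    obtain ⟨a, rfl⟩ := Submodule.mem_span_singleton.mp hv
    apply hker
    rw [Matrix.mulVec_smul, Matrix.mulVec_smul, hb0, Matrix.mulVec_mulVec, Matrix.mulVec_mulVec,
      hD σ hσ, Matrix.zero_mulVec, smul_zero]
  · intro σ hσ v
    apply hker
    have h1 : (r' σ).mulVec v - v = (r' σ - 1).mulVec v := by
      rw [Matrix.sub_mulVec, Matrix.one_mulVec]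
    rw [h1, Matrix.mulVec_mulVec, hI σ hσ, Matrix.zero_mulVec]

/-- (ZF2) transport along an equivalence -/
theorem exists_line_of_isEquiv {A : Type} [CommRing A] [IsLocalRing A]
    (ρA : GaloisRepAdic A) (r' : GQ →* M2 A) (hc : MatCont r') (he : ρA.IsEquiv (ofMat r' hc))
    (D I : Set GQ)
    (h : ∃ L : Submodule A (Fin 2 → A),
      (∃ b : Module.Basis (Fin 2) A (Fin 2 → A), L = A ∙ b 0) ∧
      (∀ σ ∈ D, ∀ v ∈ L, (r' σ).mulVec v ∈ L) ∧
      (∀ σ ∈ I, ∀ v : Fin 2 → A, (r' σ).mulVec v - v ∈ L)) :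
    ∃ L : Submodule A ρA.V,
      (∃ b : Module.Basis (Fin 2) A ρA.V, L = A ∙ b 0) ∧
      (∀ σ ∈ D, ∀ v ∈ L, ρA.ρ σ v ∈ L) ∧
      (∀ σ ∈ I, ∀ v : ρA.V, ρA.ρ σ v - v ∈ L) := by
  obtain ⟨e⟩ := he
  obtain ⟨L, ⟨b, hb⟩, hD, hI⟩ := h
  let f : ρA.V ≃ₗ[A] (Fin 2 → A) := e.toLinearEquiv
  have hf : ∀ (σ : GQ) (x : ρA.V), f (ρA.ρ σ x) = (r' σ).mulVec (f x) :=
    fun σ x => e.map_apply σ x
  refine ⟨L.comap f.toLinearMap, ⟨b.map f.symm, ?_⟩, ?_, ?_⟩
  · rw [hb, Module.Basis.map_apply]
    ext x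
    rw [Submodule.mem_comap, Submodule.mem_span_singleton, Submodule.mem_span_singleton]
    constructor
    · rintro ⟨a, ha⟩
      refine ⟨a, ?_⟩
      apply f.injective
      rw [map_smul, LinearEquiv.apply_symm_apply, ha]
      rfl
    · rintro ⟨a, rfl⟩
      refine ⟨a, ?_⟩
      show a • b 0 = f (a • f.symm (b 0))
      rw [map_smul, LinearEquiv.apply_symm_apply]
  · intro σ hσ v hv
    rw [Submodule.mem_comap] at hv ⊢
    show f (ρA.ρ σ v) ∈ L
    rw [hf]
    exact hD σ hσ _ hv
  · intro σ hσ v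
    rw [Submodule.mem_comap]
    show f (ρA.ρ σ v - v) ∈ L
    rw [map_sub, hf]
    exact hI σ hσ _

end Fermat.Agent.S33Lib
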