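import Fermat.Agent.S33.ZDefs
import Fermat.Agent.S33.ZAbs

/-!
# S33 library, block (Z), leaves (ZR0) (ZR1) (ZR2): residual facts
-/

set_option autoImplicit false

noncomputable section

namespace Fermat.Agent.S33Lib

open IsLocalRing Polynomial CuspForm
open Fermat.Agent.S53Lib Fermat.Agent.S31Lib

section zr0

variable {N : ℕ} [NeZero N] {S : Finset ℕ} {p : ℕ}
  {𝒪 : Type} [CommRing 𝒪] [IsDomain 𝒪] [IsDiscreteValuationRing 𝒪]
  [IsAdicComplete (IsLocalRing.maximalIdeal 𝒪) 𝒪]
  {θ : CuspForm.heckeAlgebra N 2 (↑S : Set ℕ) →+* IsLocalRing.ResidueField 𝒪}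
  {T : Type} [CommRing T] [IsLocalRing T] [IsNoetherianRing T]
  [IsAdicComplete (IsLocalRing.maximalIdeal T) T] [Algebra 𝒪 T] [IsLocalHom (algebraMap 𝒪 T)]
  [Module.Finite 𝒪 T] [Module.Free 𝒪 T]

/-- (ZR0) the kernel of `T^S → T → k_T` is a maximal ideal -/
theorem ker_isMaximal [Finite (IsLocalRing.ResidueField 𝒪)]
    (H : CuspForm.HeckeGaloisRepDatum N (↑S : Set ℕ) 𝒪 θ T) :
    (RingHom.ker ((residue T).comp H.π)).IsMaximal := by
  have h1 : RingHom.ker ((residue T).comp H.π) = RingHom.ker θ := by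
    ext t
    rw [RingHom.mem_ker, RingHom.mem_ker, RingHom.comp_apply, H.residue_π]
    exact map_eq_zero_iff _ (RingHom.injective _)
  rw [h1]
  have : (RingHom.ker θ).IsPrime := RingHom.ker_isPrime θ
  have : Finite (CuspForm.heckeAlgebra N 2 (↑S : Set ℕ) ⧸ RingHom.ker θ) :=
    Finite.of_injective _ (RingHom.kerLift_injective θ)
  exact Ideal.Quotient.maximal_of_isField _ (Finite.isField_of_domain _)

end zr0

/-- an endomorphism which is the identity modulo a line spanned by a basis vector -/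
theorem zr_trace_eq_one_add_det {k V : Type} [Field k] [AddCommGroup V] [Module k V]
    (b : Module.Basis (Fin 2) k V) (f : V →ₗ[k] V) (h : ∀ v : V, f v - v ∈ k ∙ b 0) :
    LinearMap.trace k V f = 1 + LinearMap.det f := by
  obtain ⟨x, hx⟩ := Submodule.mem_span_singleton.mp (h (b 0))
  obtain ⟨y, hy⟩ := Submodule.mem_span_singleton.mp (h (b 1))
  have h0 : f (b 0) = (1 + x) • b 0 := by
    rw [add_smul, one_smul, hx]; abel
  have h1 : f (b 1) = b 1 + y • b 0 := by
    rw [hy]; abel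
  rw [LinearMap.trace_eq_matrix_trace k b, ← LinearMap.det_toMatrix b, Matrix.trace_fin_two,
    Matrix.det_fin_two]
  simp only [LinearMap.toMatrix_apply, h0, h1, map_add, map_smul, Module.Basis.repr_self,
    Finsupp.add_apply, Finsupp.smul_apply, Finsupp.single_eq_same, smul_eq_mul]
  simp
  ring

/-- (ZR1) residual ordinarity: `tr = 1 + det` on inertia -/
theorem trace_eq_of_residual_ordinary {p : ℕ} {A : Type} [CommRing A] [IsLocalRing A]
    (ρA : GaloisRepAdic A) (r' : GQ →* M2 A) (hc : MatCont r') (he : ρA.IsEquiv (ofMat r' hc))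
    (hres : (GaloisRepAdic.ofResidualGaloisRep ρA.residual).IsOrdinaryAt p)
    (P : ValuationSubring (AlgebraicClosure ℚ)) (hP : P.LiesOverPrime p)
    (τ : GQ) (hτ : τ ∈ P.inertiaSubgroupIn ℚ) :
    residue A (r' τ).trace = 1 + residue A (r' τ).det := by
  obtain ⟨e⟩ := resEquiv_trans (isEquiv_residual he) (ofMat_residual r' hc hc.factors_residue)
  obtain ⟨L, ⟨b, rfl⟩, -, hI⟩ := hres P hP
  have h1 := zr_trace_eq_one_add_det b (ρA.residual.ρ τ) (hI τ hτ)
  let f : ρA.residual.V ≃ₗ[ResidueField A] (Fin 2 → ResidueField A) := e.toLinearEquiv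
  have hf : f.conj (ρA.residual.ρ τ) = Matrix.toLin' (mapMat (residue A) r' τ) := by
    refine LinearMap.ext fun x => ?_
    rw [LinearEquiv.conj_apply_apply]
    have := e.map_apply τ (f.symm x)
    refine this.trans ?_
    show Matrix.toLin' (mapMat (residue A) r' τ) (f (f.symm x)) = _
    rw [LinearEquiv.apply_symm_apply]
  have h2 : LinearMap.trace _ _ (ρA.residual.ρ τ) = residue A (r' τ).trace := by
    rw [← LinearMap.trace_conj' _ f, hf, Matrix.trace_toLin'_eq, mapMat_apply',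
      Matrix.trace_fin_two, Matrix.trace_fin_two, map_add]
    rfl
  have h3 : LinearMap.det (ρA.residual.ρ τ) = residue A (r' τ).det := by
    rw [← LinearMap.det_conj _ f]
    have : (f : ρA.residual.V →ₗ[ResidueField A] (Fin 2 → ResidueField A)) ∘ₗ
        (ρA.residual.ρ τ) ∘ₗ (f.symm : _ →ₗ[ResidueField A] _) = f.conj (ρA.residual.ρ τ) := rfl
    rw [this, hf, LinearMap.det_toLin', mapMat_apply', RingHom.map_det]
    rfl
  rw [← h2, ← h3]
  exact h1

/-- irreducibility is invariant under conjugation -/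
theorem zr_irrMat_conj {K : Type} [Field K] (R : GQ →* M2 K) (hR : IrrMat R) (P Q : M2 K)
    (hPQ : P * Q = 1) (hQP : Q * P = 1) : IrrMat (conjMat P Q hPQ hQP R) := by
  intro W hW
  have h1 := hR (W.comap (Matrix.toLin' P)) (by
    intro σ x hx
    rw [Submodule.mem_comap, Matrix.toLin'_apply] at hx ⊢
    have h2 := hW σ _ hx
    rw [conjMat_apply, Matrix.mulVec_mulVec, mul_assoc, hQP, mul_one,
      ← Matrix.mulVec_mulVec] at h2
    exact h2)
  have hPQv : ∀ y : Fin 2 → K, P.mulVec (Q.mulVec y) = y := by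
    intro y
    rw [Matrix.mulVec_mulVec, hPQ, Matrix.one_mulVec]
  rcases h1 with h | h
  · left
    rw [eq_bot_iff]
    intro y hy
    have h3 : Q.mulVec y ∈ W.comap (Matrix.toLin' P) := by
      rw [Submodule.mem_comap, Matrix.toLin'_apply, hPQv]
      exact hy
    rw [h, Submodule.mem_bot] at h3
    rw [Submodule.mem_bot, ← hPQv y, h3, Matrix.mulVec_zero]
  · right
    rw [eq_top_iff]
    intro y _
    have h3 : Q.mulVec y ∈ W.comap (Matrix.toLin' P) := by
      rw [h]; trivial
    rw [Submodule.mem_comap, Matrix.toLin'_apply, hPQv] at h3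
    exact h3

/-- some upper right entry is non zero -/
theorem zr_exists_upperRight_ne_zero {k : Type} [Field k] (r : GQ →* M2 k)
    (hR : IrrMat (mapMat (algebraMap k (AlgebraicClosure k)) r)) : ∃ g : GQ, r g 0 1 ≠ 0 := by
  by_contra hcon
  push Not at hcon
  have hW := hR (LinearMap.ker (LinearMap.proj (R := AlgebraicClosure k)
      (φ := fun _ : Fin 2 => AlgebraicClosure k) 0)) (by
    intro σ x hx
    rw [LinearMap.mem_ker, LinearMap.proj_apply] at hx ⊢
    simp [Matrix.mulVec, dotProduct, Fin.sum_univ_two, hx, hcon σ])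
  rcases hW with h | h
  · have : (![0, 1] : Fin 2 → AlgebraicClosure k) ∈ LinearMap.ker (LinearMap.proj
      (R := AlgebraicClosure k) (φ := fun _ : Fin 2 => AlgebraicClosure k) 0) := by
      simp [LinearMap.mem_ker]
    rw [h, Submodule.mem_bot] at this
    have := congrFun this 1
    simp at this
  · have : (![1, 0] : Fin 2 → AlgebraicClosure k) ∈ LinearMap.ker (LinearMap.proj
      (R := AlgebraicClosure k) (φ := fun _ : Fin 2 => AlgebraicClosure k) 0) := by
      rw [h]; trivial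
    simp [LinearMap.mem_ker] at this

/-- the trace of a commutator with a diagonal matrix -/
theorem zr_trace_commutator {k : Type} [Field k] (d t : k) (htd : t * d = 1) (B B' : M2 k)
    (hB : B' * B = 1) :
    ((!![t, 0; 0, 1] * B' * !![d, 0; 0, 1] * B).trace - 2) * B.det * d =
      -(B 0 1 * B 1 0 * (d - 1) ^ 2) := by
  have e00 : B' 0 0 * B 0 0 + B' 0 1 * B 1 0 = 1 := by
    have := congrFun (congrFun hB 0) 0
    simpa [Matrix.mul_apply, Fin.sum_univ_two] using this
  have e01 : B' 0 0 * B 0 1 + B' 0 1 * B 1 1 = 0 := by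
    have := congrFun (congrFun hB 0) 1
    simpa [Matrix.mul_apply, Fin.sum_univ_two] using this
  have e10 : B' 1 0 * B 0 0 + B' 1 1 * B 1 0 = 0 := by
    have := congrFun (congrFun hB 1) 0
    simpa [Matrix.mul_apply, Fin.sum_univ_two] using this
  have e11 : B' 1 0 * B 0 1 + B' 1 1 * B 1 1 = 1 := by
    have := congrFun (congrFun hB 1) 1
    simpa [Matrix.mul_apply, Fin.sum_univ_two] using this
  have f01 : B' 0 1 * B.det = -B 0 1 := by
    rw [Matrix.det_fin_two]
    linear_combination B 0 0 * e01 - B 0 1 * e00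
  have f10 : B' 1 0 * B.det = -B 1 0 := by
    rw [Matrix.det_fin_two]
    linear_combination B 1 1 * e10 - B 1 0 * e11
  have htr : (!![t, 0; 0, 1] * B' * !![d, 0; 0, 1] * B).trace =
      2 + (t - 1) * (B' 0 1 * B 1 0) + (d - 1) * (B' 1 0 * B 0 1) := by
    rw [Matrix.trace_fin_two]
    simp only [Matrix.mul_apply, Fin.sum_univ_two, Matrix.of_apply, Matrix.cons_val',
      Matrix.cons_val_zero, Matrix.cons_val_one, Matrix.cons_val_fin_one]
    linear_combination (B' 0 0 * B 0 0) * htd + e00 + e11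
  rw [htr]
  linear_combination ((t - 1) * B 1 0 * d) * f01 + ((d - 1) * B 0 1 * d) * f10
    - (B 0 1 * B 1 0) * htd

/-- the diagonal case of (ZR2) -/
theorem zr_commutator_diag {k : Type} [Field k] (r : GQ →* M2 k)
    (hirr : IrrMat (mapMat (algebraMap k (AlgebraicClosure k)) r)) (τ : GQ) (d : k)
    (hd : d ≠ 1) (hτ : r τ = !![d, 0; 0, 1]) :
    ∃ b : GQ, (r (τ⁻¹ * b⁻¹ * τ * b)).trace ≠ 2 := by
  have hinv : ∀ g : GQ, r g⁻¹ * r g = 1 := fun g => by
    rw [← map_mul, inv_mul_cancel, map_one]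
  have hdet : ∀ g : GQ, (r g).det ≠ 0 := by
    intro g h0
    have := congrArg Matrix.det (hinv g)
    rw [Matrix.det_mul, h0, mul_zero, Matrix.det_one] at this
    exact zero_ne_one this
  have hd0 : d ≠ 0 := by
    have := hdet τ
    rw [hτ, Matrix.det_fin_two_of] at this
    intro h0
    apply this
    rw [h0]; ring
  have hτ' : r τ⁻¹ = !![d⁻¹, 0; 0, 1] := by
    have h1 : r τ * !![d⁻¹, 0; 0, 1] = 1 := by
      rw [hτ, Matrix.mul_fin_two, Matrix.one_fin_two]
      simp [hd0]
    calc r τ⁻¹ = r τ⁻¹ * (r τ * !![d⁻¹, 0; 0, 1]) := by rw [h1, mul_one]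
      _ = !![d⁻¹, 0; 0, 1] := by rw [← mul_assoc, hinv, one_mul]
  obtain ⟨b, hb01, hb10⟩ : ∃ b : GQ, r b 0 1 ≠ 0 ∧ r b 1 0 ≠ 0 := by
    obtain ⟨g₁, hg₁⟩ := exists_lowerLeft_ne_zero r hirr
    obtain ⟨g₂, hg₂⟩ := zr_exists_upperRight_ne_zero r hirr
    by_cases h1 : r g₁ 0 1 = 0
    · by_cases h2 : r g₂ 1 0 = 0
      · refine ⟨g₁ * g₂, ?_, ?_⟩
        · have ha : r g₁ 0 0 ≠ 0 := by
            intro h0
            apply hdet g₁
            rw [Matrix.det_fin_two, h0, h1]; ring
          rw [map_mul, Matrix.mul_apply, Fin.sum_univ_two, h1, zero_mul, add_zero]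
          exact mul_ne_zero ha hg₂
        · have ha : r g₂ 0 0 ≠ 0 := by
            intro h0
            apply hdet g₂
            rw [Matrix.det_fin_two, h0, h2]; ring
          rw [map_mul, Matrix.mul_apply, Fin.sum_univ_two, h2, mul_zero, add_zero]
          exact mul_ne_zero hg₁ ha
      · exact ⟨g₂, hg₂, h2⟩
    · exact ⟨g₁, h1, hg₁⟩
  refine ⟨b, fun h2 => ?_⟩
  have h3 := zr_trace_commutator d d⁻¹ (inv_mul_cancel₀ hd0) (r b) (r b⁻¹) (hinv b)
  rw [← hτ, ← hτ', ← map_mul, ← map_mul, ← map_mul, h2, sub_self, zero_mul, zero_mul] at h3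
  have h4 : r b 0 1 * r b 1 0 * (d - 1) ^ 2 ≠ 0 :=
    mul_ne_zero (mul_ne_zero hb01 hb10) (pow_ne_zero 2 (sub_ne_zero.mpr hd))
  exact h4 (neg_eq_zero.mp h3.symm)

/-- (ZR2) a commutator with trace `≠ 2` -/
theorem exists_commutator_trace_ne {k : Type} [Field k] (r : GQ →* M2 k)
    (hirr : IrrMat (mapMat (algebraMap k (AlgebraicClosure k)) r)) (τ : GQ)
    (htr : (r τ).trace = 1 + (r τ).det) (hdet : (r τ).det ≠ 1) :
    ∃ b : GQ, (r (τ⁻¹ * b⁻¹ * τ * b)).trace ≠ 2 := by
  set M := r τ with hM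
  set d := M.det with hdd
  have h1 := htr
  rw [Matrix.trace_fin_two] at h1
  have h2 : d = M 0 0 * M 1 1 - M 0 1 * M 1 0 := by rw [hdd, Matrix.det_fin_two]
  have hdet1 : (M - 1).det = 0 := by
    rw [Matrix.det_fin_two]
    simp only [Matrix.sub_apply, Matrix.one_apply_eq,
      Matrix.one_apply_ne (show (0 : Fin 2) ≠ 1 by decide),
      Matrix.one_apply_ne (show (1 : Fin 2) ≠ 0 by decide), sub_zero]
    linear_combination (-1 : k) * h2 - h1
  have hdetd : (M - d • 1).det = 0 := by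
    rw [Matrix.det_fin_two]
    simp only [Matrix.sub_apply, Matrix.smul_apply, Matrix.one_apply_eq,
      Matrix.one_apply_ne (show (0 : Fin 2) ≠ 1 by decide),
      Matrix.one_apply_ne (show (1 : Fin 2) ≠ 0 by decide), sub_zero, smul_eq_mul, mul_one,
      mul_zero]
    linear_combination (-1 : k) * h2 - d * h1
  obtain ⟨v, hv0, hv⟩ := Matrix.exists_mulVec_eq_zero_iff.mpr hdetd
  obtain ⟨w, hw0, hw⟩ := Matrix.exists_mulVec_eq_zero_iff.mpr hdet1
  have hv' : M.mulVec v = d • v := by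
    rw [Matrix.sub_mulVec, Matrix.smul_mulVec, Matrix.one_mulVec, sub_eq_zero] at hv
    exact hv
  have hw' : M.mulVec w = w := by
    rw [Matrix.sub_mulVec, Matrix.one_mulVec, sub_eq_zero] at hw
    exact hw
  let Q : M2 k := !![v 0, w 0; v 1, w 1]
  have hQc : ∀ c : Fin 2 → k, Q.mulVec c = c 0 • v + c 1 • w := by
    intro c
    ext i
    fin_cases i <;> simp [Q, Matrix.mulVec, dotProduct, Fin.sum_univ_two] <;> ring
  have hQdet : Q.det ≠ 0 := by
    intro h0
    obtain ⟨c, hc0, hc⟩ := Matrix.exists_mulVec_eq_zero_iff.mpr h0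
    rw [hQc] at hc
    have h3 : M.mulVec (c 0 • v + c 1 • w) = 0 := by rw [hc, Matrix.mulVec_zero]
    rw [Matrix.mulVec_add, Matrix.mulVec_smul, Matrix.mulVec_smul, hv', hw'] at h3
    have h4 : ((d - 1) * c 0) • v = 0 := by
      have : ((d - 1) * c 0) • v = (c 0 • d • v + c 1 • w) - (c 0 • v + c 1 • w) := by
        rw [smul_smul, sub_mul, sub_smul, one_mul, mul_comm]; abel
      rw [this, h3, hc, sub_zero]
    have h5 : c 0 = 0 := by
      rcases smul_eq_zero.mp h4 with h | h
      · rcases mul_eq_zero.mp h with h | h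
        · exact absurd (sub_eq_zero.mp h) hdet
        · exact h
      · exact absurd h hv0
    rw [h5, zero_smul, zero_add] at hc
    have h6 : c 1 = 0 := by
      rcases smul_eq_zero.mp hc with h | h
      · exact h
      · exact absurd h hw0
    apply hc0
    ext i
    fin_cases i
    · exact h5
    · exact h6
  have hQu : IsUnit Q.det := isUnit_iff_ne_zero.mpr hQdet
  have hPQ : Q⁻¹ * Q = 1 := Matrix.nonsing_inv_mul Q hQu
  have hQP : Q * Q⁻¹ = 1 := Matrix.mul_nonsing_inv Q hQu
  have hMQ : M * Q = Q * !![d, 0; 0, 1] := by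
    have e0 := congrFun hv' 0
    have e1 := congrFun hv' 1
    have e2 := congrFun hw' 0
    have e3 := congrFun hw' 1
    simp only [Matrix.mulVec, dotProduct, Fin.sum_univ_two, Pi.smul_apply, smul_eq_mul]
      at e0 e1 e2 e3
    ext i j
    fin_cases i <;> fin_cases j <;>
      simp [Q, Matrix.mul_apply, Fin.sum_univ_two]
    · linear_combination e0
    · linear_combination e2
    · linear_combination e1
    · linear_combination e3
  let φ := algebraMap k (AlgebraicClosure k)
  have hPQ' : (Q⁻¹).map φ * Q.map φ = 1 := by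
    rw [← Matrix.map_mul, hPQ]
    exact (φ.mapMatrix : M2 k →+* M2 (AlgebraicClosure k)).map_one
  have hQP' : Q.map φ * (Q⁻¹).map φ = 1 := by
    rw [← Matrix.map_mul, hQP]
    exact (φ.mapMatrix : M2 k →+* M2 (AlgebraicClosure k)).map_one
  have hirr' : IrrMat (mapMat φ (conjMat Q⁻¹ Q hPQ hQP r)) := by
    have h3 : mapMat φ (conjMat Q⁻¹ Q hPQ hQP r) =
        conjMat ((Q⁻¹).map φ) (Q.map φ) hPQ' hQP' (mapMat φ r) := by
      ext σ : 1
      rw [mapMat_apply', conjMat_apply, conjMat_apply, mapMat_apply', Matrix.map_mul,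
        Matrix.map_mul]
    rw [h3]
    exact zr_irrMat_conj _ hirr _ _ _ _
  obtain ⟨b, hb⟩ := zr_commutator_diag (conjMat Q⁻¹ Q hPQ hQP r) hirr' τ d hdet (by
    rw [conjMat_apply, mul_assoc, ← hM, hMQ, ← mul_assoc, hPQ, one_mul])
  refine ⟨b, ?_⟩
  rw [conjMat_apply, Matrix.trace_mul_cycle, hQP, one_mul] at hb
  exact hb

end Fermat.Agent.S33Lib
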