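import Fermat.Agent.S33.ZCheb
import Fermat.Agent.S33.ZCyclo
import Fermat.Agent.S33.ZResid
import Fermat.Agent.S33.ZFinal
import Fermat.Agent.S33.GTau

/-!
# S33 library, block (Z): assembly. Ordinarity at `p` from the trunk clause (ORD).
-/

set_option autoImplicit false
set_option linter.style.haveILetI false

noncomputable section

namespace Fermat.Agent.S33Lib

open IsLocalRing Polynomial CuspForm
open Fermat.Agent.S53Lib Fermat.Agent.S31Lib
open Fermat.Agent.ESLib (TT0 IsESData redM)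

variable {N : ℕ} [NeZero N] {S : Finset ℕ} {p : ℕ}
  {𝒪 : Type} [CommRing 𝒪] [IsDomain 𝒪] [IsDiscreteValuationRing 𝒪]
  [IsAdicComplete (IsLocalRing.maximalIdeal 𝒪) 𝒪]
  {θ : CuspForm.heckeAlgebra N 2 (↑S : Set ℕ) →+* IsLocalRing.ResidueField 𝒪}
  {T : Type} [CommRing T] [IsLocalRing T] [IsNoetherianRing T]
  [IsAdicComplete (IsLocalRing.maximalIdeal T) T] [Algebra 𝒪 T] [IsLocalHom (algebraMap 𝒪 T)]
  [Module.Finite 𝒪 T] [Module.Free 𝒪 T]

theorem zt_natCast_mat {r m : ℕ} (a : ℕ) :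
    (a : Matrix (Fin r) (Fin r) (ZMod m)) =
      algebraMap (ZMod m) (Matrix (Fin r) (Fin r) (ZMod m)) (a : ZMod m) := by
  rw [map_natCast]

/-- the approximation package modulo `𝔪 ^ (n + 1)` -/
theorem zt_package (hp : p.Prime)
    (hp𝒪 : (p : 𝒪) ∈ IsLocalRing.maximalIdeal 𝒪) (hpS : p ∈ S)
    (hNS : ∀ q : ℕ, q.Prime → q ∣ N → q ∈ S) {r : ℕ}
    {Θ : TT0 N →+* Matrix (Fin r) (Fin r) ℤ}
    {ρ : (n : ℕ) → GQ →* Matrix (Fin r) (Fin r) (ZMod (p ^ n))} (hES : IsESData N p r Θ ρ)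
    (H : CuspForm.HeckeGaloisRepDatum N (↑S : Set ℕ) 𝒪 θ T)
    (r' : GQ →* M2 T) (hc : MatCont r') (hchar : FrobChar H r') (n : ℕ) :
    ∃ (m : ℕ) (t ε : GQ → heckeAlgebra N 2 (↑S : Set ℕ)),
      QuadAct ((redH r p m).comp (Θ.comp (incT hNS))) (ρ m) ε t ∧
      (∀ g, H.π (t g) - (r' g).trace ∈ maximalIdeal T ^ (n + 1)) ∧
      (∀ g, H.π (ε g) - (r' g).det ∈ maximalIdeal T ^ (n + 1)) ∧
      (∀ x, (redH r p m).comp (Θ.comp (incT hNS)) x = 0 → H.π x ∈ maximalIdeal T ^ (n + 1)) ∧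
      (∀ (g : GQ) (ζ : AlgebraicClosure ℚ), ζ ^ p = 1 →
        ∃ a : ℕ, ε g = (a : heckeAlgebra N 2 (↑S : Set ℕ)) ∧ g ζ = ζ ^ a) := by
  have hpT : (p : T) ∈ maximalIdeal T := by
    have h1 : (p : T) = algebraMap 𝒪 T (p : 𝒪) := by simp
    rw [h1]
    exact map_nonunit (algebraMap 𝒪 T) _ hp𝒪
  obtain ⟨c, hcb⟩ := exists_bound_trunk (p := p) (S := S) hNS hES.inj
  set m := (n + 1) + c with hm
  obtain ⟨ω, hω₁, hω₂, hω₃⟩ := exists_cyclo_pow2 p hp m (by omega)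
  choose t e h1 h2 h3 h4 using
    exists_hecke_approx hp hp𝒪 hpS hNS hES H r' hc hchar m (n + 1) (by omega) ω hω₁ hω₂
  refine ⟨m, t, fun g => (e g : heckeAlgebra N 2 (↑S : Set ℕ)), ⟨?_, ?_, ?_, ?_⟩, h3, ?_, ?_, ?_⟩
  · intro x g
    exact (hES.comm m g (incT hNS x)).symm
  · intro g h
    rw [map_natCast, map_natCast, map_natCast, zt_natCast_mat, zt_natCast_mat, zt_natCast_mat,
      ← map_mul, h2, h2, h2, map_mul, Units.val_mul]
  · rw [map_natCast, zt_natCast_mat, h2, map_one, Units.val_one, map_one]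
  · intro g
    rw [map_natCast]
    exact (h1 g).symm
  · intro g
    rw [map_natCast]
    exact h4 g
  · intro x hx
    obtain ⟨t', ht'⟩ := hcb (n + 1) x hx
    rw [ht', map_mul, map_pow, map_natCast]
    exact Ideal.mul_mem_right _ _ (Ideal.pow_mem_pow hpT (n + 1))
  · intro g ζ hζ
    exact ⟨e g, rfl, hω₃ g (e g) (h2 g).symm ζ hζ⟩


theorem zt_trace_mapMat {A B : Type} [CommRing A] [CommRing B] (φ : A →+* B) (r : GQ →* M2 A)
    (g : GQ) : (mapMat φ r g).trace = φ (r g).trace := by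
  rw [Matrix.trace_fin_two, Matrix.trace_fin_two, map_add]
  rfl

theorem zt_det_mapMat {A B : Type} [CommRing A] [CommRing B] (φ : A →+* B) (r : GQ →* M2 A)
    (g : GQ) : (mapMat φ r g).det = φ (r g).det := by
  rw [Matrix.det_fin_two, Matrix.det_fin_two, map_sub, map_mul, map_mul]
  rfl

theorem zt_isUnit_det {A : Type} [CommRing A] (r : GQ →* M2 A) (g : GQ) : IsUnit (r g).det := by
  refine IsUnit.of_mul_eq_one (r g⁻¹).det ?_
  rw [← Matrix.det_mul, ← map_mul, mul_inv_cancel, map_one, Matrix.det_one]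

/-- `ζ ^ a = ζ` if `a ≡ 1 mod p` -/
theorem zt_pow_eq {K : Type} [Field K] {p : ℕ} (ζ : K) (hζ : ζ ^ p = 1) (a : ℕ)
    (ha : (p : ℤ) ∣ (a : ℤ) - 1) : ζ ^ a = ζ := by
  have h1 : a ≡ 1 [MOD p] := by
    rw [← Int.natCast_modEq_iff]
    exact (Int.modEq_iff_dvd.mpr (by simpa using ha)).symm
  have h2 : ζ ^ a = ζ ^ 1 := by
    rw [← Nat.div_add_mod a p, ← Nat.div_add_mod 1 p, pow_add, pow_add, pow_mul, pow_mul, hζ,
      one_pow, one_pow, h1]
  rw [h2, pow_one]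

/-- the determinant of `r' τ₀` is not `≡ 1` -/
theorem zt_isUnit_det_sub_one (hp : p.Prime)
    (hp𝒪 : (p : 𝒪) ∈ IsLocalRing.maximalIdeal 𝒪) (hpS : p ∈ S)
    (hNS : ∀ q : ℕ, q.Prime → q ∣ N → q ∈ S) {r : ℕ}
    {Θ : TT0 N →+* Matrix (Fin r) (Fin r) ℤ}
    {ρ : (n : ℕ) → GQ →* Matrix (Fin r) (Fin r) (ZMod (p ^ n))} (hES : IsESData N p r Θ ρ)
    (H : CuspForm.HeckeGaloisRepDatum N (↑S : Set ℕ) 𝒪 θ T)
    (r' : GQ →* M2 T) (hc : MatCont r') (hchar : FrobChar H r')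
    (τ₀ : GQ) (ζ : AlgebraicClosure ℚ) (hζ : ζ ^ p = 1) (hmove : τ₀ ζ ≠ ζ) :
    IsUnit ((r' τ₀).det - 1) := by
  have hpT : (p : T) ∈ maximalIdeal T := by
    have h1 : (p : T) = algebraMap 𝒪 T (p : 𝒪) := by simp
    rw [h1]
    exact map_nonunit (algebraMap 𝒪 T) _ hp𝒪
  obtain ⟨m, t, ε, -, -, hε, -, hz⟩ := zt_package hp hp𝒪 hpS hNS hES H r' hc hchar 0
  obtain ⟨a, ha, haζ⟩ := hz τ₀ ζ hζ
  by_contra hnu
  have h1 : (r' τ₀).det - 1 ∈ maximalIdeal T := (mem_maximalIdeal _).mpr hnu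
  have h2 := hε τ₀
  rw [ha, map_natCast, zero_add, pow_one] at h2
  have h3 : ((a : ℤ) - 1 : T) ∈ maximalIdeal T := by
    have : ((a : ℤ) - 1 : T) = ((a : T) - (r' τ₀).det) + ((r' τ₀).det - 1) := by
      push_cast; ring
    rw [this]
    exact Ideal.add_mem _ h2 h1
  apply hmove
  rw [haζ]
  apply zt_pow_eq ζ hζ
  by_contra hnd
  have hcop : IsCoprime (p : ℤ) ((a : ℤ) - 1) :=
    (Prime.coprime_iff_not_dvd (Nat.prime_iff_prime_int.mp hp)).mpr hnd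
  obtain ⟨u, v, huv⟩ := hcop
  have h4 : (1 : T) ∈ maximalIdeal T := by
    have := congrArg (Int.cast : ℤ → T) huv
    push_cast at this
    rw [← this]
    refine Ideal.add_mem _ (Ideal.mul_mem_left _ _ hpT) (Ideal.mul_mem_left _ _ ?_)
    simpa using h3
  exact (Ideal.ne_top_iff_one _).mp (Ideal.IsPrime.ne_top inferInstance) h4


/-- the three families of congruences modulo `𝔪 ^ (n + 1)` -/
theorem zt_congr [Finite (IsLocalRing.ResidueField 𝒪)] (hp : p.Prime)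
    (hp𝒪 : (p : 𝒪) ∈ IsLocalRing.maximalIdeal 𝒪) (hpS : p ∈ S)
    (hNS : ∀ q : ℕ, q.Prime → q ∣ N → q ∈ S) {r : ℕ}
    {Θ : TT0 N →+* Matrix (Fin r) (Fin r) ℤ}
    {ρ : (n : ℕ) → GQ →* Matrix (Fin r) (Fin r) (ZMod (p ^ n))} (hES : IsESData N p r Θ ρ)
    (H : CuspForm.HeckeGaloisRepDatum N (↑S : Set ℕ) 𝒪 θ T)
    (r' : GQ →* M2 T) (hc : MatCont r') (hchar : FrobChar H r')
    (P : ValuationSubring (AlgebraicClosure ℚ)) (τ₀ b : GQ) (ord : IsOrdData p r ρ P τ₀)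
    (htr : residue T (r' τ₀).trace = 1 + residue T (r' τ₀).det)
    (hb : residue T (r' (τ₀⁻¹ * b⁻¹ * τ₀ * b)).trace ≠ 2) (n : ℕ) :
    ((r' τ₀).trace - 1 - (r' τ₀).det ∈ maximalIdeal T ^ (n + 1)) ∧
    (∀ σ ∈ P.inertiaSubgroupIn ℚ, ∀ g : GQ,
      (r' (τ₀ * σ * g)).trace - (r' (τ₀ * g)).trace - (r' τ₀).det * (r' (σ * g)).trace
        + (r' τ₀).det * (r' g).trace ∈ maximalIdeal T ^ (n + 1)) ∧
    (∀ σ ∈ P.decompositionSubgroup ℚ, ∀ g : GQ,
      (r' (τ₀ * σ * τ₀ * g)).trace - (r' (τ₀ * σ * g)).trace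
        - (r' τ₀).det * (r' (σ * τ₀ * g)).trace
        + (r' τ₀).det * (r' (σ * g)).trace ∈ maximalIdeal T ^ (n + 1)) := by
  obtain ⟨m, t, ε, hQ, ht, hε, hbd, -⟩ := zt_package hp hp𝒪 hpS hNS hES H r' hc hchar n
  haveI : NeZero (p ^ m) := ⟨pow_ne_zero m hp.ne_zero⟩
  haveI : Finite (Matrix (Fin r) (Fin r) (ZMod (p ^ m))) := inferInstance
  set 𝔫 : Ideal (heckeAlgebra N 2 (↑S : Set ℕ)) := RingHom.ker ((residue T).comp H.π) with h𝔫
  haveI : 𝔫.IsMaximal := ker_isMaximal H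
  set I : Ideal T := maximalIdeal T ^ (n + 1) with hI
  have hIle : I ≤ maximalIdeal T := Ideal.pow_le_self (Nat.succ_ne_zero n)
  set q := Ideal.Quotient.mk I with hq
  have ht' : ∀ g, q (H.π (t g)) = q (r' g).trace := fun g => Ideal.Quotient.eq.mpr (ht g)
  have hε' : ∀ g, q (H.π (ε g)) = q (r' g).det := fun g => Ideal.Quotient.eq.mpr (hε g)
  have hres : ∀ x y : T, x - y ∈ I → residue T x = residue T y := by
    intro x y h
    rw [← sub_eq_zero, ← map_sub, residue_eq_zero_iff]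
    exact hIle h
  have ht'' : ∀ g, residue T (H.π (t g)) = residue T (r' g).trace := fun g => hres _ _ (ht g)
  have hε'' : ∀ g, residue T (H.π (ε g)) = residue T (r' g).det := fun g => hres _ _ (hε g)
  have hdetne : ∀ g, residue T (r' g).det ≠ 0 := by
    intro g
    exact ((zt_isUnit_det r' g).map (residue T)).ne_zero
  -- the hypotheses of the abstract lemmas
  have hab : ε τ₀ * ε b * (2 - t (τ₀⁻¹ * b⁻¹ * τ₀ * b)) ∉ 𝔫 := by
    rw [h𝔫, RingHom.mem_ker, RingHom.comp_apply, map_mul, map_mul, map_mul, map_mul, map_sub,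
      map_sub, hε'', hε'', ht'', map_ofNat, map_ofNat]
    exact mul_ne_zero (mul_ne_zero (hdetne _) (hdetne _)) (sub_ne_zero.mpr hb.symm)
  have htr𝔫 : t τ₀ - 1 - ε τ₀ ∈ 𝔫 := by
    rw [h𝔫, RingHom.mem_ker, RingHom.comp_apply, map_sub, map_sub, map_sub, map_sub, ht'', hε'',
      map_one, map_one, htr]
    ring
  obtain ⟨k, hk, hM⟩ := za_exists_pow (ρ m τ₀ - 1) (ord.inj m)
  -- from the trunk to `T`
  have hback : ∀ η z : heckeAlgebra N 2 (↑S : Set ℕ), η ∉ 𝔫 →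
      (redH r p m).comp (Θ.comp (incT hNS)) (η * z) = 0 → q (H.π z) = 0 := by
    intro η z hη h0
    have h1 := hbd _ h0
    rw [map_mul] at h1
    have hu : IsUnit (H.π η) := by
      by_contra hnu
      apply hη
      rw [h𝔫, RingHom.mem_ker, RingHom.comp_apply, residue_eq_zero_iff]
      exact (mem_maximalIdeal _).mpr hnu
    rw [Ideal.Quotient.eq_zero_iff_mem]
    exact (Ideal.unit_mul_mem_iff_mem _ hu).mp h1
  refine ⟨?_, ?_, ?_⟩
  · obtain ⟨η, hη, h0⟩ := za_split hQ 𝔫 τ₀ b hab htr𝔫 k hk hM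
    have h1 := hback η _ hη h0
    rw [map_sub, map_sub, map_sub, map_sub, ht', hε', map_one, map_one] at h1
    rw [← Ideal.Quotient.eq_zero_iff_mem, ← hq, map_sub, map_sub, map_one]
    exact h1
  · intro σ hσ g
    obtain ⟨X, hX⟩ := za_exists_factor (ρ m σ - 1) (ρ m τ₀ - 1) (ord.ine m σ hσ)
    obtain ⟨η, hη, h0⟩ := za_inertia hQ 𝔫 τ₀ b hab htr𝔫 k hk hM σ X hX g
    have h1 := hback η _ hη h0
    simp only [map_sub, map_add, map_mul, ht', hε'] at h1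
    rw [← Ideal.Quotient.eq_zero_iff_mem, ← hq]
    simp only [map_sub, map_add, map_mul]
    exact h1
  · intro σ hσ g
    obtain ⟨X, hX⟩ := za_exists_factor (ρ m σ * (ρ m τ₀ - 1)) (ρ m τ₀ - 1) (by
      intro v
      obtain ⟨v', hv'⟩ := ord.dec m σ hσ v
      exact ⟨v', by rw [← Matrix.mulVec_mulVec]; exact hv'⟩)
    obtain ⟨η, hη, h0⟩ := za_decomp hQ 𝔫 τ₀ b hab htr𝔫 k hk hM σ X hX g
    have h1 := hback η _ hη h0
    simp only [map_sub, map_add, map_mul, ht', hε'] at h1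
    rw [← Ideal.Quotient.eq_zero_iff_mem, ← hq]
    simp only [map_sub, map_add, map_mul]
    exact h1


/-- **S33 from the trunk clause (ORD)** -/
theorem isOrdinaryAt_of_ordData [Finite (IsLocalRing.ResidueField 𝒪)] (hp : p.Prime)
    (hp2 : p ≠ 2) (hp𝒪 : (p : 𝒪) ∈ IsLocalRing.maximalIdeal 𝒪) (hpS : p ∈ S)
    (hNS : ∀ q : ℕ, q.Prime → q ∣ N → q ∈ S) {r : ℕ}
    {Θ : TT0 N →+* Matrix (Fin r) (Fin r) ℤ}
    {ρ : (n : ℕ) → GQ →* Matrix (Fin r) (Fin r) (ZMod (p ^ n))} (hES : IsESData N p r Θ ρ)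
    (hOrd : ∀ A : ValuationSubring (AlgebraicClosure ℚ), A.LiesOverPrime p →
      ∀ τ₀ ∈ A.inertiaSubgroupIn ℚ, (∃ ζ : AlgebraicClosure ℚ, ζ ^ p = 1 ∧ τ₀ ζ ≠ ζ) →
        IsOrdData p r ρ A τ₀)
    (H : CuspForm.HeckeGaloisRepDatum N (↑S : Set ℕ) 𝒪 θ T)
    (hres : (GaloisRepAdic.ofResidualGaloisRep H.ρ.residual).IsOrdinaryAt p) :
    H.ρ.IsOrdinaryAt p := by
  intro P hP
  obtain ⟨τ₀, hτ₀, ζ, hζ, hmove⟩ := exists_inertia_moving_zeta p hp hp2 P hP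
  have ord := hOrd P hP τ₀ hτ₀ ⟨ζ, hζ, hmove⟩
  obtain ⟨r', hc, ⟨e⟩⟩ := exists_ofMat_isEquiv H.ρ
  have hirr : IrrMat (mapMat (algebraMap (ResidueField T) (AlgebraicClosure (ResidueField T)))
      (mapMat (residue T) r')) :=
    irrMat_of_absIrr H.ρ.residual H.residual_absIrr (mapMat (residue T) r') hc.factors_residue
      (resEquiv_trans (isEquiv_residual ⟨e⟩) (ofMat_residual r' hc _))
  have hchar : FrobChar H r' := by
    intro ℓ hℓ hℓN hℓS A hA τ hτ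
    have hconj : e.toLinearEquiv.conj (H.ρ.ρ τ) = (ofMat r' hc).ρ τ := by
      refine LinearMap.ext fun x => ?_
      rw [LinearEquiv.conj_apply_apply, e.map_apply τ (e.toLinearEquiv.symm x),
        LinearEquiv.apply_symm_apply]
    rw [← H.charpoly_frob ℓ hℓ hℓN hℓS A hA τ hτ,
      ← LinearEquiv.charpoly_conj e.toLinearEquiv (H.ρ.ρ τ), hconj]
    exact (Matrix.charpoly_toLin' (r' τ)).symm
  have hd : IsUnit ((r' τ₀).det - 1) :=
    zt_isUnit_det_sub_one hp hp𝒪 hpS hNS hES H r' hc hchar τ₀ ζ hζ hmove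
  have htr : residue T (r' τ₀).trace = 1 + residue T (r' τ₀).det :=
    trace_eq_of_residual_ordinary H.ρ r' hc ⟨e⟩ hres P hP τ₀ hτ₀
  obtain ⟨b, hb⟩ := exists_commutator_trace_ne (mapMat (residue T) r') hirr τ₀
    (by rw [zt_trace_mapMat, zt_det_mapMat]; exact htr)
    (by
      rw [zt_det_mapMat]
      intro h1
      have h2 : residue T ((r' τ₀).det - 1) = 0 := by rw [map_sub, h1, map_one, sub_self]
      exact (hd.map (residue T)).ne_zero h2)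
  rw [zt_trace_mapMat] at hb
  have key := zt_congr hp hp𝒪 hpS hNS hES H r' hc hchar P τ₀ b ord htr hb
  have hkrull : (⨅ n : ℕ, maximalIdeal T ^ n) = ⊥ :=
    Ideal.iInf_pow_eq_bot_of_isLocalRing _ (Ideal.IsPrime.ne_top inferInstance)
  have hzero : ∀ x : T, (∀ n : ℕ, x ∈ maximalIdeal T ^ (n + 1)) → x = 0 := by
    intro x hx
    rw [← Ideal.mem_bot, ← hkrull, Ideal.mem_iInf]
    intro n
    exact Ideal.pow_le_pow_right (Nat.le_succ n) (hx n)
  have E1 : (r' τ₀).trace = 1 + (r' τ₀).det := by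
    have := hzero _ fun n => (key n).1
    linear_combination this
  have hI : ∀ σ ∈ (P.inertiaSubgroupIn ℚ : Set GQ),
      (r' τ₀ - (r' τ₀).det • 1) * (r' σ - 1) = 0 := by
    intro σ hσ
    refine eq_zero_of_trace_mul_eq_zero r' hirr _ fun g => ?_
    have h1 := hzero _ fun n => (key n).2.1 σ hσ g
    have e1 : (r' τ₀ - (r' τ₀).det • 1) * (r' σ - 1) * r' g =
        r' (τ₀ * σ * g) - r' (τ₀ * g) - (r' τ₀).det • r' (σ * g) + (r' τ₀).det • r' g := by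
      simp only [map_mul, sub_mul, mul_sub, mul_one, one_mul, smul_mul_assoc, mul_assoc]
      abel
    rw [e1, Matrix.trace_add, Matrix.trace_sub, Matrix.trace_sub, Matrix.trace_smul,
      Matrix.trace_smul, smul_eq_mul, smul_eq_mul]
    exact h1
  have hD : ∀ σ ∈ (P.decompositionSubgroup ℚ : Set GQ),
      (r' τ₀ - (r' τ₀).det • 1) * r' σ * (r' τ₀ - 1) = 0 := by
    intro σ hσ
    refine eq_zero_of_trace_mul_eq_zero r' hirr _ fun g => ?_
    have h1 := hzero _ fun n => (key n).2.2 σ hσ g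
    have e1 : (r' τ₀ - (r' τ₀).det • 1) * r' σ * (r' τ₀ - 1) * r' g =
        r' (τ₀ * σ * τ₀ * g) - r' (τ₀ * σ * g) - (r' τ₀).det • r' (σ * τ₀ * g)
          + (r' τ₀).det • r' (σ * g) := by
      simp only [map_mul, sub_mul, mul_sub, mul_one, one_mul, smul_mul_assoc, mul_assoc]
      abel
    rw [e1, Matrix.trace_add, Matrix.trace_sub, Matrix.trace_sub, Matrix.trace_smul,
      Matrix.trace_smul, smul_eq_mul, smul_eq_mul]
    exact h1
  exact exists_line_of_isEquiv H.ρ r' hc ⟨e⟩ _ _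
    (exists_line_of_matrix r' τ₀ hd E1 _ _ hD hI)

end Fermat.Agent.S33Lib
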