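import Fermat.Agent.Lib.FrobeniusExists
import Fermat.Prelude.Def_GaloisRep_LocalConditions

/-!
# S33 library, block (G2)(G3): inertia at `p`, the tame character
-/

set_option autoImplicit false
set_option linter.style.haveILetI false

namespace Fermat.Agent.S33Lib

open scoped Pointwise

local notation "Qbar" => AlgebraicClosure ℚ
local notation "GQ" => (AlgebraicClosure ℚ ≃ₐ[ℚ] AlgebraicClosure ℚ)

/-- inertia preserves `A` and acts trivially modulo `𝔪` -/
theorem inertia_sub_lt (A : ValuationSubring Qbar) (τ : GQ) (hτ : τ ∈ A.inertiaSubgroupIn ℚ)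
    (x : Qbar) (hx : x ∈ A) : A.valuation (τ x - x) < 1 := by
  obtain ⟨s, hs, rfl⟩ := hτ
  have hs' : MulSemiringAction.toRingAut (A.decompositionSubgroup ℚ)
      (IsLocalRing.ResidueField A) s = 1 := hs
  have h1 : s • IsLocalRing.residue A ⟨x, hx⟩ = IsLocalRing.residue A ⟨x, hx⟩ := by
    have := congrArg (fun f => f (IsLocalRing.residue A ⟨x, hx⟩)) hs'
    simpa using this
  rw [← IsLocalRing.ResidueField.residue_smul, ← sub_eq_zero, ← map_sub,
    IsLocalRing.residue_eq_zero_iff, A.valuation_lt_one_iff] at h1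
  exact h1

theorem G_inertia_le (A : ValuationSubring Qbar) (τ : GQ) (hτ : τ ∈ A.inertiaSubgroupIn ℚ) :
    τ ∈ A.decompositionSubgroup ℚ := by
  obtain ⟨s, -, rfl⟩ := hτ
  exact s.2

theorem G_decomposition_mem (A : ValuationSubring Qbar) (τ : GQ)
    (hτ : τ ∈ A.decompositionSubgroup ℚ) (x : Qbar) (hx : x ∈ A) : τ x ∈ A := by
  have h1 : τ • A = A := hτ
  have h2 : τ • x ∈ τ • A := ValuationSubring.smul_mem_pointwise_smul τ x A hx
  rw [h1] at h2
  exact h2

theorem G_decomposition_le (A : ValuationSubring Qbar) (τ : GQ)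
    (hτ : τ ∈ A.decompositionSubgroup ℚ) (a b : Qbar) (h : A.valuation a ≤ A.valuation b) :
    A.valuation (τ a) ≤ A.valuation (τ b) := by
  by_cases hb : b = 0
  · rw [hb, map_zero, le_zero_iff, map_eq_zero] at h
    rw [h, map_zero, map_zero]
    exact zero_le
  have hvb : A.valuation b ≠ 0 := (Valuation.ne_zero_iff _).2 hb
  have hτb : τ b ≠ 0 := by simpa using hb
  have hvτb : A.valuation (τ b) ≠ 0 := (Valuation.ne_zero_iff _).2 hτb
  have h1 : a / b ∈ A := by
    rw [← A.valuation_le_one_iff, map_div₀]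
    exact (div_le_one₀ (zero_lt_iff.2 hvb)).2 h
  have h2 := G_decomposition_mem A τ hτ _ h1
  rw [← A.valuation_le_one_iff, map_div₀, map_div₀] at h2
  exact (div_le_one₀ (zero_lt_iff.2 hvτb)).1 h2

theorem G_decomposition_lt (A : ValuationSubring Qbar) (τ : GQ)
    (hτ : τ ∈ A.decompositionSubgroup ℚ) (a b : Qbar) (h : A.valuation a < A.valuation b) :
    A.valuation (τ a) < A.valuation (τ b) := by
  by_contra hcon
  rw [not_lt] at hcon
  have h1 := G_decomposition_le A τ⁻¹ (inv_mem hτ) _ _ hcon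
  have e : ∀ z : Qbar, τ⁻¹ (τ z) = z := fun z => AlgEquiv.symm_apply_apply τ z
  rw [e, e] at h1
  exact absurd h (not_lt.2 h1)

theorem G_exists_pow_fix (τ : GQ) (y : Qbar) : ∃ n : ℕ, 0 < n ∧ (τ ^ n) y = y := by
  have hy : IsIntegral ℚ y := (AlgebraicClosure.isAlgebraic ℚ).isIntegral.isIntegral y
  have hfin : ((minpoly ℚ y).rootSet Qbar).Finite := Polynomial.rootSet_finite _ _
  have hmem : ∀ n : ℕ, (τ ^ n) y ∈ (minpoly ℚ y).rootSet Qbar := by
    intro n
    rw [Polynomial.mem_rootSet]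
    refine ⟨minpoly.ne_zero hy, ?_⟩
    have := Polynomial.aeval_algHom_apply ((τ ^ n : GQ) : Qbar →ₐ[ℚ] Qbar) y (minpoly ℚ y)
    rw [minpoly.aeval, map_zero] at this
    exact this
  haveI := hfin.to_subtype
  obtain ⟨i, j, hij, h⟩ := Finite.exists_ne_map_eq_of_infinite
    (fun n : ℕ => (⟨(τ ^ n) y, hmem n⟩ : (minpoly ℚ y).rootSet Qbar))
  have h' : (τ ^ i) y = (τ ^ j) y := congrArg Subtype.val h
  have key : ∀ i j : ℕ, i < j → (τ ^ i) y = (τ ^ j) y → ∃ n : ℕ, 0 < n ∧ (τ ^ n) y = y := by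
    intro i j hij h
    refine ⟨j - i, Nat.sub_pos_of_lt hij, ?_⟩
    have e : τ ^ j = τ ^ i * τ ^ (j - i) := by rw [← pow_add]; congr 1; omega
    rw [e, AlgEquiv.mul_apply] at h
    exact ((τ ^ i).injective h).symm
  rcases lt_or_gt_of_ne hij with h1 | h1
  · exact key i j h1 h'
  · exact key j i h1 h'.symm

/-- the decomposition group preserves the valuation -/
theorem decomposition_valuation (A : ValuationSubring Qbar) (τ : GQ)
    (hτ : τ ∈ A.decompositionSubgroup ℚ) (x : Qbar) : A.valuation (τ x) = A.valuation x := by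
  have key : ∀ (σ : GQ), σ ∈ A.decompositionSubgroup ℚ → ∀ y : Qbar,
      A.valuation (σ y) ≤ A.valuation y := by
    intro σ hσ y
    by_contra hlt
    rw [not_le] at hlt
    have hstep : ∀ n : ℕ, A.valuation ((σ ^ n) y) < A.valuation ((σ ^ (n + 1)) y) := by
      intro n
      induction n with
      | zero => simpa using hlt
      | succ n ih =>
        have := G_decomposition_lt A σ hσ _ _ ih
        rw [← AlgEquiv.mul_apply, ← AlgEquiv.mul_apply, ← pow_succ', ← pow_succ'] at this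
        exact this
    have hall : ∀ n : ℕ, A.valuation y < A.valuation ((σ ^ (n + 1)) y) := by
      intro n
      induction n with
      | zero => simpa using hlt
      | succ n ih => exact ih.trans (hstep (n + 1))
    obtain ⟨n, hn, hfix⟩ := G_exists_pow_fix σ y
    obtain ⟨m, rfl⟩ : ∃ m, n = m + 1 := ⟨n - 1, by omega⟩
    have := hall m
    rw [hfix] at this
    exact lt_irrefl _ this
  apply le_antisymm (key τ hτ x)
  have := key τ⁻¹ (inv_mem hτ) (τ x)
  rwa [show τ⁻¹ (τ x) = x from AlgEquiv.symm_apply_apply τ x] at this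

/-- the tame character is trivial on units -/
theorem tame_unit (A : ValuationSubring Qbar) (τ : GQ) (hτ : τ ∈ A.inertiaSubgroupIn ℚ)
    (x : Qbar) (hx : A.valuation x = 1) : A.valuation (τ x - x) < 1 :=
  inertia_sub_lt A τ hτ x ((A.valuation_le_one_iff x).1 hx.le)

/-- multiplicativity: `{c | v(τ c - c) < v(c)}` is closed under products, and `c ^ n` in it
implies `c` in it when `p ∤ n` -/
theorem tame_mul (A : ValuationSubring Qbar) (τ : GQ) (hτ : τ ∈ A.inertiaSubgroupIn ℚ)
    (c d : Qbar) (hc : A.valuation (τ c - c) < A.valuation c)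
    (hd : A.valuation (τ d - d) < A.valuation d) :
    A.valuation (τ (c * d) - c * d) < A.valuation (c * d) := by
  have hvc : 0 < A.valuation c := lt_of_le_of_lt zero_le hc
  have hvd : 0 < A.valuation d := lt_of_le_of_lt zero_le hd
  have e : τ (c * d) - c * d = τ c * (τ d - d) + d * (τ c - c) := by
    rw [map_mul]; ring
  rw [e]
  apply Valuation.map_add_lt
  · rw [map_mul, map_mul, decomposition_valuation A τ (G_inertia_le A τ hτ)]
    exact mul_lt_mul_of_pos_left hd hvc
  · rw [map_mul, map_mul, mul_comm (A.valuation c)]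
    exact mul_lt_mul_of_pos_left hc hvd

theorem tame_pow (A : ValuationSubring Qbar) (τ : GQ) (hτ : τ ∈ A.inertiaSubgroupIn ℚ)
    (c : Qbar) (n : ℕ) (hc : A.valuation (τ c - c) < A.valuation c) :
    A.valuation (τ (c ^ n) - c ^ n) < A.valuation (c ^ n) := by
  induction n with
  | zero => simp
  | succ n ih =>
    rw [pow_succ]
    exact tame_mul A τ hτ _ _ ih hc

theorem G_root_mem (A : ValuationSubring Qbar) (ζ : Qbar) {n : ℕ} (hn : n ≠ 0) (hζ : ζ ^ n = 1) :
    A.valuation ζ = 1 := by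
  have h1 : A.valuation ζ ^ n = 1 := by rw [← map_pow, hζ, map_one]
  exact (pow_eq_one_iff_of_nonneg zero_le hn).1 h1

theorem G_isPrimitiveRoot {p : ℕ} (hp : p.Prime) {ζ : Qbar} (hζ : ζ ^ p = 1) (hζ1 : ζ ≠ 1) :
    IsPrimitiveRoot ζ p := by
  haveI : Fact p.Prime := ⟨hp⟩
  have h := orderOf_eq_prime hζ hζ1
  rw [← h]
  exact IsPrimitiveRoot.orderOf ζ

theorem G_one_sub_pow_le (A : ValuationSubring Qbar) (x : Qbar) (hx : x ∈ A) (i : ℕ) :
    A.valuation (1 - x ^ i) ≤ A.valuation (1 - x) := by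
  rw [← mul_neg_geom_sum x i, map_mul]
  have h1 : ∑ j ∈ Finset.range i, x ^ j ∈ A := A.sum_mem fun j _ => A.pow_mem hx j
  have h2 := (A.valuation_le_one_iff _).2 h1
  exact mul_le_of_le_one_right' h2

theorem G_one_sub_eq (A : ValuationSubring Qbar) {p : ℕ} (ζ μ : Qbar) (hζ : IsPrimitiveRoot ζ p)
    (hμ : IsPrimitiveRoot μ p) (hp : p ≠ 0) : A.valuation (1 - μ) = A.valuation (1 - ζ) := by
  have key : ∀ a b : Qbar, IsPrimitiveRoot a p → IsPrimitiveRoot b p →
      A.valuation (1 - b) ≤ A.valuation (1 - a) := by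
    intro a b ha hb
    haveI : NeZero p := ⟨hp⟩
    obtain ⟨i, -, rfl⟩ := ha.eq_pow_of_pow_eq_one hb.pow_eq_one
    exact G_one_sub_pow_le A a ((A.valuation_le_one_iff a).1 (G_root_mem A a hp ha.pow_eq_one).le) i
  exact le_antisymm (key ζ μ hζ hμ) (key μ ζ hμ hζ)

/-- `v(1 - ζ) ^ (p - 1) = v(p)` -/
theorem valuation_one_sub_zeta (p : ℕ) (hp : p.Prime) (A : ValuationSubring Qbar)
    (hA : A.LiesOverPrime p) (ζ : Qbar) (hζ : ζ ^ p = 1) (hζ1 : ζ ≠ 1) :
    A.valuation (1 - ζ) ^ (p - 1) = A.valuation (p : Qbar) := by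
  have hprim : IsPrimitiveRoot ζ p := G_isPrimitiveRoot hp hζ hζ1
  have h1 := Polynomial.cyclotomic_eq_prod_X_sub_primitiveRoots hprim
  have h2 := congrArg (Polynomial.eval 1) h1
  haveI : Fact p.Prime := ⟨hp⟩
  rw [Polynomial.eval_one_cyclotomic_prime, Polynomial.eval_prod] at h2
  simp only [Polynomial.eval_sub, Polynomial.eval_X, Polynomial.eval_C] at h2
  rw [h2, map_prod]
  rw [Finset.prod_congr rfl (fun μ hμ => G_one_sub_eq A ζ μ hprim
    ((mem_primitiveRoots hp.pos).1 hμ) hp.ne_zero), Finset.prod_const, hprim.card_primitiveRoots,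
    Nat.totient_prime hp]

/-- the tame character on `λ = 1 - ζ` is the cyclotomic character mod `p` -/
theorem tame_lambda (p : ℕ) (hp : p.Prime) (A : ValuationSubring Qbar)
    (hA : A.LiesOverPrime p) (τ : GQ) (hτ : τ ∈ A.inertiaSubgroupIn ℚ)
    (ζ : Qbar) (hζ : ζ ^ p = 1) (hmove : τ ζ ≠ ζ) :
    ¬ A.valuation (τ (1 - ζ) - (1 - ζ)) < A.valuation (1 - ζ) := by
  have hζ1 : ζ ≠ 1 := by
    rintro rfl
    exact hmove (map_one τ)
  have hζ0 : ζ ≠ 0 := by
    rintro rfl
    rw [zero_pow hp.ne_zero] at hζ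
    exact zero_ne_one hζ
  have hprim : IsPrimitiveRoot ζ p := G_isPrimitiveRoot hp hζ hζ1
  have hμ : IsPrimitiveRoot (τ ζ / ζ) p := by
    apply G_isPrimitiveRoot hp
    · rw [div_pow, ← map_pow, hζ, map_one, div_one]
    · intro h
      exact hmove ((div_eq_one_iff_eq hζ0).1 h)
  have e : τ (1 - ζ) - (1 - ζ) = ζ * (1 - τ ζ / ζ) := by
    rw [map_sub, map_one]
    field_simp
    ring
  rw [e, map_mul, G_root_mem A ζ hp.ne_zero hζ, one_mul, G_one_sub_eq A ζ _ hprim hμ hp.ne_zero]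
  exact lt_irrefl _

/-- (G3) -/
theorem tame_ne_one (p : ℕ) (hp : p.Prime) (hp2 : p ≠ 2) (A : ValuationSubring Qbar)
    (hA : A.LiesOverPrime p) (τ : GQ) (hτ : τ ∈ A.inertiaSubgroupIn ℚ)
    (ζ : Qbar) (hζ : ζ ^ p = 1) (hmove : τ ζ ≠ ζ) (π : Qbar)
    (h : A.valuation π ^ (p - 1) = A.valuation (p : Qbar) ∨
      A.valuation π ^ (p ^ 2 - 1) = A.valuation (p : Qbar)) :
    ¬ A.valuation (τ π - π) < A.valuation π := by
  intro hπ
  have hζ1 : ζ ≠ 1 := by
    rintro rfl
    exact hmove (map_one τ)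
  have hlam := valuation_one_sub_zeta p hp A hA ζ hζ hζ1
  have hp1 : p - 1 ≠ 0 := by have := hp.two_le; omega
  -- the common end of the argument
  have key : ∀ c : Qbar, A.valuation (τ c - c) < A.valuation c →
      A.valuation c ^ (p - 1) = A.valuation (p : Qbar) → False := by
    intro c hc hcp
    have hvc : 0 < A.valuation c := lt_of_le_of_lt zero_le hc
    have hc0 : c ≠ 0 := (Valuation.ne_zero_iff _).1 hvc.ne'
    have heq : A.valuation c = A.valuation (1 - ζ) := by
      have h1 : A.valuation c ^ (p - 1) = A.valuation (1 - ζ) ^ (p - 1) := by rw [hcp, hlam]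
      exact (pow_left_inj₀ zero_le zero_le hp1).1 h1
    have hu : A.valuation ((1 - ζ) / c) = 1 := by
      rw [map_div₀, ← heq, div_self hvc.ne']
    have h1 := tame_unit A τ hτ _ hu
    rw [← hu] at h1
    have h2 := tame_mul A τ hτ c _ hc (by rw [hu] at h1 ⊢; exact h1)
    rw [mul_div_cancel₀ _ hc0] at h2
    exact tame_lambda p hp A hA τ hτ ζ hζ hmove h2
  rcases h with h | h
  · exact key π hπ h
  · apply key (π ^ (p + 1)) (tame_pow A τ hτ π (p + 1) hπ)
    rw [map_pow, ← pow_mul, ← h]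
    congr 1
    have : p ^ 2 = (p + 1) * (p - 1) + 1 := by
      obtain ⟨k, rfl⟩ : ∃ k, p = k + 1 := ⟨p - 1, by have := hp.pos; omega⟩
      simp only [Nat.add_sub_cancel]
      ring
    omega

end Fermat.Agent.S33Lib
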