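import Fermat.Agent.S33.LDefs

/-!
# S33 library, block (L), leaf (L0): `S34Lib.mem_redSp_maE_iff` for a general `Φ`
-/

set_option autoImplicit false

open AlgebraicCurve IntermediateField Fermat.Agent.S24Lib Fermat.Agent.FFLib Fermat.Agent.S18Lib
  Fermat.Agent.S34Lib

namespace Fermat.Agent.S33Lib

variable {K k F Φ : Type*} [Field K] [Field k] [Field F] [Algebra K F] [CommRing Φ] [Algebra k Φ]
  {A : ValuationSubring K} {resK : A →+* k}

theorem mem_redSp_maE_iff' [IsAlgClosed K] (hF : IsFF K F) (hres : Function.Surjective resK)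
    (R : RedG A resK F Φ) (x : R.O) (hx : IsUnit (R.red x)) (a b : ℕ)
    (D : Divisor K F) (φ : Φ) :
    φ ∈ redSp R hres (riemannRochSpace (maE K ((x : R.O) : F) a b + D)) ↔
      R.red x ^ b * φ ∈
        redSp R hres (riemannRochSpace ((a + b) • poleDiv K ((x : R.O) : F) + D)) := by
  obtain ⟨ux, hux⟩ := R.isUnit_of_red x hx
  set xi : R.O := ((ux⁻¹ : R.Oˣ) : R.O) with hxi_def
  have hxi : xi * x = 1 := by rw [← hux, hxi_def]; simp
  have hx0 : ((x : R.O) : F) ≠ 0 := by
    intro h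
    have h1 : x = 0 := Subtype.ext h
    rw [h1, mul_zero] at hxi
    have h2 : ((0 : R.O) : F) = ((1 : R.O) : F) := congrArg Subtype.val hxi
    exact zero_ne_one h2
  constructor
  · rintro ⟨y, hy, rfl⟩
    refine ⟨x ^ b * y, ?_, by rw [map_mul, map_pow]⟩
    exact (mem_L_maE_iff hF hx0 a b D _).1 hy
  · rintro ⟨z, hz, hzφ⟩
    refine ⟨xi ^ b * z, ?_, ?_⟩
    · rw [mem_L_maE_iff hF hx0 a b D]
      have h1 : x ^ b * (xi ^ b * z) = z := by
        rw [← mul_assoc, ← mul_pow, mul_comm x xi, hxi, one_pow, one_mul]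
      have h2 : ((x : R.O) : F) ^ b * ((xi ^ b * z : R.O) : F) = ((z : R.O) : F) :=
        congrArg Subtype.val h1
      rw [h2]
      exact hz
    · rw [map_mul, hzφ, ← mul_assoc, map_pow, ← mul_pow, ← map_mul, hxi, map_one, one_pow,
        one_mul]

end Fermat.Agent.S33Lib
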