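import Fermat.Agent.S33.LDefs
import Fermat.Agent.S33.LMulX

/-!
# S33 library, block (L), leaf (LC): the chart attached to an `IsLSys`
-/

set_option autoImplicit false

open AlgebraicCurve IntermediateField Fermat.Agent.S24Lib Fermat.Agent.FFLib Fermat.Agent.S18Lib
  Fermat.Agent.S34Lib

namespace Fermat.Agent.S33Lib

variable {K k F Φ : Type*} [Field K] [Field k] [Field F] [Algebra K F] [CommRing Φ] [Algebra k Φ]
  {A : ValuationSubring K} {resK : A →+* k}

/-- description of the reductions of the spaces `L(a (x)_∞ + b (x)_0)` -/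
theorem lc_mem_redSp_iff [IsAlgClosed K] (hF : IsFF K F) (hres : Function.Surjective resK)
    (R : RedG A resK F Φ) {p : ℕ} {x : R.O} {𝓛 : ℕ → Submodule k Φ} {n₀ : ℕ}
    (h : IsLSys R hres p x 𝓛 n₀) (a b : ℕ) (hab : n₀ ≤ a + b) (φ : Φ) :
    φ ∈ redSp R hres (riemannRochSpace (maE K ((x : R.O) : F) a b)) ↔
      R.red x ^ b * φ ∈ 𝓛 (a + b) := by
  have := mem_redSp_maE_iff' hF hres R x h.unit a b 0 φ
  rw [add_zero, add_zero] at this
  rw [this, h.eq (a + b) hab]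

theorem isChartAt_of_lsys [IsAlgClosed K] (hF : IsFF K F) (hres : Function.Surjective resK)
    (R : RedG A resK F Φ) {p : ℕ} (hp : 0 < p) {x : R.O} {𝓛 : ℕ → Submodule k Φ} {n₀ : ℕ}
    (h : IsLSys R hres p x 𝓛 n₀) (n : ℕ) (hn : n₀ ≤ n) : IsChartAt R hres p x 𝓛 n := by
  have hpn : n₀ ≤ p * n := hn.trans (Nat.le_mul_of_pos_left n hp)
  have F1 : ∀ m, n₀ ≤ m → ∀ φ : Φ,
      φ ∈ redSp R hres (riemannRochSpace (maE K ((x : R.O) : F) m 0)) ↔ φ ∈ 𝓛 m := by
    intro m hm φ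
    rw [lc_mem_redSp_iff hF hres R h m 0 (by omega), pow_zero, one_mul, add_zero]
  have F2 : ∀ m, n₀ ≤ m → ∀ φ : Φ,
      φ ∈ redSp R hres (riemannRochSpace (maE K ((x : R.O) : F) 0 m)) ↔
        R.red x ^ m * φ ∈ 𝓛 m := by
    intro m hm φ
    rw [lc_mem_redSp_iff hF hres R h 0 m (by omega), zero_add]
  refine
    { fin₁ := finiteDimensional_L hF _
      fin₂ := finiteDimensional_L hF _
      one₁ := ma_one_mem hF _ _ _
      one₂ := ma_one_mem hF _ _ _
      inter := ?_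
      interV := ?_
      oneW₁ := ?_
      oneW₂ := ?_
      interW := ?_
      root₁ := ?_
      root₂ := ?_
      split := ?_ }
  · rintro f ⟨h1, h2⟩
    exact ma_inf_le hF _ _ _ h1 h2
  · rintro a ⟨h1, h2⟩
    rw [SetLike.mem_coe, F1 _ hpn] at h1
    rw [SetLike.mem_coe, F2 _ hpn] at h2
    exact h.const _ a h1 h2
  · rw [← F1 n hn]
    exact ⟨1, by simpa using ma_one_mem hF ((x : R.O) : F) n 0, map_one _⟩
  · rw [mem_shiftL, ← F2 n hn]
    exact ⟨1, by simpa using ma_one_mem hF ((x : R.O) : F) 0 n, map_one _⟩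
  · rintro a ⟨h1, h2⟩
    exact h.const n a h1 h2
  · intro y hy
    rw [F1 _ hpn] at hy
    exact h.root n y hy
  · intro y hy
    rw [F2 _ hpn] at hy
    rw [mem_shiftL]
    apply h.root n
    rw [mul_pow, ← pow_mul, mul_comm n p]
    exact hy
  · intro y₁ hy₁ y₂ hy₂ hy
    rw [F1 _ hpn] at hy₁
    rw [F2 _ hpn] at hy₂
    exact h.split n (p * n) y₁ y₂ hy₁ hy₂ hy

end Fermat.Agent.S33Lib
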