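import Fermat.Agent.S33.XDefs
import Fermat.Agent.S34.MulX

/-!
# S33 library, block (L): from "`V(L(n (x)_∞)) = 𝓛 n`" to the charts of block (X). Definitions.
-/

set_option autoImplicit false

open AlgebraicCurve Fermat.Agent.FFLib Fermat.Agent.S18Lib Fermat.Agent.S34Lib

namespace Fermat.Agent.S33Lib

variable {K k F Φ : Type*} [Field K] [Field k] [Field F] [Algebra K F] [CommRing Φ] [Algebra k Φ]
  {A : ValuationSubring K} {resK : A →+* k}

/-- a system of "expected" spaces of sections `𝓛 n = V(L(n (x)_∞))` (`n ≥ n₀`) -/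
structure IsLSys (R : RedG A resK F Φ) (hres : Function.Surjective resK) (p : ℕ) (x : R.O)
    (𝓛 : ℕ → Submodule k Φ) (n₀ : ℕ) : Prop where
  unit : IsUnit (R.red x)
  eq : ∀ n, n₀ ≤ n → redSp R hres (riemannRochSpace (n • poleDiv K ((x : R.O) : F))) = 𝓛 n
  root : ∀ (n : ℕ) (y : Φ), y ^ p ∈ 𝓛 (p * n) → y ∈ 𝓛 n
  const : ∀ (m : ℕ) (a : Φ), a ∈ 𝓛 m → R.red x ^ m * a ∈ 𝓛 m → a ∈ (algebraMap k Φ).range
  split : ∀ (n m : ℕ) (y₁ y₂ : Φ), y₁ ∈ 𝓛 m → R.red x ^ m * y₂ ∈ 𝓛 m →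
    R.red x ^ n * (y₁ + y₂) ∈ 𝓛 (n + n) → y₁ ∈ 𝓛 n ∧ R.red x ^ n * y₂ ∈ 𝓛 n

/-- `{φ | a φ ∈ W}` -/
def shiftL (a : Φ) (W : Submodule k Φ) : Submodule k Φ := W.comap (LinearMap.mulLeft k a)

theorem mem_shiftL {a : Φ} {W : Submodule k Φ} {φ : Φ} : φ ∈ shiftL a W ↔ a * φ ∈ W := Iff.rfl

/-- the chart attached to `(x, n)` : this proposition says that the five spaces form a chart -/
def IsChartAt (R : RedG A resK F Φ) (hres : Function.Surjective resK) (p : ℕ) (x : R.O)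
    (𝓛 : ℕ → Submodule k Φ) (n : ℕ) : Prop :=
  IsPChart R hres p (riemannRochSpace (maE K ((x : R.O) : F) (p * n) 0))
    (riemannRochSpace (maE K ((x : R.O) : F) 0 (p * n)))
    (𝓛 n) (shiftL (R.red x ^ n) (𝓛 n)) (shiftL (R.red x ^ n) (𝓛 (n + n)))

/-- `π` is a gap constant of `u` in the chart `(x, n)` -/
def HasGap (R : RedG A resK F Φ) (hres : Function.Surjective resK) (p : ℕ) (x : R.O)
    (𝓛 : ℕ → Submodule k Φ) (n : ℕ) (u : R.O) (π : A) : Prop :=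
  ∃ (U₁ U₂ : Submodule K F) (s₁ s₂ w : R.O),
    IsPTwist R hres p (riemannRochSpace (maE K ((x : R.O) : F) (p * n) 0))
      (riemannRochSpace (maE K ((x : R.O) : F) 0 (p * n)))
      (𝓛 n) (shiftL (R.red x ^ n) (𝓛 n)) (shiftL (R.red x ^ n) (𝓛 (n + n))) ((u : R.O) : F) U₁ U₂ ∧
    IsGap R hres U₁ U₂ s₁ s₂ w π

/-- a `RedData` is a `RedG` -/
def toRedG {Ft : Type*} [Field Ft] [Algebra k Ft] (R : RedData A resK F Ft) :
    RedG A resK F Ft where
  O := R.O.toSubring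
  red := R.red
  red_surjective := R.red_surjective
  isUnit_of_red := fun x hx => R.isUnit_of_red_ne_zero x hx.ne_zero
  algebraMap_mem_iff := R.algebraMap_mem_iff
  red_algebraMap := R.red_algebraMap
  exists_scale := fun x hx => by
    obtain ⟨c, hc, y, hy⟩ := R.exists_scale x hx
    exact ⟨c, hc, (y : R.O), (y.isUnit.map R.red).ne_zero, hy⟩
  exists_orth := R.exists_orth

end Fermat.Agent.S33Lib
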