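import Fermat.Agent.S33.LDefs
import Fermat.Agent.S34.AbsGalois

/-!
# S33 library, block (L), leaf (LG)
-/

set_option autoImplicit false

open AlgebraicCurve IntermediateField Fermat.Agent.S24Lib Fermat.Agent.FFLib Fermat.Agent.S18Lib
  Fermat.Agent.S34Lib

namespace Fermat.Agent.S33Lib

variable {K k F Φ : Type*} [Field K] [Field k] [Field F] [Algebra K F] [CommRing Φ] [Algebra k Φ]
  {A : ValuationSubring K} {resK : A →+* k}

theorem smul_mem_maE [IsAlgClosed K] (hF : IsFF K F) (g : SemilinearAut K F) (x : F)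
    (hgx : g • x = x) (a b : ℕ) {y : F} (hy : y ∈ riemannRochSpace (maE K x a b)) :
    g • y ∈ riemannRochSpace (maE K x a b) := by
  rw [mem_L_iff] at hy ⊢
  intro v
  rcases hy (g⁻¹ • v) with h0 | h0
  · left
    rw [h0, smul_zero]
  · right
    rw [GA_ord_smul]
    rw [maE_apply hF] at h0 ⊢
    have e : (g⁻¹ • v).ord x = v.ord x := by
      rw [← GA_ord_smul, hgx]
    rw [e] at h0
    exact h0

end Fermat.Agent.S33Lib
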