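import Fermat.Agent.S33.LDefs
import Fermat.Agent.S34.Obstruction2
import Fermat.Agent.S34.Twist

/-!
# S33 library, block (L), leaf (L1): one component (good reduction)
-/

set_option autoImplicit false

open AlgebraicCurve IntermediateField Fermat.Agent.S24Lib Fermat.Agent.FFLib Fermat.Agent.S18Lib
  Fermat.Agent.S34Lib

namespace Fermat.Agent.S33Lib

variable {K k F Φ : Type*} [Field K] [Field k] [Field F] [Algebra K F] [CommRing Φ] [Algebra k Φ]
  {A : ValuationSubring K} {resK : A →+* k}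

/-- `a ∈ L(m (x)_∞)`, `x ^ m a ∈ L(m (x)_∞)` ⟹ `a` is constant -/
theorem l1_const {Ft : Type*} [Field Ft] [Algebra k Ft] [IsAlgClosed k] (hFt : IsFF k Ft)
    {x : Ft} (hx : x ≠ 0) (m : ℕ) (a : Ft) (h1 : a ∈ riemannRochSpace (m • poleDiv k x))
    (h2 : x ^ m * a ∈ riemannRochSpace (m • poleDiv k x)) : a ∈ (algebraMap k Ft).range := by
  refine ma_inf_le hFt x m m ?_ ?_
  · rw [T1e_maE_zero_right]; exact h1
  · rw [T1e_mem_maE hFt hx, zero_add]; exact h2

/-- disjoint supports -/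
theorem l1_split {Ft : Type*} [Field Ft] [Algebra k Ft] [IsAlgClosed k] (hFt : IsFF k Ft)
    {x : Ft} (hx : x ≠ 0) (n m : ℕ) (y₁ y₂ : Ft) (h1 : y₁ ∈ riemannRochSpace (m • poleDiv k x))
    (h2 : x ^ m * y₂ ∈ riemannRochSpace (m • poleDiv k x))
    (h3 : x ^ n * (y₁ + y₂) ∈ riemannRochSpace ((n + n) • poleDiv k x)) :
    y₁ ∈ riemannRochSpace (n • poleDiv k x) ∧ x ^ n * y₂ ∈ riemannRochSpace (n • poleDiv k x) := by
  obtain ⟨z₁, z₂⟩ := ma_split hFt x n m (y₁ := y₁) (y₂ := y₂)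
    (by rw [T1e_maE_zero_right]; exact h1)
    (by rw [T1e_mem_maE hFt hx, zero_add]; exact h2)
    (by rw [T1e_mem_maE hFt hx]; exact h3)
  refine ⟨?_, ?_⟩
  · rw [← T1e_maE_zero_right]; exact z₁
  · have := (T1e_mem_maE hFt hx 0 n y₂).1 z₂
    rwa [zero_add] at this

theorem isLSys_of_redData {Ft : Type*} [Field Ft] [Algebra k Ft] [IsAlgClosed k]
    (hFt : IsFF k Ft) (hres : Function.Surjective resK) (R : RedData A resK F Ft) {p : ℕ}
    (hp : 0 < p) (x : R.O) (hx : Transcendental k (R.red x)) (n₀ : ℕ)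
    (h : ∀ n, n₀ ≤ n → redSpace R hres (riemannRochSpace (n • poleDiv K ((x : R.O) : F))) =
      riemannRochSpace (n • poleDiv k (R.red x))) :
    IsLSys (toRedG R) hres p (x : (toRedG R).O)
      (fun n => riemannRochSpace (n • poleDiv k (R.red x))) n₀ := by
  have hx0 : R.red x ≠ 0 := by
    intro h0; rw [h0] at hx; exact hx isAlgebraic_zero
  refine
    { unit := hx0.isUnit
      eq := ?_
      root := ?_
      const := ?_
      split := ?_ }
  · intro n hn
    rw [← h n hn]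
    rfl
  · intro n y hy
    exact T1a_root_mem hp hy
  · intro m a h1 h2
    exact l1_const hFt hx0 m a h1 h2
  · intro n m y₁ y₂ h1 h2 h3
    exact l1_split hFt hx0 n m y₁ y₂ h1 h2 h3

end Fermat.Agent.S33Lib
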