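import Fermat.Agent.S33.LDefs
import Fermat.Agent.S33.LInst1
import Fermat.Agent.S34.Obstruction2
import Fermat.Agent.S34.Twist
import Fermat.Agent.S34.Connected3

/-!
# S33 library, block (L), leaf (L2): two components glued along nodes
-/

set_option autoImplicit false

open AlgebraicCurve IntermediateField Fermat.Agent.S24Lib Fermat.Agent.FFLib Fermat.Agent.S18Lib
  Fermat.Agent.S34Lib

namespace Fermat.Agent.S33Lib

variable {K k F Φ : Type*} [Field K] [Field k] [Field F] [Algebra K F] [CommRing Φ] [Algebra k Φ]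
  {A : ValuationSubring K} {resK : A →+* k}

theorem exists_isLSys_of_HW {Ft : Type*} [Field Ft] [Algebra k Ft] [IsAlgClosed K] [IsAlgClosed k]
    (hF : IsFF K F)
    (hFt : IsFF k Ft) (hres : Function.Surjective resK) (R : RedG A resK F (Ft × Ft)) {p : ℕ}
    [Fact p.Prime] [CharP k p] (x : R.O) (hx₁ : Transcendental k (R.red x).1)
    (hx₂ : Transcendental k (R.red x).2) (S : Finset (Place k Ft × Place k Ft)) (n₀ : ℕ)
    (hS : IsNodeData (R.red x).1 (R.red x).2 S) (hW : HW R hres x S n₀) :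
    ∃ 𝓛 : ℕ → Submodule k (Ft × Ft), IsLSys R hres p x 𝓛 n₀ := by
  classical
  have hp : 0 < p := (Fact.out : p.Prime).pos
  have hx₁0 : (R.red x).1 ≠ 0 := by
    intro h; rw [h] at hx₁; exact hx₁ (isAlgebraic_zero)
  have hx₂0 : (R.red x).2 ≠ 0 := by
    intro h; rw [h] at hx₂; exact hx₂ (isAlgebraic_zero)
  have hxu : IsUnit (R.red x) := by
    rw [Prod.isUnit_iff]
    exact ⟨hx₁0.isUnit, hx₂0.isUnit⟩
  choose 𝓛 h𝓛 using fun n => exists_glued_submodule hFt S hS (fun _ => 1) n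
  -- `x̄` is glued
  have hxg : Glued S (fun _ => 1) (R.red x) := by
    have hxmem : ((x : R.O) : F) ∈
        riemannRochSpace ((max n₀ 1) • poleDiv K ((x : R.O) : F)) := by
      have h1 := CN3_pow_mem hF ((x : R.O) : F) 1
      rw [pow_one] at h1
      exact L_mono (nsmul_le_nsmul_left (dg_poleDiv_nonneg hF _) (le_max_right _ _)) h1
    exact ((hW _ (le_max_left _ _) (R.red x)).1 (red_mem_redSp hres hxmem)).2
  have hxLt : ∀ n : ℕ, R.red x ^ n ∈ Lt k (R.red x).1 (R.red x).2 n := by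
    intro n
    refine Submodule.mem_prod.2 ⟨?_, ?_⟩
    · rw [Prod.pow_fst]; exact CN3_pow_mem hFt _ n
    · rw [Prod.pow_snd]; exact CN3_pow_mem hFt _ n
  have hxpow : ∀ n : ℕ, Glued S (fun _ => 1) (R.red x ^ n) := by
    intro n s hs
    have h1 := hxg s hs
    rw [one_mul] at h1 ⊢
    rw [Prod.pow_fst, Prod.pow_snd, evP_pow hFt _ (Or.inr (hS.fin₁ s hs)),
      evP_pow hFt _ (Or.inr (hS.fin₂ s hs)), h1]
  refine ⟨𝓛,
    { unit := hxu
      eq := ?_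
      root := ?_
      const := ?_
      split := ?_ }⟩
  · intro n hn
    ext φ
    rw [hW n hn φ, h𝓛]
  · intro n y hy
    rw [h𝓛] at hy ⊢
    obtain ⟨h2, h3⟩ := hy
    have h4 : y ∈ Lt k (R.red x).1 (R.red x).2 n := by
      have h2' := Submodule.mem_prod.mp h2
      exact Submodule.mem_prod.mpr ⟨T1a_root_mem hp h2'.1, T1a_root_mem hp h2'.2⟩
    refine ⟨h4, fun s hs => ?_⟩
    have h5 := h3 s hs
    rw [one_mul, Prod.pow_fst, Prod.pow_snd, evP_pow hFt _ (T1b_reg₁ hFt hS h4 hs),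
      evP_pow hFt _ (T1b_reg₂ hFt hS h4 hs)] at h5
    rw [one_mul]
    exact frobenius_inj k p h5
  · intro m a ha hb
    rw [h𝓛] at ha hb
    obtain ⟨ha, hg⟩ := ha
    have ha' := Submodule.mem_prod.1 ha
    have hb' := Submodule.mem_prod.1 hb.1
    rw [Prod.fst_mul, Prod.pow_fst] at hb'
    rw [Prod.snd_mul, Prod.pow_snd] at hb'
    obtain ⟨c₁, hc₁⟩ := l1_const hFt hx₁0 m a.1 ha'.1 hb'.1
    obtain ⟨c₂, hc₂⟩ := l1_const hFt hx₂0 m a.2 ha'.2 hb'.2
    obtain ⟨s, hs⟩ := hS.nonempty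
    have := hg s hs
    rw [← hc₁, ← hc₂, evP_algebraMap, evP_algebraMap, one_mul] at this
    refine ⟨c₁, ?_⟩
    ext
    · simpa using hc₁
    · rw [this]; simpa using hc₂
  · intro n m y₁ y₂ hy₁ hy₂ hy12
    rw [h𝓛] at hy₁ hy₂ hy12
    rw [h𝓛, h𝓛]
    have a₁ := Submodule.mem_prod.1 hy₁.1
    have a₂ := Submodule.mem_prod.1 hy₂.1
    have a₃ := Submodule.mem_prod.1 hy12.1
    rw [Prod.fst_mul, Prod.pow_fst, Prod.snd_mul, Prod.pow_snd] at a₂
    rw [Prod.fst_mul, Prod.pow_fst, Prod.snd_mul, Prod.pow_snd, Prod.fst_add, Prod.snd_add] at a₃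
    obtain ⟨z₁₁, z₂₁⟩ := l1_split hFt hx₁0 n m y₁.1 y₂.1 a₁.1 a₂.1 a₃.1
    obtain ⟨z₁₂, z₂₂⟩ := l1_split hFt hx₂0 n m y₁.2 y₂.2 a₁.2 a₂.2 a₃.2
    refine ⟨⟨Submodule.mem_prod.2 ⟨z₁₁, z₁₂⟩, hy₁.2⟩, Submodule.mem_prod.2 ⟨?_, ?_⟩, ?_⟩
    · rw [Prod.fst_mul, Prod.pow_fst]; exact z₂₁
    · rw [Prod.snd_mul, Prod.pow_snd]; exact z₂₂
    · have e : R.red x ^ n * y₂ = R.red x ^ n * (y₁ + y₂) - R.red x ^ n * y₁ := by ring
      rw [e]
      have rx := T1e_reg_of_mem_Lt hFt hS (hxLt n)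
      have ry := T1e_reg_of_mem_Lt hFt hS hy₁.1
      exact T1e_glued_sub hFt (T1e_reg_of_mem_Lt hFt hS hy12.1) (T1e_reg_mul rx ry) hy12.2
        (T1e_glued_mul hFt rx ry (hxpow n) hy₁.2)

end Fermat.Agent.S33Lib
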