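import Fermat.Agent.S33.XDefs
import Fermat.Agent.S33.XScale

/-!
# S33 library, block (X), leaf (X0): existence and uniqueness of the gap
-/

set_option autoImplicit false

open Fermat.Agent.S18Lib Fermat.Agent.S34Lib

namespace Fermat.Agent.S33Lib

variable {K k F Φ : Type*} [Field K] [Field k] [Field F] [Algebra K F] [CommRing Φ] [Algebra k Φ]
  {A : ValuationSubring K} {resK : A →+* k}

theorem exists_isGap [Nontrivial Φ] (R : RedG A resK F Φ) (hres : Function.Surjective resK)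
    {p : ℕ} {U₁' U₂' : Submodule K F} {W₁ W₂ W₁₂ : Submodule k Φ} {u : F} {U₁ U₂ : Submodule K F}
    (C : IsPChart R hres p U₁' U₂' W₁ W₂ W₁₂)
    (Tw : IsPTwist R hres p U₁' U₂' W₁ W₂ W₁₂ u U₁ U₂) :
    ∃ (s₁ s₂ w : R.O) (π : A), IsGap R hres U₁ U₂ s₁ s₂ w π := by
  have := Tw.fin₁
  have := Tw.fin₂
  obtain ⟨s₁, s₂, w, π, h1, h2, h3, h4, h5, h6, h7, h8⟩ := exists_gapG R hres U₁ U₂ Tw.disj
    (by rw [Tw.red₁]; exact C.oneW₁) (by rw [Tw.red₂]; exact C.oneW₂)
    (by rw [Tw.red₁, Tw.red₂]; exact C.interW)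
  exact ⟨s₁, s₂, w, π, h1, h2, h3, h4, h5, h6, h7, h8⟩

/-- `w ∈ U₁ ⊔ U₂` -/
theorem x0_w_mem (R : RedG A resK F Φ) (hres : Function.Surjective resK)
    {U₁ U₂ : Submodule K F} {s₁ s₂ w : R.O} {π : A} (h : IsGap R hres U₁ U₂ s₁ s₂ w π) :
    ((w : R.O) : F) ∈ U₁ ⊔ U₂ := by
  have hπK : (π : K) ≠ 0 := fun h0 => h.ne (Subtype.ext h0)
  have h1 : ((s₁ : R.O) : F) - s₂ = (π : K) • ((w : R.O) : F) := by
    have := congrArg (fun z : R.O => (z : F)) h.eq
    simpa [Algebra.smul_def] using this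
  rw [← Submodule.smul_mem_iff _ hπK, ← h1]
  exact Submodule.sub_mem _ (Submodule.mem_sup_left h.mem₁) (Submodule.mem_sup_right h.mem₂)

/-- the lattice `(U₁ ⊔ U₂) ∩ O` is `(U₁ ∩ O) + (U₂ ∩ O) + A w` -/
theorem x0_decomp [Nontrivial Φ] (R : RedG A resK F Φ) (hres : Function.Surjective resK)
    (U₁ U₂ : Submodule K F) [FiniteDimensional K U₁] [FiniteDimensional K U₂]
    (hdisj : U₁ ⊓ U₂ = ⊥)
    (hint : ∀ a ∈ redSp R hres U₁ ⊓ redSp R hres U₂, a ∈ (algebraMap k Φ).range)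
    {s₁ s₂ w : R.O} {π : A} (h : IsGap R hres U₁ U₂ s₁ s₂ w π)
    (y : R.O) (hy : ((y : R.O) : F) ∈ U₁ ⊔ U₂) :
    ∃ (t₁ t₂ : R.O) (z : A), ((t₁ : R.O) : F) ∈ U₁ ∧ ((t₂ : R.O) : F) ∈ U₂ ∧
      y = t₁ + t₂ + xsC R z * w := by
  classical
  set V₁ := redSp R hres U₁ with hV₁
  set V₂ := redSp R hres U₂ with hV₂
  have : FiniteDimensional k V₁ := finiteDimensional_redSp R hres U₁
  have : FiniteDimensional k V₂ := finiteDimensional_redSp R hres U₂
  have : FiniteDimensional k (redSp R hres (U₁ ⊔ U₂)) :=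
    finiteDimensional_redSp R hres (U₁ ⊔ U₂)
  have hwU := x0_w_mem R hres h
  -- the dimension count
  have hle : V₁ ⊔ V₂ ⊔ Submodule.span k {R.red w} ≤ redSp R hres (U₁ ⊔ U₂) := by
    refine sup_le (sup_le (redSp_mono hres le_sup_left) (redSp_mono hres le_sup_right)) ?_
    rw [Submodule.span_singleton_le_iff_mem]
    exact red_mem_redSp hres hwU
  have heq : V₁ ⊔ V₂ ⊔ Submodule.span k {R.red w} = redSp R hres (U₁ ⊔ U₂) := by
    apply Submodule.eq_of_le_of_finrank_le hle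
    have e1 := Submodule.finrank_sup_add_finrank_inf_eq U₁ U₂
    have e2 := Submodule.finrank_sup_add_finrank_inf_eq V₁ V₂
    rw [hdisj, finrank_bot, add_zero] at e1
    rw [hV₁, hV₂, finrank_redSp, finrank_redSp, ← hV₁, ← hV₂] at e2
    rw [finrank_redSp, e1]
    have e4 : Module.finrank k ↥(V₁ ⊓ V₂) ≤ 1 := by
      have hle : V₁ ⊓ V₂ ≤ Submodule.span k {(1 : Φ)} := by
        intro a ha
        obtain ⟨c, rfl⟩ := hint a ha
        rw [Submodule.mem_span_singleton]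
        exact ⟨c, by rw [Algebra.smul_def, mul_one]⟩
      calc Module.finrank k ↥(V₁ ⊓ V₂) ≤ Module.finrank k ↥(Submodule.span k {(1 : Φ)}) :=
            Submodule.finrank_mono hle
        _ ≤ 1 := by rw [finrank_span_singleton one_ne_zero]
    have e5 : Module.finrank k ↥(V₁ ⊔ V₂) < Module.finrank k ↥(V₁ ⊔ V₂ ⊔ Submodule.span k {R.red w}) := by
      apply Submodule.finrank_lt_finrank_of_lt
      refine lt_of_le_of_ne le_sup_left fun hcon => h.not_mem ?_
      rw [← hV₁, ← hV₂, hcon]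
      exact Submodule.mem_sup_right (Submodule.mem_span_singleton_self _)
    omega
  -- the lattice
  let Λ : AddSubgroup R.O :=
    { carrier := {y | ∃ (t₁ t₂ : R.O) (z : A), ((t₁ : R.O) : F) ∈ U₁ ∧ ((t₂ : R.O) : F) ∈ U₂ ∧
        y = t₁ + t₂ + xsC R z * w}
      zero_mem' := ⟨0, 0, 0, U₁.zero_mem, U₂.zero_mem, by simp⟩
      add_mem' := by
        rintro _ _ ⟨t₁, t₂, z, h1, h2, rfl⟩ ⟨t₁', t₂', z', h1', h2', rfl⟩
        exact ⟨t₁ + t₁', t₂ + t₂', z + z', U₁.add_mem h1 h1', U₂.add_mem h2 h2', by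
          rw [map_add]; ring⟩
      neg_mem' := by
        rintro _ ⟨t₁, t₂, z, h1, h2, rfl⟩
        exact ⟨-t₁, -t₂, -z, U₁.neg_mem h1, U₂.neg_mem h2, by rw [map_neg]; ring⟩ }
  have key : y ∈ Λ := by
    apply mem_of_red_surj R hres (U₁ ⊔ U₂) Λ _ _ _ y hy
    · rintro a _ ⟨t₁, t₂, z, h1, h2, rfl⟩
      refine ⟨xsC R a * t₁, xsC R a * t₂, a * z, ?_, ?_, ?_⟩
      · have := U₁.smul_mem (a : K) h1
        rwa [Algebra.smul_def] at this
      · have := U₂.smul_mem (a : K) h2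
        rwa [Algebra.smul_def] at this
      · rw [xs_const, map_mul]; ring
    · rintro _ ⟨t₁, t₂, z, h1, h2, rfl⟩
      have h3 : ((xsC R z * w : R.O) : F) ∈ U₁ ⊔ U₂ := by
        have := (U₁ ⊔ U₂).smul_mem (z : K) hwU
        rwa [Algebra.smul_def] at this
      exact (U₁ ⊔ U₂).add_mem ((U₁ ⊔ U₂).add_mem (Submodule.mem_sup_left h1)
        (Submodule.mem_sup_right h2)) h3
    · intro φ hφ
      rw [← heq] at hφ
      obtain ⟨a, ha, b, hb, rfl⟩ := Submodule.mem_sup.1 hφ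
      obtain ⟨a₁, ⟨t₁, h1, rfl⟩, a₂, ⟨t₂, h2, rfl⟩, rfl⟩ := Submodule.mem_sup.1 ha
      obtain ⟨c, rfl⟩ := Submodule.mem_span_singleton.1 hb
      obtain ⟨z, rfl⟩ := hres c
      exact ⟨t₁ + t₂ + xsC R z * w, ⟨t₁, t₂, z, h1, h2, rfl⟩, by
        rw [map_add, map_add, map_mul, xs_red_C, Algebra.smul_def]⟩
  exact key

/-- (X0) -/
theorem gap_unique [Nontrivial Φ] (R : RedG A resK F Φ) (hres : Function.Surjective resK)
    (U₁ U₂ : Submodule K F) [FiniteDimensional K U₁] [FiniteDimensional K U₂]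
    (hdisj : U₁ ⊓ U₂ = ⊥)
    (hint : ∀ a ∈ redSp R hres U₁ ⊓ redSp R hres U₂, a ∈ (algebraMap k Φ).range)
    {s₁ s₂ w : R.O} {π : A} (h : IsGap R hres U₁ U₂ s₁ s₂ w π)
    (s₁' s₂' w' : R.O) (π' : A) (h₁ : ((s₁' : R.O) : F) ∈ U₁) (h₂ : ((s₂' : R.O) : F) ∈ U₂)
    (hr₁ : R.red s₁' = 1) (hr₂ : R.red s₂' = 1) (hπ' : π' ≠ 0)
    (heq : s₁' - s₂' = R.const π' * w') :
    ∃ z : A, π = π' * z ∧ (R.red w' = R.red w → resK z = 1) := by
  have hπK : (π : K) ≠ 0 := fun h0 => h.ne (Subtype.ext h0)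
  have hπ'K : (π' : K) ≠ 0 := fun h0 => hπ' (Subtype.ext h0)
  have hw0 : R.red w ≠ 0 := fun h0 => h.not_mem (h0 ▸ Submodule.zero_mem _)
  by_cases hu : resK π' = 0
  swap
  · -- `π'` is a unit
    have hv := (xs_res_ne_zero_iff hres π').1 hu
    have hz : (π : K) / π' ∈ A := by
      rw [← A.valuation_le_one_iff, map_div₀, hv, div_one]
      exact A.valuation_le_one π
    refine ⟨⟨_, hz⟩, Subtype.ext (mul_div_cancel₀ _ hπ'K).symm, fun hww => ?_⟩
    exfalso
    apply hw0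
    have h3 := congrArg R.red heq
    rw [map_sub, hr₁, hr₂, sub_self, map_mul, R.red_const, hww] at h3
    have h4 : algebraMap k Φ ((resK π')⁻¹ * resK π') * R.red w = 0 := by
      rw [map_mul, mul_assoc, ← h3, mul_zero]
    rwa [inv_mul_cancel₀ hu, map_one, one_mul] at h4
  -- `w' ∈ U₁ ⊔ U₂`
  have hw'U : ((w' : R.O) : F) ∈ U₁ ⊔ U₂ := by
    have h1 : ((s₁' : R.O) : F) - s₂' = (π' : K) • ((w' : R.O) : F) := by
      have := congrArg (fun z : R.O => (z : F)) heq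
      simpa [Algebra.smul_def] using this
    rw [← Submodule.smul_mem_iff _ hπ'K, ← h1]
    exact Submodule.sub_mem _ (Submodule.mem_sup_left h₁) (Submodule.mem_sup_right h₂)
  obtain ⟨t₁, t₂, z', ht₁, ht₂, hw'⟩ := x0_decomp R hres U₁ U₂ hdisj hint h w' hw'U
  set α : K := (π' : K) * z' / π with hα
  -- the identity in `F`
  have hF1 : ((s₁ : R.O) : F) - s₂ = algebraMap K F π * (w : F) :=
    congrArg (fun z : R.O => (z : F)) h.eq
  have hF2 : ((s₁' : R.O) : F) - s₂' = algebraMap K F π' * (w' : F) :=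
    congrArg (fun z : R.O => (z : F)) heq
  have hF3 : ((w' : R.O) : F) = t₁ + t₂ + algebraMap K F z' * (w : F) :=
    congrArg (fun z : R.O => (z : F)) hw'
  have hπF : algebraMap K F (π : K) ≠ 0 := by simpa using hπK
  have hwF : ((w : R.O) : F) = (algebraMap K F π)⁻¹ * (((s₁ : R.O) : F) - s₂) := by
    rw [hF1, ← mul_assoc, inv_mul_cancel₀ hπF, one_mul]
  have hsplit : ((s₁' : R.O) : F) - algebraMap K F π' * t₁ - algebraMap K F α * s₁
      = (s₂' : F) + algebraMap K F π' * t₂ - algebraMap K F α * s₂ := by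
    have e : algebraMap K F α = algebraMap K F π' * algebraMap K F z' * (algebraMap K F π)⁻¹ := by
      rw [hα, map_div₀, map_mul, div_eq_mul_inv]
    have h5 : ((s₁' : R.O) : F) = s₂' + algebraMap K F π' * (t₁ + t₂ + algebraMap K F z' *
        ((algebraMap K F π)⁻¹ * (((s₁ : R.O) : F) - s₂))) := by
      rw [← hwF, ← hF3, ← hF2]; ring
    rw [e, h5]
    ring
  have hmem₁ : ((s₁' : R.O) : F) - algebraMap K F π' * t₁ - algebraMap K F α * s₁ ∈ U₁ := by
    refine U₁.sub_mem (U₁.sub_mem h₁ ?_) ?_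
    · have := U₁.smul_mem (π' : K) ht₁
      rwa [Algebra.smul_def] at this
    · have := U₁.smul_mem α h.mem₁
      rwa [Algebra.smul_def] at this
  have hmem₂ : ((s₁' : R.O) : F) - algebraMap K F π' * t₁ - algebraMap K F α * s₁ ∈ U₂ := by
    rw [hsplit]
    refine U₂.sub_mem (U₂.add_mem h₂ ?_) ?_
    · have := U₂.smul_mem (π' : K) ht₂
      rwa [Algebra.smul_def] at this
    · have := U₂.smul_mem α h.mem₂
      rwa [Algebra.smul_def] at this
  have hzero : ((s₁' : R.O) : F) - algebraMap K F π' * t₁ - algebraMap K F α * s₁ = 0 := by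
    have : ((s₁' : R.O) : F) - algebraMap K F π' * t₁ - algebraMap K F α * s₁ ∈ U₁ ⊓ U₂ :=
      ⟨hmem₁, hmem₂⟩
    rw [hdisj] at this
    exact (Submodule.mem_bot K).1 this
  -- `α ∈ A`, `res α = 1`
  set y₁ : R.O := s₁' - xsC R π' * t₁ with hy₁
  have hαs : algebraMap K F α * ((s₁ : R.O) : F) = algebraMap K F 1 * ((y₁ : R.O) : F) := by
    rw [map_one, one_mul]
    change _ = ((s₁' : R.O) : F) - algebraMap K F π' * t₁
    exact (sub_eq_zero.1 hzero).symm
  have hs₁0 : R.red s₁ ≠ 0 := by rw [h.red₁]; exact one_ne_zero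
  have hαA : α ∈ A := by
    rw [← A.valuation_le_one_iff]
    have := xs_le_of_red_ne_zero R hres s₁ y₁ α 1 hs₁0 hαs
    rwa [map_one] at this
  have hy₁e : y₁ = xsC R ⟨α, hαA⟩ * s₁ := by
    apply Subtype.ext
    change ((y₁ : R.O) : F) = algebraMap K F α * s₁
    rw [hαs, map_one, one_mul]
  have hresα : resK ⟨α, hαA⟩ = 1 := by
    apply xs_algebraMap_inj (k := k) (Φ := Φ)
    have h6 := congrArg R.red hy₁e
    rw [hy₁, map_sub, map_mul, map_mul, xs_red_C, xs_red_C, hu, map_zero, zero_mul, sub_zero, hr₁,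
      h.red₁, mul_one] at h6
    rw [← h6, map_one]
  have hαv : A.valuation α = 1 :=
    (xs_res_ne_zero_iff hres ⟨α, hαA⟩).1 (by rw [hresα]; exact one_ne_zero)
  have hα0 : α ≠ 0 := by
    intro h0
    rw [h0, map_zero] at hαv
    exact zero_ne_one hαv
  have hzA : (z' : K) / α ∈ A := by
    rw [← A.valuation_le_one_iff, map_div₀, hαv, div_one]
    exact A.valuation_le_one z'
  refine ⟨⟨_, hzA⟩, ?_, fun hww => ?_⟩
  · apply Subtype.ext
    change (π : K) = π' * (z' / α)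
    rw [hα]
    have hz'0 : (z' : K) ≠ 0 := by
      intro h0
      apply hα0
      rw [hα, h0, mul_zero, zero_div]
    field_simp
  · -- `res z' = 1`
    have h7 := congrArg R.red hw'
    rw [map_add, map_add, map_mul, xs_red_C, hww] at h7
    have hz'1 : resK z' = 1 := by
      by_contra hne
      apply h.not_mem
      have hne' : 1 - resK z' ≠ 0 := sub_ne_zero.2 (Ne.symm hne)
      have h8 : (1 - resK z') • R.red w = R.red t₁ + R.red t₂ := by
        rw [Algebra.smul_def, map_sub, map_one, sub_mul, one_mul]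
        rw [sub_eq_iff_eq_add]
        exact h7
      rw [← Submodule.smul_mem_iff _ hne', h8]
      exact Submodule.add_mem_sup (red_mem_redSp hres ht₁) (red_mem_redSp hres ht₂)
    have h9 : (⟨(z' : K) / α, hzA⟩ : A) * ⟨α, hαA⟩ = z' :=
      Subtype.ext (div_mul_cancel₀ _ hα0)
    have h10 := congrArg resK h9
    rw [map_mul, hresα, mul_one, hz'1] at h10
    exact h10

end Fermat.Agent.S33Lib
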