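import Fermat.Agent.S33.LDefs
import Fermat.Agent.S33.LMulX
import Fermat.Agent.S33.LChart
import Fermat.Agent.S33.XUnique
import Fermat.Agent.S34.Obstruction2
import Fermat.Agent.S34.Twist
import Fermat.Agent.S34.AbsGalois

/-!
# S33 library, block (L), leaf (LT): the twisted charts
-/

set_option autoImplicit false

open AlgebraicCurve IntermediateField Fermat.Agent.S24Lib Fermat.Agent.FFLib Fermat.Agent.S18Lib
  Fermat.Agent.S34Lib

namespace Fermat.Agent.S33Lib

variable {K k F Φ : Type*} [Field K] [Field k] [Field F] [Algebra K F] [CommRing Φ] [Algebra k Φ]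
  {A : ValuationSubring K} {resK : A →+* k}

theorem lt_nontrivial (R : RedG A resK F Φ) : Nontrivial Φ := by
  obtain ⟨c, -, y, hy, -⟩ := R.exists_scale 1 one_ne_zero
  exact ⟨⟨_, _, hy⟩⟩

theorem lt_coe_ne_zero (R : RedG A resK F Φ) (u : R.O) (hu : R.red u = 1) :
    ((u : R.O) : F) ≠ 0 := by
  intro h
  have h1 : u = 0 := Subtype.ext h
  rw [h1, map_zero] at hu
  have := lt_nontrivial R
  exact zero_ne_one hu

theorem lt_mem_iff [IsAlgClosed K] (hF : IsFF K F) (x u : F) (hu : u ≠ 0) (p : ℕ) (hp : 0 < p)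
    (D : Divisor K F) (hD : ∀ v : Place K F, v.ord u = p * D v) (a b : ℕ) (s : F) :
    s ∈ riemannRochSpace (maE K x a b + D) ↔
      s ^ p * u ∈ riemannRochSpace (maE K x (p * a) (p * b)) := by
  refine ⟨fun hs => ma_pow_mul_mem hF x u p hp D hD a b hs, fun hs => ?_⟩
  rw [mem_L_iff] at hs ⊢
  intro v
  by_cases hs0 : s = 0
  · left; exact hs0
  right
  rcases hs v with h0 | h0
  · exact absurd h0 (mul_ne_zero (pow_ne_zero _ hs0) hu)
  rw [v.ord_mul (pow_ne_zero _ hs0) hu, ma_ord_pow, hD v, maE_apply hF] at h0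
  rw [Finsupp.add_apply, maE_apply hF]
  push_cast at h0
  have hp' : (0 : ℤ) < p := by exact_mod_cast hp
  have h1 : (p : ℤ) * (-(a * max (-v.ord x) 0 + b * max (v.ord x) 0 + D v)) ≤ p * v.ord s := by
    linarith
  exact le_of_mul_le_mul_left h1 hp'

theorem lt_degree_eq_zero [IsAlgClosed K] (hF : IsFF K F) (u : F) (p : ℕ) (hp : 0 < p)
    (D : Divisor K F) (hD : ∀ v : Place K F, v.ord u = p * D v) : Divisor.degree D = 0 := by
  have e : p • D = divOf K u := by
    ext v
    rw [divOf_apply hF, hD v]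
    simp
  have := degree_divOf hF u
  rw [← e, map_nsmul, nsmul_eq_mul] at this
  rcases mul_eq_zero.1 this with h | h
  · exact absurd (by exact_mod_cast h) hp.ne'
  · exact h

/-- the core: `V(L(n (x)_∞ + D)) = 𝓛 n` for `n` large, uniformly in `D` -/
theorem lt_redSp_eq [IsAlgClosed K] (hF : IsFF K F) (hres : Function.Surjective resK)
    (R : RedG A resK F Φ) {p : ℕ} (hp : 0 < p) {x : R.O} (hx : Transcendental K ((x : R.O) : F))
    {𝓛 : ℕ → Submodule k Φ} {n₀ : ℕ} (h : IsLSys R hres p x 𝓛 n₀) :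
    ∃ n₁ : ℕ, n₀ ≤ n₁ ∧ ∀ n, n₁ ≤ n → ∀ u : R.O, R.red u = 1 → ∀ D : Divisor K F,
      (∀ v : Place K F, v.ord ((u : R.O) : F) = p * D v) →
      redSp R hres (riemannRochSpace (n • poleDiv K ((x : R.O) : F) + D)) = 𝓛 n := by
  obtain ⟨c₀, hc₀⟩ := riemann_equality hF
  refine ⟨max n₀ c₀.toNat, le_max_left _ _, fun n hn u hu D hD => ?_⟩
  have hn0 : n₀ ≤ n := le_trans (le_max_left _ _) hn
  have hn2 : c₀.toNat ≤ n := le_trans (le_max_right _ _) hn
  have hu0 := lt_coe_ne_zero R u hu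
  have hdegD := lt_degree_eq_zero hF _ p hp D hD
  have hdpos : 0 < Module.finrank K⟮((x : R.O) : F)⟯ F := by
    have := hF.finiteDimensional hx
    exact Module.finrank_pos
  have hfd1 := finiteDimensional_L hF (n • poleDiv K ((x : R.O) : F))
  have hfd2 := finiteDimensional_L hF (n • poleDiv K ((x : R.O) : F) + D)
  have d1 := finrank_redSp R hres (riemannRochSpace (n • poleDiv K ((x : R.O) : F)))
  have d2 := finrank_redSp R hres (riemannRochSpace (n • poleDiv K ((x : R.O) : F) + D))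
  have hdeg1 : Divisor.degree (n • poleDiv K ((x : R.O) : F)) =
      n * (Module.finrank K⟮((x : R.O) : F)⟯ F : ℤ) := by
    rw [map_nsmul, degree_poleDiv hF hx, nsmul_eq_mul]
  have hdeg2 : Divisor.degree (n • poleDiv K ((x : R.O) : F) + D) =
      n * (Module.finrank K⟮((x : R.O) : F)⟯ F : ℤ) := by
    rw [map_add, hdeg1, hdegD, add_zero]
  have hbig : c₀ ≤ n * (Module.finrank K⟮((x : R.O) : F)⟯ F : ℤ) := by
    have h1 : c₀ ≤ (n : ℤ) := by
      have := Int.self_le_toNat c₀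
      have h2 : (c₀.toNat : ℤ) ≤ n := by exact_mod_cast hn2
      omega
    have h3 : (1 : ℤ) ≤ (Module.finrank K⟮((x : R.O) : F)⟯ F : ℤ) := by exact_mod_cast hdpos
    have h4 : (0 : ℤ) ≤ n := Int.natCast_nonneg n
    nlinarith
  have l1 := hc₀ _ (hdeg1 ▸ hbig)
  have l2 := hc₀ _ (hdeg2 ▸ hbig)
  rw [hdeg1] at l1
  rw [hdeg2] at l2
  have hell : FFLib.ell (n • poleDiv K ((x : R.O) : F) + D)
      = FFLib.ell (n • poleDiv K ((x : R.O) : F)) := by
    have : (FFLib.ell (n • poleDiv K ((x : R.O) : F) + D) : ℤ)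
      = FFLib.ell (n • poleDiv K ((x : R.O) : F)) := by rw [l1, l2]
    exact_mod_cast this
  have hle : redSp R hres (riemannRochSpace (n • poleDiv K ((x : R.O) : F) + D)) ≤ 𝓛 n := by
    rintro _ ⟨f, hf, rfl⟩
    apply h.root n
    have hg : (((f ^ p * u : R.O)) : F) ∈
        riemannRochSpace ((p * n) • poleDiv K ((x : R.O) : F)) := by
      have := T1a_pow_mem hu0 hD hf
      simpa using this
    have h1 := red_mem_redSp hres hg
    rw [h.eq (p * n) (hn0.trans (Nat.le_mul_of_pos_left n hp)), map_mul, hu, mul_one,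
      map_pow] at h1
    exact h1
  have hfd : FiniteDimensional k (𝓛 n) := by
    rw [← h.eq n hn0]
    exact finiteDimensional_redSp R hres _
  apply Submodule.eq_of_le_of_finrank_le hle
  rw [d2]
  rw [h.eq n hn0] at d1
  unfold FFLib.ell at hell
  omega

/-- the twisted charts; `n₁` does not depend on `u` -/
theorem exists_isPTwist_of_lsys [IsAlgClosed K] (hF : IsFF K F) (hres : Function.Surjective resK)
    (R : RedG A resK F Φ) {p : ℕ} (hp : 0 < p) {x : R.O} (hx : Transcendental K ((x : R.O) : F))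
    {𝓛 : ℕ → Submodule k Φ} {n₀ : ℕ} (h : IsLSys R hres p x 𝓛 n₀) :
    ∃ n₁ : ℕ, n₀ ≤ n₁ ∧ ∀ n, n₁ ≤ n → ∀ u : R.O, R.red u = 1 → ∀ D : Divisor K F,
      (∀ v : Place K F, v.ord ((u : R.O) : F) = p * D v) → ¬ Divisor.IsPrincipal D →
      IsPTwist R hres p (riemannRochSpace (maE K ((x : R.O) : F) (p * n) 0))
        (riemannRochSpace (maE K ((x : R.O) : F) 0 (p * n)))
        (𝓛 n) (shiftL (R.red x ^ n) (𝓛 n)) (shiftL (R.red x ^ n) (𝓛 (n + n))) ((u : R.O) : F)
        (riemannRochSpace (maE K ((x : R.O) : F) n 0 + D))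
        (riemannRochSpace (maE K ((x : R.O) : F) 0 n + D)) := by
  obtain ⟨n₁, hn₁, hcore⟩ := lt_redSp_eq hF hres R hp hx h
  refine ⟨n₁, hn₁, fun n hn u hu D hD hnp => ?_⟩
  have hu0 := lt_coe_ne_zero R u hu
  have hdegD := lt_degree_eq_zero hF _ p hp D hD
  set xF : F := ((x : R.O) : F) with hxF
  have F3 : ∀ a b : ℕ, n ≤ a + b → ∀ φ : Φ,
      φ ∈ redSp R hres (riemannRochSpace (maE K xF a b + D)) ↔ R.red x ^ b * φ ∈ 𝓛 (a + b) := by
    intro a b hab φ
    rw [mem_redSp_maE_iff' hF hres R x h.unit a b D φ, hcore (a + b) (hn.trans hab) u hu D hD]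
  refine
    { fin₁ := finiteDimensional_L hF _
      fin₂ := finiteDimensional_L hF _
      mem₁ := ?_
      mem₂ := ?_
      disj := ?_
      red₁ := ?_
      red₂ := ?_
      red₁₂ := ?_ }
  · intro s
    have := lt_mem_iff hF xF _ hu0 p hp D hD n 0 s
    rwa [mul_zero] at this
  · intro s
    have := lt_mem_iff hF xF _ hu0 p hp D hD 0 n s
    rwa [mul_zero] at this
  · rw [eq_bot_iff]
    rintro f ⟨h1, h2⟩
    by_contra hf
    apply hnp
    refine ma_isPrincipal_of_mem hF D hdegD hf ?_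
    rw [mem_L_iff]
    intro v
    have h1 := mem_L_iff.1 h1 v
    have h2 := mem_L_iff.1 h2 v
    rw [Finsupp.add_apply, maE_apply hF] at h1 h2
    rcases le_total 0 (v.ord xF) with ho | ho
    · rw [max_eq_right (by omega : -v.ord xF ≤ 0)] at h1
      simpa using h1
    · rw [max_eq_right ho] at h2
      simpa using h2
  · ext φ
    rw [F3 n 0 (by omega), pow_zero, one_mul, add_zero]
  · ext φ
    rw [F3 0 n (by omega), zero_add, mem_shiftL]
  · have hmono₁ : riemannRochSpace (maE K xF n 0 + D) ≤ riemannRochSpace (maE K xF n n + D) := by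
      apply L_mono
      intro v
      rw [Finsupp.add_apply, Finsupp.add_apply, maE_apply hF, maE_apply hF]
      have : (0 : ℤ) ≤ (n : ℤ) * max (v.ord xF) 0 := by positivity
      simp only [Nat.cast_zero, zero_mul, add_zero]
      omega
    have hmono₂ : riemannRochSpace (maE K xF 0 n + D) ≤ riemannRochSpace (maE K xF n n + D) := by
      apply L_mono
      intro v
      rw [Finsupp.add_apply, Finsupp.add_apply, maE_apply hF, maE_apply hF]
      have : (0 : ℤ) ≤ (n : ℤ) * max (-v.ord xF) 0 := by positivity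
      simp only [Nat.cast_zero, zero_mul, zero_add]
      omega
    intro φ hφ
    have h1 := redSp_mono hres (sup_le hmono₁ hmono₂) hφ
    rw [F3 n n (by omega)] at h1
    exact h1

/-- existence of gap constants for Kummer functions `≡ 1` which are not `p`-th powers -/
theorem exists_hasGap_of_lsys [Nontrivial Φ] [IsAlgClosed K] (hF : IsFF K F)
    (hres : Function.Surjective resK)
    (R : RedG A resK F Φ) {p : ℕ} (hp : 0 < p) {x : R.O} (hx : Transcendental K ((x : R.O) : F))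
    {𝓛 : ℕ → Submodule k Φ} {n₀ : ℕ} (h : IsLSys R hres p x 𝓛 n₀) :
    ∃ n : ℕ, IsChartAt R hres p x 𝓛 n ∧ ∀ u : R.O, R.red u = 1 →
      (∀ v : Place K F, (p : ℤ) ∣ v.ord ((u : R.O) : F)) → (¬ ∃ g : F, ((u : R.O) : F) = g ^ p) →
      ∃ π : A, HasGap R hres p x 𝓛 n u π := by
  obtain ⟨n₁, hn₁, hT⟩ := exists_isPTwist_of_lsys hF hres R hp hx h
  have hC := isChartAt_of_lsys hF hres R hp h n₁ hn₁
  refine ⟨n₁, hC, fun u hu hdvd hnp => ?_⟩
  have hu0 := lt_coe_ne_zero R u hu
  set D : Divisor K F := GA_div K ((u : R.O) : F) p with hD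
  have hDu : ∀ v : Place K F, v.ord ((u : R.O) : F) = p * D v := by
    intro v
    rw [hD, GA_div_apply hF, Int.mul_ediv_cancel' (hdvd v)]
  have hnpD : ¬ Divisor.IsPrincipal D := by
    rintro ⟨g, hg0, hg⟩
    apply hnp
    -- `u / g ^ p` has trivial divisor
    have h1 : ((u : R.O) : F) / g ^ p ∈ (algebraMap K F).range := by
      rw [← mem_L_zero_iff hF, mem_L_iff]
      intro v
      right
      rw [div_eq_mul_inv, v.ord_mul hu0 (inv_ne_zero (pow_ne_zero _ hg0)), v.ord_inv, ma_ord_pow,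
        hDu v, hg v]
      simp
    obtain ⟨c, hc⟩ := h1
    obtain ⟨c', hc'⟩ := IsAlgClosed.exists_pow_nat_eq c hp
    refine ⟨algebraMap K F c' * g, ?_⟩
    rw [mul_pow, ← map_pow, hc', hc, div_mul_cancel₀ _ (pow_ne_zero _ hg0)]
  have hTw := hT n₁ le_rfl u hu D hDu hnpD
  obtain ⟨s₁, s₂, w, π, hgap⟩ := exists_isGap R hres hC hTw
  exact ⟨π, _, _, s₁, s₂, w, hTw, hgap⟩

end Fermat.Agent.S33Lib
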