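import Fermat.Agent.S33.LDefs
import Fermat.Agent.S34.ModDefs

/-!
# S33 library, modular part: definitions
-/

set_option autoImplicit false
set_option synthInstance.maxHeartbeats 400000
set_option linter.unusedSectionVars false

open AlgebraicCurve ModularCurve
  Fermat.Agent.S24Lib Fermat.Agent.FFLib Fermat.Agent.S18Lib Fermat.Agent.S28Lib
  Fermat.Agent.ESLib Fermat.Agent.S34Lib

namespace Fermat.Agent.S33Lib

noncomputable section

/-- `f ≡ 1` in the Gauss ring -/
def GOne (A : ValuationSubring Qb) (f : LaurentSeries Qb) : Prop :=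
  ∃ h : f ∈ gRing A, gRed A ⟨f, h⟩ = 1

variable (M p : ℕ) [NeZero M] [NeZero p] [hpF : Fact p.Prime] (hpM : ¬ p ∣ M)
variable (A : ValuationSubring Qb) (hA : A.LiesOverPrime p)

/-- the reduction datum of level `M`, as a `RedG` -/
def RG1 : RedG A (IsLocalRing.residue A) (FB M) (FT A M) := toRedG (RM M p hpM A hA)

theorem mem_RG1_iff (x : FB M) :
    x ∈ (RG1 M p hpM A hA).O ↔ (x : LaurentSeries Qb) ∈ gRing A := Iff.rfl

theorem coe_red_RG1 (x : (RG1 M p hpM A hA).O) :
    (((RG1 M p hpM A hA).red x : FT A M) : LaurentSeries (kk A)) =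
      gRed A ⟨(((x : (RG1 M p hpM A hA).O) : FB M) : LaurentSeries Qb), x.2⟩ := rfl

end

end Fermat.Agent.S33Lib
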