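import Fermat.Agent.S33.XDefs
import Fermat.Agent.S33.XScale
import Fermat.Agent.S33.XUnique

/-!
# S33 library, block (X), leaf (X4): the gap is an invariant of the class
-/

set_option autoImplicit false

open Fermat.Agent.S18Lib Fermat.Agent.S34Lib

namespace Fermat.Agent.S33Lib

variable {K k F Φ : Type*} [Field K] [Field k] [Field F] [Algebra K F] [CommRing Φ] [Algebra k Φ]
  {A : ValuationSubring K} {resK : A →+* k}

section main

variable [Nontrivial Φ] [IsReduced Φ] [IsAlgClosed K] [IsAlgClosed k] {p : ℕ} [Fact p.Prime]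
  [CharP k p] (R : RedG A resK F Φ) (hres : Function.Surjective resK)
  {U₁' U₂' : Submodule K F} {W₁ W₂ W₁₂ : Submodule k Φ} {U₁ U₂ : Submodule K F}

omit [IsAlgClosed K] in
include hres in
/-- `u' = g ^ p u` with `red u = red u' = 1` ⟹ `g ∈ O`, `red g = 1` -/
theorem xc_norm (u u' : R.O) (hu : R.red u = 1) (hu' : R.red u' = 1) (g : F)
    (huu' : ((u' : R.O) : F) = g ^ p * u) :
    ∃ G G' : R.O, ((G : R.O) : F) = g ∧ R.red G = 1 ∧ G * G' = 1 ∧ R.red G' = 1 := by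
  have hp : p.Prime := Fact.out
  obtain ⟨v, huv⟩ := (R.isUnit_of_red u (by rw [hu]; exact isUnit_one)).exists_right_inv
  have hredv : R.red v = 1 := by
    have := congrArg R.red huv
    rwa [map_mul, hu, one_mul, map_one] at this
  have huvF : ((u : R.O) : F) * v = 1 := congrArg Subtype.val huv
  obtain ⟨γ, g₀, a, hγ0, hg₀, hgg₀, haγ, hresa⟩ := xs_normalize R hres p g 1 (u' * v)
    (by rw [map_mul, hu', hredv, one_mul]) (by
      change ((u' : R.O) : F) * v = _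
      rw [huu', mul_assoc, huvF, mul_one, map_one, one_mul])
  rw [one_mul] at haγ
  have hγA : γ ∈ A := by
    rw [← A.valuation_le_one_iff]
    have h1 : A.valuation γ ^ p ≤ 1 := by
      rw [← map_pow, ← haγ]
      exact A.valuation_le_one a
    exact (pow_le_one_iff_of_nonneg zero_le hp.ne_zero).1 h1
  have hresγ : resK ⟨γ, hγA⟩ = 1 := by
    apply xs_eq_one_of_pow p
    rw [← map_pow, ← hresa]
    congr 1
    exact Subtype.ext haγ.symm
  have hredG : R.red (xsC R ⟨γ, hγA⟩ * g₀) = 1 := by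
    rw [map_mul, xs_red_C, hresγ, map_one, one_mul, hg₀]
  obtain ⟨G', hGG'⟩ := (R.isUnit_of_red _ (by rw [hredG]; exact isUnit_one)).exists_right_inv
  refine ⟨xsC R ⟨γ, hγA⟩ * g₀, G', hgg₀.symm, hredG, hGG', ?_⟩
  have := congrArg R.red hGG'
  rwa [map_mul, hredG, one_mul, map_one] at this

theorem gap_class (C : IsPChart R hres p U₁' U₂' W₁ W₂ W₁₂) (u u' : R.O) (hu : R.red u = 1)
    (hu' : R.red u' = 1) {U₃ U₄ : Submodule K F}
    (Tw : IsPTwist R hres p U₁' U₂' W₁ W₂ W₁₂ (u : F) U₁ U₂)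
    (Tw' : IsPTwist R hres p U₁' U₂' W₁ W₂ W₁₂ (u' : F) U₃ U₄)
    (g : F) (huu' : ((u' : R.O) : F) = g ^ p * u)
    {s₁ s₂ w : R.O} {π : A} (h : IsGap R hres U₁ U₂ s₁ s₂ w π)
    {s₁' s₂' w' : R.O} {π' : A} (h' : IsGap R hres U₃ U₄ s₁' s₂' w' π') :
    Associated π π' := by
  have := Tw.fin₁
  have := Tw.fin₂
  have := Tw'.fin₁
  have := Tw'.fin₂
  obtain ⟨G, G', hGg, hredG, hGG', hredG'⟩ := xc_norm R hres u u' hu hu' g huu'
  have hGG'F : g * ((G' : R.O) : F) = 1 := by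
    rw [← hGg]; exact congrArg Subtype.val hGG'
  -- transport of the charts
  have t₁ : ∀ s : F, s ∈ U₃ → g * s ∈ U₁ := by
    intro s hs
    rw [Tw.mem₁]
    have := (Tw'.mem₁ s).1 hs
    rw [huu'] at this
    rw [mul_pow]
    convert this using 1
    ring
  have t₂ : ∀ s : F, s ∈ U₄ → g * s ∈ U₂ := by
    intro s hs
    rw [Tw.mem₂]
    have := (Tw'.mem₂ s).1 hs
    rw [huu'] at this
    rw [mul_pow]
    convert this using 1
    ring
  have hone : (((G' : R.O) : F)) ^ p * g ^ p = 1 := by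
    rw [← mul_pow, mul_comm, hGG'F, one_pow]
  have t₃ : ∀ s : F, s ∈ U₁ → ((G' : R.O) : F) * s ∈ U₃ := by
    intro s hs
    rw [Tw'.mem₁, huu']
    have := (Tw.mem₁ s).1 hs
    have e : (((G' : R.O) : F) * s) ^ p * (g ^ p * u)
        = ((((G' : R.O) : F)) ^ p * g ^ p) * (s ^ p * u) := by rw [mul_pow]; ring
    rw [e, hone, one_mul]
    exact this
  have t₄ : ∀ s : F, s ∈ U₂ → ((G' : R.O) : F) * s ∈ U₄ := by
    intro s hs
    rw [Tw'.mem₂, huu']
    have := (Tw.mem₂ s).1 hs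
    have e : (((G' : R.O) : F) * s) ^ p * (g ^ p * u)
        = ((((G' : R.O) : F)) ^ p * g ^ p) * (s ^ p * u) := by rw [mul_pow]; ring
    rw [e, hone, one_mul]
    exact this
  obtain ⟨z, hz, -⟩ := gap_unique R hres U₁ U₂ Tw.disj
    (by rw [Tw.red₁, Tw.red₂]; exact C.interW) h (G * s₁') (G * s₂') (G * w') π'
    (by
      change ((G : R.O) : F) * s₁' ∈ U₁
      rw [hGg]; exact t₁ _ h'.mem₁)
    (by
      change ((G : R.O) : F) * s₂' ∈ U₂
      rw [hGg]; exact t₂ _ h'.mem₂)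
    (by rw [map_mul, hredG, h'.red₁, one_mul]) (by rw [map_mul, hredG, h'.red₂, one_mul]) h'.ne
    (by rw [← mul_sub, h'.eq]; ring)
  obtain ⟨z', hz', -⟩ := gap_unique R hres U₃ U₄ Tw'.disj
    (by rw [Tw'.red₁, Tw'.red₂]; exact C.interW) h' (G' * s₁) (G' * s₂) (G' * w) π
    (t₃ _ h.mem₁) (t₄ _ h.mem₂)
    (by rw [map_mul, hredG', h.red₁, one_mul]) (by rw [map_mul, hredG', h.red₂, one_mul]) h.ne
    (by rw [← mul_sub, h.eq]; ring)
  exact associated_of_dvd_dvd ⟨z', hz'⟩ ⟨z, hz⟩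

end main

end Fermat.Agent.S33Lib
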