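import Fermat.Agent.S33.XDefs
import Fermat.Agent.S33.XScale
import Fermat.Agent.S33.XUnique
import Fermat.Agent.S33.XClass

/-!
# S33 library, block (X), leaf (X5): the gap of an invariant class is fixed up to `1 + 𝔪`
-/

set_option autoImplicit false

open Fermat.Agent.S18Lib Fermat.Agent.S34Lib

namespace Fermat.Agent.S33Lib

variable {K k F Φ : Type*} [Field K] [Field k] [Field F] [Algebra K F] [CommRing Φ] [Algebra k Φ]
  {A : ValuationSubring K} {resK : A →+* k}

section main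

variable [Nontrivial Φ] [IsReduced Φ] [IsAlgClosed K] [IsAlgClosed k] {p : ℕ} [Fact p.Prime]
  [CharP k p] (R : RedG A resK F Φ) (hres : Function.Surjective resK)
  {U₁' U₂' : Submodule K F} {W₁ W₂ W₁₂ : Submodule k Φ} {U₁ U₂ : Submodule K F}

theorem gap_galois (C : IsPChart R hres p U₁' U₂' W₁ W₂ W₁₂) (u : R.O) (hu : R.red u = 1)
    (Tw : IsPTwist R hres p U₁' U₂' W₁ W₂ W₁₂ (u : F) U₁ U₂)
    {s₁ s₂ w : R.O} {π : A} (h : IsGap R hres U₁ U₂ s₁ s₂ w π)
    (τ : F ≃+* F) (τK : K ≃+* K) (hτK : ∀ a : K, τ (algebraMap K F a) = algebraMap K F (τK a))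
    (hτO : ∀ y : R.O, ∃ hy : τ (y : F) ∈ R.O, R.red ⟨_, hy⟩ = R.red y)
    (hτ₁ : ∀ f ∈ U₁', τ f ∈ U₁') (hτ₂ : ∀ f ∈ U₂', τ f ∈ U₂')
    (g : F) (hg : τ (u : F) = g ^ p * u) :
    A.valuation (τK (π : K) - π) < A.valuation (π : K) := by
  have := Tw.fin₁
  have := Tw.fin₂
  have hπK : (π : K) ≠ 0 := fun h0 => h.ne (Subtype.ext h0)
  choose hmem hred using hτO
  obtain ⟨G, G', hGg, hredG, -, -⟩ := xc_norm R hres u ⟨_, hmem u⟩ hu (by rw [hred, hu]) g hg
  -- transport of the charts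
  have t₁ : ∀ s : F, s ∈ U₁ → g * τ s ∈ U₁ := by
    intro s hs
    rw [Tw.mem₁]
    have h1 := hτ₁ _ ((Tw.mem₁ s).1 hs)
    rw [map_mul, map_pow, hg] at h1
    rw [mul_pow]
    convert h1 using 1
    ring
  have t₂ : ∀ s : F, s ∈ U₂ → g * τ s ∈ U₂ := by
    intro s hs
    rw [Tw.mem₂]
    have h1 := hτ₂ _ ((Tw.mem₂ s).1 hs)
    rw [map_mul, map_pow, hg] at h1
    rw [mul_pow]
    convert h1 using 1
    ring
  have hπ'A : τK (π : K) ∈ A := by
    rw [← R.algebraMap_mem_iff, ← hτK]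
    exact hmem (R.const π)
  set π' : A := ⟨τK (π : K), hπ'A⟩ with hπ'
  have hπ'0 : π' ≠ 0 := by
    intro h0
    apply hπK
    have : τK (π : K) = 0 := congrArg Subtype.val h0
    exact (map_eq_zero_iff τK τK.injective).1 this
  obtain ⟨z, hz, hz1⟩ := gap_unique R hres U₁ U₂ Tw.disj
    (by rw [Tw.red₁, Tw.red₂]; exact C.interW) h (G * ⟨_, hmem s₁⟩) (G * ⟨_, hmem s₂⟩)
    (G * ⟨_, hmem w⟩) π'
    (by
      change ((G : R.O) : F) * τ s₁ ∈ U₁
      rw [hGg]; exact t₁ _ h.mem₁)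
    (by
      change ((G : R.O) : F) * τ s₂ ∈ U₂
      rw [hGg]; exact t₂ _ h.mem₂)
    (by rw [map_mul, hredG, hred, h.red₁, one_mul])
    (by rw [map_mul, hredG, hred, h.red₂, one_mul]) hπ'0
    (by
      apply Subtype.ext
      change ((G : R.O) : F) * τ s₁ - (G : F) * τ s₂
        = algebraMap K F (τK (π : K)) * ((G : F) * τ w)
      have h1 : ((s₁ : R.O) : F) - s₂ = algebraMap K F π * (w : F) :=
        congrArg (fun z : R.O => (z : F)) h.eq
      have h2 := congrArg τ h1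
      rw [map_sub, map_mul, hτK] at h2
      rw [← mul_sub, h2]
      ring)
  have hresz : resK z = 1 := hz1 (by rw [map_mul, hredG, hred, one_mul])
  have hzv : A.valuation (z : K) = 1 :=
    (xs_res_ne_zero_iff hres z).1 (by rw [hresz]; exact one_ne_zero)
  have h1z : A.valuation (((1 - z : A)) : K) < 1 :=
    (xs_res_eq_zero_iff hres (1 - z)).1 (by rw [map_sub, map_one, hresz, sub_self])
  have hzK : (π : K) = τK (π : K) * z := congrArg Subtype.val hz
  have hπ'K : τK (π : K) ≠ 0 := fun h0 => hπ'0 (Subtype.ext h0)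
  have e0 : ((1 - z : A) : K) = 1 - (z : K) := rfl
  have e1 : τK (π : K) - π = τK (π : K) * ((1 - z : A) : K) := by
    rw [e0, mul_sub, mul_one, ← hzK]
  have e2 : A.valuation (π : K) = A.valuation (τK (π : K)) := by
    calc A.valuation (π : K) = A.valuation (τK (π : K) * z) := congrArg _ hzK
      _ = _ := by rw [map_mul, hzv, mul_one]
  rw [e1, e2, map_mul]
  calc A.valuation (τK (π : K)) * A.valuation (((1 - z : A)) : K)
      < A.valuation (τK (π : K)) * 1 :=
        mul_lt_mul_of_pos_left h1z (zero_lt_iff.2 ((map_ne_zero _).2 hπ'K))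
    _ = _ := mul_one _

end main

end Fermat.Agent.S33Lib
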