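import Fermat.Agent.S33.XDefs
import Fermat.Agent.S33.XScale

/-!
# S33 library, block (X), leaf (PW): leading terms of `p`-th powers
-/

set_option autoImplicit false

open Fermat.Agent.S18Lib Fermat.Agent.S34Lib

namespace Fermat.Agent.S33Lib

variable {K k F Φ : Type*} [Field K] [Field k] [Field F] [Algebra K F] [CommRing Φ] [Algebra k Φ]
  {A : ValuationSubring K} {resK : A →+* k}

section main

variable [Nontrivial Φ] [IsReduced Φ] [IsAlgClosed K] [IsAlgClosed k] {p : ℕ} [Fact p.Prime]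
  [CharP k p] (R : RedG A resK F Φ) (hres : Function.Surjective resK)

omit [IsAlgClosed K] [IsAlgClosed k] [CharP k p] in
theorem pw_core (g ρ' : R.O) (hg : R.red g = 1) (δ : A)
    (hδ : A.valuation (p : K) ^ p < A.valuation (δ : K) ^ (p - 1))
    (h : g ^ p = 1 + R.const δ * ρ') :
    R.red ρ' = 0 ∨ ∃ (γ : A) (g₁ : R.O) (t : A), g = 1 + xsC R γ * g₁ ∧ γ ^ p = δ * t ∧
      R.red ρ' = algebraMap k Φ (resK t) * R.red g₁ ^ p := by
  have hp : p.Prime := Fact.out
  have hp1 : p - 1 ≠ 0 := by have := hp.two_le; omega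
  have hpp : p - 1 + 1 = p := by have := hp.two_le; omega
  have hδK : (δ : K) ≠ 0 := by
    intro h0
    rw [h0, map_zero, zero_pow hp1] at hδ
    exact not_lt_zero hδ
  have hδF : algebraMap K F (δ : K) ≠ 0 := by simpa using hδK
  rw [xs_const] at h
  by_cases hg1 : g = 1
  · left
    rw [hg1, one_pow] at h
    have h1 : ((xsC R δ * ρ' : R.O) : F) = 0 := by
      have : xsC R δ * ρ' = 0 := by
        have := h
        rwa [left_eq_add] at this
      rw [this]; rfl
    have h2 : algebraMap K F (δ : K) * ((ρ' : R.O) : F) = 0 := h1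
    have h3 : ρ' = 0 := Subtype.ext ((mul_eq_zero.1 h2).resolve_left hδF)
    rw [h3, map_zero]
  have hx0 : ((g - 1 : R.O) : F) ≠ 0 := by
    intro h0
    apply hg1
    have : g - 1 = 0 := Subtype.ext h0
    exact sub_eq_zero.1 this
  obtain ⟨γ₀, hγ₀0, g₁, hg₁, hx⟩ := R.exists_scale _ hx0
  have hγA : γ₀ ∈ A := by
    rw [← A.valuation_le_one_iff]
    have := xs_le_of_red_ne_zero' R g₁ (g - 1) γ₀ 1 hg₁ (by rw [map_one, one_mul, hx])
    rwa [map_one] at this
  set γ : A := ⟨γ₀, hγA⟩ with hγ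
  have hγne : γ ≠ 0 := fun h0 => hγ₀0 (congrArg Subtype.val h0)
  have hgG : g = 1 + xsC R γ * g₁ := by
    have : g - 1 = xsC R γ * g₁ := Subtype.ext hx
    rw [← this]; ring
  have hresγ : resK γ = 0 := by
    by_contra hne
    apply hg₁
    have h1 := congrArg R.red hgG
    rw [hg, map_add, map_one, map_mul, xs_red_C, left_eq_add] at h1
    have h2 : algebraMap k Φ ((resK γ)⁻¹ * resK γ) * R.red g₁ = 0 := by
      rw [map_mul, mul_assoc, h1, mul_zero]
    rwa [inv_mul_cancel₀ hne, map_one, one_mul] at h2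
  set G : R.O := xsC R γ * g₁ with hG
  obtain ⟨Q, hQ⟩ := xs_binom hp (1 : R.O) G
  rw [one_pow, one_pow] at hQ
  have hmain : xsC R δ * ρ' = G ^ p + p * G * (1 + G * Q) := by
    have : (1 : R.O) + xsC R δ * ρ' = 1 + G ^ p + p * G * (1 + G * Q) := by
      rw [← h, hgG, hQ]
    have h2 := add_left_cancel (a := (1 : R.O)) (b := xsC R δ * ρ')
      (c := G ^ p + p * G * (1 + G * Q)) (by rw [this]; ring)
    exact h2
  have hredG : R.red G = 0 := by rw [hG, map_mul, xs_red_C, hresγ, map_zero, zero_mul]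
  -- the two cases
  have case2 : ∀ m' : A, γ ^ (p - 1) = (p : A) * m' → R.red ρ' = 0 := by
    intro m' hm'
    have hpA : (p : A) ≠ 0 := by
      intro h0
      rw [h0, zero_mul] at hm'
      exact hγne ((pow_eq_zero_iff hp1).1 hm')
    set Z : R.O := xsC R m' * g₁ ^ p + g₁ * (1 + G * Q) with hZ
    have h1 : xsC R δ * ρ' = xsC R ((p : A) * γ) * Z := by
      have e : G ^ p = xsC R γ * ((p : R.O) * xsC R m') * g₁ ^ p := by
        rw [hG, mul_pow, ← map_natCast (xsC R) p, ← map_mul, ← hm', map_pow, ← pow_succ', hpp]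
      rw [hmain, e, map_mul, map_natCast, hZ, hG]
      ring
    have hv : A.valuation (((p : A) * γ : A) : K) < A.valuation (δ : K) := by
      apply lt_of_pow_lt_pow_left₀ (p - 1) zero_le
      refine lt_of_le_of_lt ?_ hδ
      have e1 : A.valuation (((p : A) * γ : A) : K) ^ (p - 1)
          = A.valuation (p : K) ^ (p - 1) * (A.valuation (p : K) * A.valuation (m' : K)) := by
        have e2 : ((γ ^ (p - 1) : A) : K) = (p : K) * m' := by
          rw [hm']; push_cast; rfl
        have e3 : (((p : A) * γ : A) : K) = (p : K) * (γ : K) := by push_cast; rfl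
        rw [e3, map_mul, mul_pow, ← map_pow (A.valuation) (γ : K), ← map_mul (A.valuation) (p : K)]
        congr 2
      rw [e1]
      calc A.valuation (p : K) ^ (p - 1) * (A.valuation (p : K) * A.valuation (m' : K))
          ≤ A.valuation (p : K) ^ (p - 1) * (A.valuation (p : K) * 1) := by
            gcongr
            exact A.valuation_le_one m'
        _ = A.valuation (p : K) ^ p := by rw [mul_one, ← pow_succ, hpp]
    apply xs_red_eq_zero' R ρ' Z ((((p : A) * γ : A) : K) / δ)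
    · rw [map_div₀]
      exact (div_lt_one₀ (zero_lt_iff.2 ((map_ne_zero _).2 hδK))).2 hv
    · have h2 : algebraMap K F (δ : K) * ((ρ' : R.O) : F)
          = algebraMap K F (((p : A) * γ : A) : K) * ((Z : R.O) : F) :=
        congrArg (fun z : R.O => (z : F)) h1
      rw [map_div₀, div_mul_eq_mul_div, ← h2, mul_div_cancel_left₀ _ hδF]
  rcases ValuationRing.dvd_total (γ ^ (p - 1)) (p : A) with ⟨m, hm⟩ | ⟨m', hm'⟩
  swap
  · exact Or.inl (case2 m' hm')
  by_cases hmu : resK m = 0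
  swap
  · rw [xs_ker R, not_not] at hmu
    obtain ⟨m', hmm'⟩ := hmu.exists_right_inv
    exact Or.inl (case2 m' (by rw [hm, mul_assoc, hmm', mul_one]))
  right
  set Y : R.O := g₁ ^ p + xsC R m * g₁ * (1 + G * Q) with hY
  have h1 : xsC R δ * ρ' = xsC R (γ ^ p) * Y := by
    have e : (p : R.O) * G = xsC R γ ^ p * (xsC R m * g₁) := by
      rw [← map_natCast (xsC R) p, hm, map_mul, map_pow, hG]
      calc xsC R γ ^ (p - 1) * xsC R m * (xsC R γ * g₁)
          = xsC R γ ^ (p - 1 + 1) * (xsC R m * g₁) := by rw [pow_succ]; ring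
        _ = _ := by rw [hpp]
    rw [hmain, e, map_pow, hY, hG, mul_pow]
    ring
  have hredY : R.red Y = R.red g₁ ^ p := by
    simp only [hY, map_add, map_mul, map_pow, xs_red_C, hmu, map_zero, zero_mul, add_zero]
  have hY0 : R.red Y ≠ 0 := by
    rw [hredY]
    exact pow_ne_zero _ hg₁
  have h1F : algebraMap K F ((γ ^ p : A) : K) * ((Y : R.O) : F)
      = algebraMap K F (δ : K) * ((ρ' : R.O) : F) :=
    (congrArg (fun z : R.O => (z : F)) h1).symm
  have hv := xs_le_of_red_ne_zero' R Y ρ' _ _ hY0 h1F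
  have htA : ((γ ^ p : A) : K) / δ ∈ A := by
    rw [← A.valuation_le_one_iff, map_div₀]
    exact div_le_one_of_le₀ hv zero_le
  set t : A := ⟨_, htA⟩ with ht
  have hγt : γ ^ p = δ * t := Subtype.ext (mul_div_cancel₀ _ hδK).symm
  refine ⟨γ, g₁, t, hgG, hγt, ?_⟩
  have h2 : ρ' = xsC R t * Y := by
    apply Subtype.ext
    have h3 : algebraMap K F (δ : K) * ((ρ' : R.O) : F)
        = algebraMap K F (δ : K) * ((xsC R t * Y : R.O) : F) := by
      rw [← h1F, hγt]
      change algebraMap K F ((δ : K) * (t : K)) * _ = algebraMap K F (δ : K)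
        * (algebraMap K F (t : K) * ((Y : R.O) : F))
      rw [map_mul, mul_assoc]
    exact mul_left_cancel₀ hδF h3
  rw [h2, map_mul, xs_red_C, hredY]

/-- (PW) leading terms of `p`-th powers are `p`-th powers below `p/(p-1)` -/
theorem pow_leading (g ρ' : R.O) (hg : R.red g = 1) (δ : A)
    (hδ : A.valuation (p : K) ^ p < A.valuation (δ : K) ^ (p - 1))
    (h : g ^ p = 1 + R.const δ * ρ') : ∃ y : Φ, R.red ρ' = y ^ p := by
  have hp : p.Prime := Fact.out
  rcases pw_core R g ρ' hg δ hδ h with h0 | ⟨γ, g₁, t, -, -, h3⟩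
  · exact ⟨0, by rw [h0, zero_pow hp.ne_zero]⟩
  · obtain ⟨β, hβ⟩ := IsAlgClosed.exists_pow_nat_eq (resK t) hp.pos
    exact ⟨algebraMap k Φ β * R.red g₁, by rw [h3, mul_pow, ← hβ, map_pow]⟩

/-- (PW') refined form: the size of `g - 1` and its leading term -/
theorem pow_leading' (g ρ' : R.O) (hg : R.red g = 1) (δ : A)
    (hδ : A.valuation (p : K) ^ p < A.valuation (δ : K) ^ (p - 1))
    (h : g ^ p = 1 + R.const δ * ρ') (hρ : R.red ρ' ≠ 0) :
    ∃ (γ : A) (g₁ : R.O), g = 1 + R.const γ * g₁ ∧ γ ^ p = δ ∧ R.red g₁ ^ p = R.red ρ' := by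
  have hp : p.Prime := Fact.out
  rcases pw_core R g ρ' hg δ hδ h with h0 | ⟨γ, g₁, t, h1, h2, h3⟩
  · exact absurd h0 hρ
  have ht0 : resK t ≠ 0 := by
    intro h0
    apply hρ
    rw [h3, h0, map_zero, zero_mul]
  obtain ⟨τ, hτ⟩ := xs_exists_root (A := A) p hp.pos t
  have hτ0 : resK τ ≠ 0 := by
    intro h0
    apply ht0
    rw [← hτ, map_pow, h0, zero_pow hp.ne_zero]
  have hτu : IsUnit τ := by
    by_contra hn
    exact hτ0 ((xs_ker R τ).2 hn)
  obtain ⟨τ', hττ'⟩ := hτu.exists_right_inv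
  refine ⟨γ * τ', xsC R τ * g₁, ?_, ?_, ?_⟩
  · rw [h1, xs_const, map_mul]
    have : xsC R τ' * xsC R τ = 1 := by rw [← map_mul, mul_comm, hττ', map_one]
    calc 1 + xsC R γ * g₁ = 1 + xsC R γ * (xsC R τ' * xsC R τ) * g₁ := by rw [this, mul_one]
      _ = _ := by ring
  · rw [mul_pow, h2, ← hτ, mul_assoc, ← mul_pow, hττ', one_pow, mul_one]
  · rw [map_mul, xs_red_C, mul_pow, ← map_pow, ← map_pow, hτ, h3]

end main

end Fermat.Agent.S33Lib
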