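import Fermat.Agent.S33.XDefs
import Fermat.Agent.S33.XScale
import Fermat.Agent.S33.XUnique

/-!
# S33 library, block (X), leaves (X1)(X2): the size of the gap, the representative `1 + π ^ p r`
-/

set_option autoImplicit false

open Fermat.Agent.S18Lib Fermat.Agent.S34Lib

namespace Fermat.Agent.S33Lib

variable {K k F Φ : Type*} [Field K] [Field k] [Field F] [Algebra K F] [CommRing Φ] [Algebra k Φ]
  {A : ValuationSubring K} {resK : A →+* k}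

/-- the binomial expansion of `s₁ ^ p = (s₂ + π w) ^ p` -/
theorem xr_expand (R : RedG A resK F Φ) (hres : Function.Surjective resK) {p : ℕ} (hp : p.Prime)
    {U₁ U₂ : Submodule K F} {s₁ s₂ w : R.O} {π : A} (h : IsGap R hres U₁ U₂ s₁ s₂ w π) :
    ∃ Q : R.O, s₁ ^ p = s₂ ^ p + xsC R π ^ p * w ^ p
      + p * (xsC R π * w) * (s₂ ^ (p - 1) + xsC R π * w * Q) := by
  obtain ⟨Q, hQ⟩ := xs_binom hp s₂ (xsC R π * w)
  refine ⟨Q, ?_⟩
  have h1 : s₁ = s₂ + xsC R π * w := by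
    rw [← xs_const, ← h.eq]; ring
  rw [h1, hQ, mul_pow]

/-- `(U₁' ⊔ U₂') ∩ O = (U₁' ∩ O) + (U₂' ∩ O)` -/
theorem xr_decomp [Nontrivial Φ] (R : RedG A resK F Φ) (hres : Function.Surjective resK)
    (U₁' U₂' : Submodule K F) [FiniteDimensional K U₁'] [FiniteDimensional K U₂']
    (h1 : (1 : F) ∈ U₁') (h2 : (1 : F) ∈ U₂')
    (hint : ∀ a ∈ redSp R hres U₁' ⊓ redSp R hres U₂', a ∈ (algebraMap k Φ).range)
    (y : R.O) (hy : ((y : R.O) : F) ∈ U₁' ⊔ U₂') :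
    ∃ r₁ r₂ : R.O, ((r₁ : R.O) : F) ∈ U₁' ∧ ((r₂ : R.O) : F) ∈ U₂' ∧ y = r₁ + r₂ := by
  have hsup := redSp_sup_of_one_mem R hres U₁' U₂' h1 h2 hint
  let Λ : AddSubgroup R.O :=
    { carrier := {y | ∃ r₁ r₂ : R.O, ((r₁ : R.O) : F) ∈ U₁' ∧ ((r₂ : R.O) : F) ∈ U₂' ∧
        y = r₁ + r₂}
      zero_mem' := ⟨0, 0, U₁'.zero_mem, U₂'.zero_mem, by simp⟩
      add_mem' := by
        rintro _ _ ⟨t₁, t₂, h1, h2, rfl⟩ ⟨t₁', t₂', h1', h2', rfl⟩
        exact ⟨t₁ + t₁', t₂ + t₂', U₁'.add_mem h1 h1', U₂'.add_mem h2 h2', by ring⟩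
      neg_mem' := by
        rintro _ ⟨t₁, t₂, h1, h2, rfl⟩
        exact ⟨-t₁, -t₂, U₁'.neg_mem h1, U₂'.neg_mem h2, by ring⟩ }
  have key : y ∈ Λ := by
    apply mem_of_red_surj R hres (U₁' ⊔ U₂') Λ _ _ _ y hy
    · rintro a _ ⟨t₁, t₂, h1, h2, rfl⟩
      refine ⟨xsC R a * t₁, xsC R a * t₂, ?_, ?_, ?_⟩
      · have := U₁'.smul_mem (a : K) h1
        rwa [Algebra.smul_def] at this
      · have := U₂'.smul_mem (a : K) h2
        rwa [Algebra.smul_def] at this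
      · rw [xs_const]; ring
    · rintro _ ⟨t₁, t₂, h1, h2, rfl⟩
      exact (U₁' ⊔ U₂').add_mem (Submodule.mem_sup_left h1) (Submodule.mem_sup_right h2)
    · intro φ hφ
      rw [hsup] at hφ
      obtain ⟨a₁, ⟨t₁, h1, rfl⟩, a₂, ⟨t₂, h2, rfl⟩, rfl⟩ := Submodule.mem_sup.1 hφ
      exact ⟨t₁ + t₂, ⟨t₁, t₂, h1, h2, rfl⟩, map_add _ _ _⟩
  exact key

section main

variable [Nontrivial Φ] [IsReduced Φ] [IsAlgClosed K] [IsAlgClosed k] {p : ℕ} [Fact p.Prime]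
  [CharP k p] (R : RedG A resK F Φ) (hres : Function.Surjective resK)
  {U₁' U₂' : Submodule K F} {W₁ W₂ W₁₂ : Submodule k Φ} {U₁ U₂ : Submodule K F}

/-- (X1) `π ^ (p - 1) ∣ p` -/
theorem gap_dvd_p (C : IsPChart R hres p U₁' U₂' W₁ W₂ W₁₂) (u : R.O) (hu : R.red u = 1)
    (Tw : IsPTwist R hres p U₁' U₂' W₁ W₂ W₁₂ (u : F) U₁ U₂)
    {s₁ s₂ w : R.O} {π : A} (h : IsGap R hres U₁ U₂ s₁ s₂ w π) :
    ∃ c : A, (p : A) = c * π ^ (p - 1) := by
  have hp : p.Prime := Fact.out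
  have := C.fin₁
  have := C.fin₂
  rcases ValuationRing.dvd_total (π ^ (p - 1)) (p : A) with ⟨c, hc⟩ | ⟨m, hm⟩
  · exact ⟨c, by rw [hc, mul_comm]⟩
  by_cases hmu : resK m = 0
  swap
  · rw [resK_eq_zero_iff hres, not_not] at hmu
    obtain ⟨m', hm'⟩ := hmu.exists_right_inv
    exact ⟨m', by rw [hm, mul_comm m', mul_assoc, hm', mul_one]⟩
  exfalso
  have hπK : (π : K) ≠ 0 := fun h0 => h.ne (Subtype.ext h0)
  have hpA : (p : A) ≠ 0 := by
    intro h0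
    rw [h0, zero_mul] at hm
    exact h.ne (pow_eq_zero_iff (by have := hp.two_le; omega) |>.1 hm)
  have hpK : ((p : A) : K) ≠ 0 := fun h0 => hpA (Subtype.ext h0)
  obtain ⟨Q, hQ⟩ := xr_expand R hres hp h
  set P := xsC R π with hP
  have hPp : P ^ p = P * ((p : R.O) * xsC R m) := by
    rw [← map_natCast (xsC R) p, ← map_mul, ← hm, map_pow, ← pow_succ']
    congr 1
    have := hp.two_le
    omega
  set X₀ : R.O := xsC R m * w ^ p + w * (s₂ ^ (p - 1) + P * w * Q) with hX₀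
  have hX : s₁ ^ p * u - s₂ ^ p * u = xsC R ((p : A) * π) * (X₀ * u) := by
    rw [hQ, hPp, map_mul, map_natCast, ← hP, hX₀]
    ring
  have hredX : R.red (X₀ * u) = R.red w := by
    simp only [hX₀, hP, map_mul, map_add, map_pow, xs_red_C, hmu, h.res, h.red₂, hu, map_zero,
      zero_mul, one_pow, add_zero, zero_add, mul_one]
  have hXF : ((s₁ : R.O) : F) ^ p * u - (s₂ : F) ^ p * u
      = (((p : A) * π : A) : K) • ((X₀ * u : R.O) : F) := by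
    have := congrArg (fun z : R.O => (z : F)) hX
    rw [Algebra.smul_def]
    exact this
  have hXmem : ((X₀ * u : R.O) : F) ∈ U₁' ⊔ U₂' := by
    have hne : (((p : A) * π : A) : K) ≠ 0 := mul_ne_zero hpK hπK
    rw [← Submodule.smul_mem_iff _ hne, ← hXF]
    exact Submodule.sub_mem _ (Submodule.mem_sup_left ((Tw.mem₁ _).1 h.mem₁))
      (Submodule.mem_sup_right ((Tw.mem₂ _).1 h.mem₂))
  have hsup := redSp_sup_of_one_mem R hres U₁' U₂' C.one₁ C.one₂ C.interV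
  have hmem : R.red w ∈ redSp R hres U₁' ⊔ redSp R hres U₂' := by
    rw [← hsup, ← hredX]
    exact red_mem_redSp hres hXmem
  obtain ⟨y₁, hy₁, y₂, hy₂, hy⟩ := Submodule.mem_sup.1 hmem
  have hw12 : y₁ + y₂ ∈ W₁₂ := by
    rw [hy]
    exact Tw.red₁₂ (red_mem_redSp hres (x0_w_mem R hres h))
  obtain ⟨hz₁, hz₂⟩ := C.split y₁ hy₁ y₂ hy₂ hw12
  apply h.not_mem
  rw [Tw.red₁, Tw.red₂, ← hy]
  exact Submodule.add_mem_sup hz₁ hz₂

/-- (X2) the representative `1 + π ^ p r` -/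
theorem gap_rep (C : IsPChart R hres p U₁' U₂' W₁ W₂ W₁₂) (u : R.O) (hu : R.red u = 1)
    (Tw : IsPTwist R hres p U₁' U₂' W₁ W₂ W₁₂ (u : F) U₁ U₂)
    {s₁ s₂ w : R.O} {π : A} (h : IsGap R hres U₁ U₂ s₁ s₂ w π)
    (c : A) (hc : (p : A) = c * π ^ (p - 1)) :
    ∃ (a : A) (r₁ r₂ : R.O), resK a = 1 ∧ ((r₁ : R.O) : F) ∈ U₁' ∧ ((r₂ : R.O) : F) ∈ U₂' ∧
      s₁ ^ p * u = R.const a + R.const (π ^ p) * r₁ ∧
      s₂ ^ p * u = R.const a + R.const (π ^ p) * r₂ ∧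
      R.red r₁ - R.red r₂ = R.red w ^ p + algebraMap k Φ (resK c) * R.red w := by
  have hp : p.Prime := Fact.out
  have := C.fin₁
  have := C.fin₂
  have hπK : (π : K) ≠ 0 := fun h0 => h.ne (Subtype.ext h0)
  obtain ⟨Q, hQ⟩ := xr_expand R hres hp h
  set P := xsC R π with hP
  have hpP : (p : R.O) * P = xsC R c * P ^ p := by
    rw [← map_natCast (xsC R) p, hc, map_mul, map_pow, ← hP, mul_assoc, ← pow_succ]
    congr 2
    have := hp.two_le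
    omega
  set X₀ : R.O := w ^ p + xsC R c * (w * (s₂ ^ (p - 1) + P * w * Q)) with hX₀
  have hX : s₁ ^ p * u - s₂ ^ p * u = xsC R (π ^ p) * (X₀ * u) := by
    have e : (p : R.O) * (P * w) * (s₂ ^ (p - 1) + P * w * Q)
        = ((p : R.O) * P) * (w * (s₂ ^ (p - 1) + P * w * Q)) := by ring
    rw [hQ, e, hpP, map_pow, ← hP, hX₀]
    ring
  have hredX : R.red (X₀ * u) = R.red w ^ p + algebraMap k Φ (resK c) * R.red w := by
    simp only [hX₀, hP, map_mul, map_add, map_pow, xs_red_C, h.res, h.red₂, hu, map_zero,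
      zero_mul, one_pow, add_zero, mul_one]
  have hXF : ((s₁ : R.O) : F) ^ p * u - (s₂ : F) ^ p * u
      = ((π ^ p : A) : K) • ((X₀ * u : R.O) : F) := by
    have := congrArg (fun z : R.O => (z : F)) hX
    rw [Algebra.smul_def]
    exact this
  have hm₁ := (Tw.mem₁ _).1 h.mem₁
  have hm₂ := (Tw.mem₂ _).1 h.mem₂
  have hXmem : ((X₀ * u : R.O) : F) ∈ U₁' ⊔ U₂' := by
    have hne : ((π ^ p : A) : K) ≠ 0 := pow_ne_zero p hπK
    rw [← Submodule.smul_mem_iff _ hne, ← hXF]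
    exact Submodule.sub_mem _ (Submodule.mem_sup_left hm₁) (Submodule.mem_sup_right hm₂)
  obtain ⟨r₁, r₂, hr₁, hr₂, hr⟩ := xr_decomp R hres U₁' U₂' C.one₁ C.one₂ C.interV _ hXmem
  set e : R.O := s₁ ^ p * u - xsC R (π ^ p) * r₁ with he
  have he' : e = s₂ ^ p * u + xsC R (π ^ p) * r₂ := by
    have : s₁ ^ p * u = s₂ ^ p * u + xsC R (π ^ p) * (r₁ + r₂) := by
      rw [← hr, ← hX]; ring
    rw [he, this]; ring
  have he₁ : ((e : R.O) : F) ∈ U₁' := by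
    refine U₁'.sub_mem hm₁ ?_
    have := U₁'.smul_mem ((π ^ p : A) : K) hr₁
    rwa [Algebra.smul_def] at this
  have he₂ : ((e : R.O) : F) ∈ U₂' := by
    rw [he']
    refine U₂'.add_mem hm₂ ?_
    have := U₂'.smul_mem ((π ^ p : A) : K) hr₂
    rwa [Algebra.smul_def] at this
  obtain ⟨a₀, ha₀⟩ := C.inter _ ⟨he₁, he₂⟩
  have ha₀A : a₀ ∈ A := by
    rw [← R.algebraMap_mem_iff, ha₀]
    exact e.2
  have hea : e = xsC R ⟨a₀, ha₀A⟩ := Subtype.ext ha₀.symm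
  have hrese : R.red e = 1 := by
    simp only [he, map_sub, map_mul, map_pow, xs_red_C, h.res, h.red₁, hu,
      zero_pow hp.ne_zero, map_zero, zero_mul, one_pow, mul_one, sub_zero]
  refine ⟨⟨a₀, ha₀A⟩, r₁, -r₂, ?_, hr₁, U₂'.neg_mem hr₂, ?_, ?_, ?_⟩
  · apply xs_algebraMap_inj (k := k) (Φ := Φ)
    rw [← xs_red_C R, ← hea, hrese, map_one]
  · rw [xs_const, xs_const, ← hea, he]; ring
  · rw [xs_const, xs_const, ← hea, he']; ring
  · rw [map_neg, sub_neg_eq_add, ← map_add, ← hr, hredX]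

/-- (X2') if `ν < 1/(p-1)` the leading term is not a `p`-th power -/
theorem gap_rep_not_pow (C : IsPChart R hres p U₁' U₂' W₁ W₂ W₁₂)
    {s₁ s₂ w : R.O} {π : A} (h : IsGap R hres U₁ U₂ s₁ s₂ w π)
    (hV₁ : redSp R hres U₁ = W₁) (hV₂ : redSp R hres U₂ = W₂)
    (r₁ r₂ : R.O) (h₁ : ((r₁ : R.O) : F) ∈ U₁') (h₂ : ((r₂ : R.O) : F) ∈ U₂')
    (hr : R.red r₁ - R.red r₂ = R.red w ^ p) (y : Φ) : R.red r₁ ≠ y ^ p := by
  intro hy
  have : CharP Φ p := xs_charP (k := k) p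
  have hy₁ : y ∈ W₁ := C.root₁ y (hy ▸ red_mem_redSp hres h₁)
  have hy₂ : y - R.red w ∈ W₂ := by
    apply C.root₂
    have : (y - R.red w) ^ p = R.red r₂ := by
      rw [sub_pow_char, ← hy, ← hr]; ring
    rw [this]
    exact red_mem_redSp hres h₂
  apply h.not_mem
  rw [hV₁, hV₂]
  have : R.red w = y + -(y - R.red w) := by ring
  rw [this]
  exact Submodule.add_mem_sup hy₁ (W₂.neg_mem hy₂)

end main

end Fermat.Agent.S33Lib
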