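import Fermat.Agent.S33.XDefs
import Fermat.Agent.S33.XScale
import Fermat.Agent.S33.XRep
import Fermat.Agent.S33.XPow

/-!
# S33 library, block (X), leaf (X3): optimal representatives
-/

set_option autoImplicit false

open Fermat.Agent.S18Lib Fermat.Agent.S34Lib

namespace Fermat.Agent.S33Lib

variable {K k F Φ : Type*} [Field K] [Field k] [Field F] [Algebra K F] [CommRing Φ] [Algebra k Φ]
  {A : ValuationSubring K} {resK : A →+* k}

section main

variable [Nontrivial Φ] [IsReduced Φ] [IsAlgClosed K] [IsAlgClosed k] {p : ℕ} [Fact p.Prime]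
  [CharP k p] (R : RedG A resK F Φ) (hres : Function.Surjective resK)
  {U₁' U₂' : Submodule K F} {W₁ W₂ W₁₂ : Submodule k Φ} {U₁ U₂ : Submodule K F}

theorem gap_optimal (C : IsPChart R hres p U₁' U₂' W₁ W₂ W₁₂) (u : R.O) (hu : R.red u = 1)
    (Tw : IsPTwist R hres p U₁' U₂' W₁ W₂ W₁₂ (u : F) U₁ U₂)
    {s₁ s₂ w : R.O} {π : A} (h : IsGap R hres U₁ U₂ s₁ s₂ w π)
    (c : A) (hc : (p : A) = c * π ^ (p - 1)) (hc0 : resK c = 0)
    (μ : A) (r' : R.O) (hur : u = 1 + R.const μ * r') (hdvd : π ^ p ∣ μ) :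
    μ ∣ π ^ p ∧ ∀ y : Φ, R.red r' ≠ y ^ p := by
  have hp : p.Prime := Fact.out
  have : CharP Φ p := xs_charP (k := k) p
  have hπK : (π : K) ≠ 0 := fun h0 => h.ne (Subtype.ext h0)
  obtain ⟨a, r₁, r₂, ha, hr₁, hr₂, e₁, -, hrr⟩ := gap_rep R hres C u hu Tw h c hc
  rw [hc0, map_zero, zero_mul, add_zero] at hrr
  have hnp := gap_rep_not_pow R hres C h Tw.red₁ Tw.red₂ r₁ r₂ hr₁ hr₂ hrr
  obtain ⟨α, hα⟩ := xs_exists_root (A := A) p hp.pos a
  have hresα : resK α = 1 := by
    apply xs_eq_one_of_pow p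
    rw [← map_pow, hα, ha]
  have hαu : IsUnit α := by
    by_contra hn
    have := (resK_eq_zero_iff hres α).2 hn
    rw [hresα] at this
    exact one_ne_zero this
  obtain ⟨α', hαα'⟩ := hαu.exists_right_inv
  have hresα' : resK α' = 1 := by
    have := congrArg resK hαα'
    rwa [map_mul, hresα, one_mul, map_one] at this
  obtain ⟨m, hm⟩ := hdvd
  obtain ⟨u', huu'⟩ := (R.isUnit_of_red u (by rw [hu]; exact isUnit_one)).exists_right_inv
  have hredu' : R.red u' = 1 := by
    have := congrArg R.red huu'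
    rwa [map_mul, hu, one_mul, map_one] at this
  set g : R.O := xsC R α' * s₁ with hg
  have hredg : R.red g = 1 := by
    rw [hg, map_mul, xs_red_C, hresα', map_one, one_mul, h.red₁]
  set Pp : R.O := xsC R (π ^ p) with hPp
  set r₁' : R.O := xsC R (α' ^ p) * r₁ with hr₁'
  have hgu : g ^ p * u = 1 + Pp * r₁' := by
    have e3 : xsC R (α' ^ p) * xsC R a = 1 := by
      rw [← map_mul, ← hα, ← mul_pow, mul_comm α' α, hαα', one_pow, map_one]
    calc g ^ p * u = xsC R (α' ^ p) * (s₁ ^ p * u) := by rw [hg, mul_pow, map_pow]; ring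
      _ = xsC R (α' ^ p) * xsC R a + Pp * r₁' := by
          rw [e₁, xs_const, xs_const, hr₁', hPp]; ring
      _ = 1 + Pp * r₁' := by rw [e3]
  set ρ' : R.O := (r₁' - xsC R m * r') * u' with hρ'
  have hgp : g ^ p = 1 + R.const (π ^ p) * ρ' := by
    have e4 : u = 1 + Pp * (xsC R m * r') := by
      rw [hur, xs_const, hm, map_mul, ← hPp]; ring
    calc g ^ p = (g ^ p * u) * u' := by rw [mul_assoc, huu', mul_one]
      _ = (1 + Pp * r₁') * u' := by rw [hgu]
      _ = u * u' + Pp * ((r₁' - xsC R m * r') * u') := by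
          conv_rhs => rw [e4]
          ring
      _ = 1 + R.const (π ^ p) * ρ' := by rw [huu', xs_const]
  have hredρ : R.red ρ' = R.red r₁ - algebraMap k Φ (resK m) * R.red r' := by
    simp only [hρ', hr₁', map_mul, map_sub, map_pow, xs_red_C, hresα', hredu', map_one, one_pow,
      one_mul, mul_one]
  have hδ : A.valuation (p : K) ^ p < A.valuation ((π ^ p : A) : K) ^ (p - 1) := by
    have e5 : (p : K) = (c : K) * (π : K) ^ (p - 1) := by
      have := congrArg (fun z : A => (z : K)) hc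
      simpa using this
    have hcv : A.valuation (c : K) < 1 := (xs_res_eq_zero_iff hres c).1 hc0
    have hπv : 0 < A.valuation (π : K) := zero_lt_iff.2 ((map_ne_zero _).2 hπK)
    have e6 : A.valuation ((π ^ p : A) : K) ^ (p - 1) = A.valuation (π : K) ^ ((p - 1) * p) := by
      push_cast
      rw [map_pow, ← pow_mul, mul_comm]
    rw [e6, e5, map_mul, map_pow, mul_pow, ← pow_mul]
    calc A.valuation (c : K) ^ p * A.valuation (π : K) ^ ((p - 1) * p)
        < 1 * A.valuation (π : K) ^ ((p - 1) * p) := by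
          apply mul_lt_mul_of_pos_right _ (pow_pos hπv _)
          exact pow_lt_one₀ zero_le hcv hp.ne_zero
      _ = _ := one_mul _
  obtain ⟨y₀, hy₀⟩ := pow_leading R g ρ' hredg (π ^ p) hδ hgp
  have hr₁e : R.red r₁ = y₀ ^ p + algebraMap k Φ (resK m) * R.red r' := by
    rw [← hy₀, hredρ]; ring
  constructor
  · have hmu : IsUnit m := by
      by_contra hn
      have h0 := (resK_eq_zero_iff hres m).2 hn
      rw [h0, map_zero, zero_mul, add_zero] at hr₁e
      exact hnp y₀ hr₁e
    obtain ⟨m', hmm'⟩ := hmu.exists_right_inv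
    exact ⟨m', by rw [hm, mul_assoc, hmm', mul_one]⟩
  · intro y hy
    obtain ⟨β, hβ⟩ := IsAlgClosed.exists_pow_nat_eq (resK m) hp.pos
    apply hnp (y₀ + algebraMap k Φ β * y)
    rw [add_pow_char, mul_pow, ← map_pow, hβ, hr₁e, hy]

end main

end Fermat.Agent.S33Lib
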