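import Fermat.Agent.S33.LDefs
import Fermat.Agent.S33.XRep
import Fermat.Agent.S33.XOptimal
import Fermat.Agent.S33.XClass
import Fermat.Agent.S33.XGalois
import Fermat.Agent.S34.AbsGalois

/-!
# S33 library, block (XX): summary of block (X) in terms of `HasGap`.
-/

set_option autoImplicit false

open AlgebraicCurve IntermediateField Fermat.Agent.S24Lib Fermat.Agent.FFLib Fermat.Agent.S18Lib
  Fermat.Agent.S34Lib

namespace Fermat.Agent.S33Lib

variable {K k F Φ : Type*} [Field K] [Field k] [Field F] [Algebra K F] [CommRing Φ] [Algebra k Φ]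
  {A : ValuationSubring K} {resK : A →+* k}

/-- transport of the spaces `L(a (x)_∞ + b (x)_0)` by a semilinear automorphism fixing `x` -/
theorem xx_smul_mem_maE [IsAlgClosed K] (hF : IsFF K F) (g : SemilinearAut K F) (x : F)
    (hgx : g • x = x) (a b : ℕ) {y : F} (hy : y ∈ riemannRochSpace (maE K x a b)) :
    g • y ∈ riemannRochSpace (maE K x a b) := by
  rw [mem_L_iff] at hy ⊢
  intro v
  rcases hy (g⁻¹ • v) with h0 | h0
  · left
    rw [h0, smul_zero]
  · right
    rw [GA_ord_smul]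
    rw [maE_apply hF] at h0 ⊢
    have e : (g⁻¹ • v).ord x = v.ord x := by
      rw [← GA_ord_smul, hgx]
    rw [e] at h0
    exact h0

section summary

variable [Nontrivial Φ] [IsReduced Φ] [IsAlgClosed K] [IsAlgClosed k] {p : ℕ} [Fact p.Prime]
  [CharP k p] (R : RedG A resK F Φ) (hres : Function.Surjective resK)
  {x : R.O} {𝓛 : ℕ → Submodule k Φ} {n : ℕ}

/-- the cofactor `c` of `p = c π ^ (p - 1)` is in the maximal ideal -/
theorem xx_res_c (hres : Function.Surjective resK) (π c : A) (hc : (p : A) = c * π ^ (p - 1))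
    (hne : A.valuation (π : K) ^ (p - 1) ≠ A.valuation (p : K)) : resK c = 0 := by
  by_contra h0
  have h1 : A.valuation (c : K) = 1 := (xs_res_ne_zero_iff hres c).1 h0
  apply hne
  have h2 : (p : K) = (c : K) * (π : K) ^ (p - 1) := by
    have := congrArg (fun z : A => (z : K)) hc
    simpa using this
  rw [h2, map_mul, h1, one_mul, map_pow]

/-- (XA) the optimal representative -/
theorem hasGap_rep (C : IsChartAt R hres p x 𝓛 n) (u : R.O) (hu : R.red u = 1) (π : A)
    (h : HasGap R hres p x 𝓛 n u π)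
    (hne : A.valuation (π : K) ^ (p - 1) ≠ A.valuation (p : K)) :
    π ≠ 0 ∧ resK π = 0 ∧ A.valuation (p : K) ^ p < A.valuation ((π ^ p : A) : K) ^ (p - 1) ∧
    ∃ g r : R.O, R.red g = 1 ∧ 1 + R.const (π ^ p) * r = g ^ p * u ∧
      ∀ y : Φ, R.red r ≠ y ^ p := by
  have hp : p.Prime := Fact.out
  obtain ⟨U₁, U₂, s₁, s₂, w, Tw, G⟩ := h
  obtain ⟨c, hc⟩ := gap_dvd_p R hres C u hu Tw G
  have hc0 : resK c = 0 := xx_res_c hres π c hc hne
  have hπK : (π : K) ≠ 0 := fun h0 => G.ne (Subtype.ext h0)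
  refine ⟨G.ne, G.res, ?_, ?_⟩
  · have h2 : (p : K) = (c : K) * (π : K) ^ (p - 1) := by
      have := congrArg (fun z : A => (z : K)) hc
      simpa using this
    have hcv : A.valuation (c : K) < 1 := (xs_res_eq_zero_iff hres c).1 hc0
    have e1 : A.valuation ((π ^ p : A) : K) ^ (p - 1) = (A.valuation (π : K) ^ (p - 1)) ^ p := by
      rw [show ((π ^ p : A) : K) = (π : K) ^ p from rfl, map_pow, ← pow_mul, ← pow_mul, mul_comm]
    rw [e1, h2, map_mul, map_pow]
    have hpos : 0 < A.valuation (π : K) ^ (p - 1) :=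
      zero_lt_iff.2 (pow_ne_zero _ ((map_ne_zero _).2 hπK))
    apply pow_lt_pow_left₀ _ zero_le' hp.ne_zero
    calc A.valuation (c : K) * A.valuation (π : K) ^ (p - 1)
        < 1 * A.valuation (π : K) ^ (p - 1) := mul_lt_mul_of_pos_right hcv hpos
      _ = _ := one_mul _
  · obtain ⟨a, r₁, r₂, ha, h₁, h₂, e₁, -, hr⟩ := gap_rep R hres C u hu Tw G c hc
    rw [hc0, map_zero, zero_mul, add_zero] at hr
    obtain ⟨α, hα⟩ := xs_exists_root p hp.pos a
    have hα1 : resK α = 1 := by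
      apply xs_eq_one_of_pow p
      rw [← map_pow, hα, ha]
    have hαu : IsUnit α := by
      by_contra hnu
      have := (xs_ker R α).2 hnu
      rw [hα1] at this
      exact one_ne_zero this
    obtain ⟨β, hβ⟩ := hαu.exists_left_inv
    have hβ1 : resK β = 1 := by
      have := congrArg resK hβ
      rwa [map_mul, hα1, mul_one, map_one] at this
    refine ⟨xsC R β * s₁, xsC R (β ^ p) * r₁, ?_, ?_, ?_⟩
    · rw [map_mul, xs_red_C, hβ1, map_one, one_mul, G.red₁]
    · rw [mul_pow, mul_assoc, e₁, xs_const, xs_const, ← map_pow, mul_add, ← map_mul, ← hα,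
        ← mul_pow, hβ, one_pow, map_one]
      ring
    · intro y
      rw [map_mul, xs_red_C, map_pow, hβ1, one_pow, map_one, one_mul]
      exact gap_rep_not_pow R hres C G Tw.red₁ Tw.red₂ r₁ r₂ h₁ h₂ hr y

/-- (XB) a representative `1 + μ r'` whose leading term is a `p`-th power is not optimal -/
theorem hasGap_lt (C : IsChartAt R hres p x 𝓛 n) (u : R.O) (hu : R.red u = 1) (π : A)
    (h : HasGap R hres p x 𝓛 n u π)
    (hne : A.valuation (π : K) ^ (p - 1) ≠ A.valuation (p : K))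
    (μ : A) (r' : R.O) (hur : u = 1 + R.const μ * r') (y : Φ) (hy : R.red r' = y ^ p) :
    A.valuation (π : K) ^ p < A.valuation (μ : K) := by
  obtain ⟨U₁, U₂, s₁, s₂, w, Tw, G⟩ := h
  obtain ⟨c, hc⟩ := gap_dvd_p R hres C u hu Tw G
  have hc0 : resK c = 0 := xx_res_c hres π c hc hne
  have hπK : (π : K) ≠ 0 := fun h0 => G.ne (Subtype.ext h0)
  by_contra hlt
  push Not at hlt
  have hdvd : π ^ p ∣ μ := by
    have hm : (μ : K) / (π : K) ^ p ∈ A := by
      rw [← A.valuation_le_one_iff, map_div₀, map_pow]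
      exact div_le_one_of_le₀ hlt zero_le'
    refine ⟨⟨_, hm⟩, Subtype.ext ?_⟩
    show (μ : K) = (π : K) ^ p * ((μ : K) / (π : K) ^ p)
    field_simp
  exact (gap_optimal R hres C u hu Tw G c hc hc0 μ r' hur hdvd).2 y hy

/-- (XC) the valuation of the gap constant only depends on the class -/
theorem hasGap_class (C : IsChartAt R hres p x 𝓛 n) (u u' : R.O) (hu : R.red u = 1)
    (hu' : R.red u' = 1) (g : F) (huu' : ((u' : R.O) : F) = g ^ p * u) (π π' : A)
    (h : HasGap R hres p x 𝓛 n u π) (h' : HasGap R hres p x 𝓛 n u' π') :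
    A.valuation (π : K) = A.valuation (π' : K) := by
  obtain ⟨U₁, U₂, s₁, s₂, w, Tw, G⟩ := h
  obtain ⟨U₃, U₄, s₁', s₂', w', Tw', G'⟩ := h'
  obtain ⟨e, he⟩ := gap_class R hres C u u' hu hu' Tw Tw' g huu' G G'
  rw [← he]
  show _ = A.valuation ((π : K) * ((e : A) : K))
  rw [map_mul, (A.valuation_eq_one_iff (e : A)).1 e.isUnit, mul_one]

/-- (XD) Galois -/
theorem hasGap_galois (hF : IsFF K F) (C : IsChartAt R hres p x 𝓛 n) (u : R.O) (hu : R.red u = 1)
    (π : A) (h : HasGap R hres p x 𝓛 n u π) (τ : SemilinearAut K F)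
    (hτx : τ • ((x : R.O) : F) = x)
    (hτO : ∀ y : R.O, ∃ hy : τ • ((y : R.O) : F) ∈ R.O, R.red ⟨_, hy⟩ = R.red y)
    (g : F) (hg : τ • ((u : R.O) : F) = g ^ p * u) :
    A.valuation (SemilinearAut.baseAut τ (π : K) - π) < A.valuation (π : K) := by
  obtain ⟨U₁, U₂, s₁, s₂, w, Tw, G⟩ := h
  exact gap_galois R hres C u hu Tw G (SemilinearAut.toRingAut τ) (SemilinearAut.baseAut τ)
    (SemilinearAut.commutes τ) hτO
    (fun f hf => xx_smul_mem_maE hF τ _ hτx _ _ hf)
    (fun f hf => xx_smul_mem_maE hF τ _ hτx _ _ hf) g hg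

end summary

end Fermat.Agent.S33Lib
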