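import Fermat.Agent.S33.MDefs
import Fermat.Agent.S33.XSum
import Fermat.Agent.S33.GTame
import Fermat.Agent.S34.UnipKummer

/-!
# S33 library, modular part, leaf (GE): a `τ₀`-fixed class has `ν ∉ {1/(p-1), 1/(p²-1)}`
-/

set_option autoImplicit false
set_option synthInstance.maxHeartbeats 400000
set_option linter.unusedSectionVars false

open AlgebraicCurve IntermediateField ModularCurve
  Fermat.Agent.S24Lib Fermat.Agent.FFLib Fermat.Agent.S18Lib Fermat.Agent.S28Lib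
  Fermat.Agent.ESLib Fermat.Agent.S34Lib

namespace Fermat.Agent.S33Lib

noncomputable section

variable (M p : ℕ) [NeZero M] [NeZero p] [hpF : Fact p.Prime] (hpM : ¬ p ∣ M)
variable (A : ValuationSubring Qb) (hA : A.LiesOverPrime p)

theorem gap_excluded {N : ℕ} [NeZero N] {Φ : Type} [CommRing Φ] [Algebra (kk A) Φ] [Nontrivial Φ]
    [IsReduced Φ] (hp2 : p ≠ 2) (hA : A.LiesOverPrime p)
    (R : RedG A (IsLocalRing.residue A) (FB N) Φ)
    {x : R.O} {𝓛 : ℕ → Submodule (kk A) Φ} {n : ℕ}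
    (C : IsChartAt R IsLocalRing.residue_surjective p x 𝓛 n)
    (τ₀ : GQ) (hτ₀ : τ₀ ∈ A.inertiaSubgroupIn ℚ) (ζ : Qb) (hζ : ζ ^ p = 1) (hmove : τ₀ ζ ≠ ζ)
    (hτx : gal N τ₀ ((x : R.O) : FB N) = x)
    (hτO : ∀ y : R.O, ∃ hy : gal N τ₀ ((y : R.O) : FB N) ∈ R.O, R.red ⟨_, hy⟩ = R.red y)
    (u : R.O) (hu : R.red u = 1) (π : A)
    (h : HasGap R IsLocalRing.residue_surjective p x 𝓛 n u π)
    (g : FB N) (hg : gal N τ₀ ((u : R.O) : FB N) = g ^ p * u) :
    A.valuation (π : Qb) ^ (p - 1) ≠ A.valuation (p : Qb) ∧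
      A.valuation (π : Qb) ^ (p ^ 2 - 1) ≠ A.valuation (p : Qb) := by
  have := isAlgClosed_kk A
  have : CharP (kk A) p := charP_kk hpF.out hA
  have h1 := hasGap_galois R IsLocalRing.residue_surjective (isFF_FB N) C u hu π h
    (arithmeticGalois (modularFunctionFieldFull N) τ₀) hτx hτO g hg
  have h2 : A.valuation (τ₀ (π : Qb) - π) < A.valuation (π : Qb) := h1
  constructor
  · intro h3
    exact tame_ne_one p hpF.out hp2 A hA τ₀ hτ₀ ζ hζ hmove (π : Qb) (Or.inl h3) h2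
  · intro h3
    exact tame_ne_one p hpF.out hp2 A hA τ₀ hτ₀ ζ hζ hmove (π : Qb) (Or.inr h3) h2

end

end Fermat.Agent.S33Lib
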