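import Fermat.Agent.S33.YClosure

/-!
# S33 library, block (Y2): `U (1 + δ r) = 1 + δ · small`.
-/

set_option autoImplicit false
set_option synthInstance.maxHeartbeats 400000

open ModularCurve

namespace Fermat.Agent.S33Lib

open Fermat.Agent.S18Lib Fermat.Agent.S28Lib Fermat.Agent.ESLib

noncomputable section

variable (A : ValuationSubring Qb)

variable (p : ℕ) [Fact p.Prime] [NeZero p] [CharP (kk A) p]

/-! ## (Y2) `S33/YNorm.lean` : `U (1 + δ r) = 1 + δ · small` -/

/-- abstract: `∏ (X_i + t Y_i) = ∏ X_i + t ∑_i Y_i ∏_{j ≠ i} X_j + t² Q` -/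
theorem prod_add_mul_eq {B ι : Type*} [CommRing B] [DecidableEq ι] (s : Finset ι) (X Y : ι → B)
    (t : B) : ∃ Q : B, ∏ i ∈ s, (X i + t * Y i) =
      ∏ i ∈ s, X i + t * ∑ i ∈ s, Y i * ∏ j ∈ s.erase i, X j + t ^ 2 * Q := by
  induction s using Finset.induction_on with
  | empty => exact ⟨0, by simp⟩
  | insert a s ha ih =>
    obtain ⟨Q, hQ⟩ := ih
    refine ⟨X a * Q + Y a * ∑ i ∈ s, Y i * ∏ j ∈ s.erase i, X j + t * Y a * Q, ?_⟩
    have h1 : ∑ i ∈ s, Y i * ∏ j ∈ (insert a s).erase i, X j
        = X a * ∑ i ∈ s, Y i * ∏ j ∈ s.erase i, X j := by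
      rw [Finset.mul_sum]
      refine Finset.sum_congr rfl fun i hi => ?_
      have hia : a ≠ i := fun h => ha (h ▸ hi)
      rw [Finset.erase_insert_of_ne hia, Finset.prod_insert (fun h => ha (Finset.mem_of_mem_erase h))]
      ring
    rw [Finset.prod_insert ha, Finset.prod_insert ha, Finset.sum_insert ha, Finset.erase_insert ha,
      h1, hQ]
    ring

omit [Fact p.Prime] in
theorem YN_contract_C_mul {R : Type*} [CommRing R] (c : R) (f : LaurentSeries R) :
    contract p (HahnSeries.C c * f) = HahnSeries.C c * contract p f := by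
  ext n
  rw [contract_coeff, HahnSeries.C_mul_eq_smul, HahnSeries.C_mul_eq_smul, HahnSeries.coeff_smul,
    HahnSeries.coeff_smul, contract_coeff]

omit [Fact p.Prime] in
theorem YN_contract_one {R : Type*} [CommRing R] : contract p (1 : LaurentSeries R) = 1 := by
  have := contract_qExpand (R := R) p (1 : LaurentSeries R)
  rwa [map_one] at this

theorem YN_residue_p : IsLocalRing.residue A (p : A) = 0 := by
  rw [map_natCast]
  exact CharP.cast_eq_zero (kk A) p

theorem normL_one_add (δ : A) (hδ : IsLocalRing.residue A δ = 0) (r : gRing A) :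
    ∃ E : gRing A, gRed A E = 0 ∧
      normL p (1 + HahnSeries.C (δ : Qb) * (r : LaurentSeries Qb)) =
        1 + HahnSeries.C (δ : Qb) * (E : LaurentSeries Qb) := by
  classical
  let _ : Fintype (rootsOfUnity p Qb) := Fintype.ofFinite _
  set Yz : rootsOfUnity p Qb → gRing A := fun z => ⟨_, (twist_mem_gRing A p z r).choose⟩ with hYz
  obtain ⟨Q, hQ⟩ := prod_add_mul_eq (B := gRing A) Finset.univ (fun _ => 1) Yz (gC A δ)
  obtain ⟨hcr, -⟩ := contract_mem_gRing A p r
  obtain ⟨hcQ, -⟩ := contract_mem_gRing A p Q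
  refine ⟨gC A (p : A) * ⟨_, hcr⟩ + gC A δ * ⟨_, hcQ⟩, ?_, ?_⟩
  · rw [map_add, map_mul, map_mul, gRed_gC, gRed_gC, hδ, YN_residue_p, map_zero, zero_mul,
      zero_mul, add_zero]
  · have hQ' := congrArg (Subtype.val : gRing A → LaurentSeries Qb) hQ
    simp only [Finset.prod_const_one, mul_one] at hQ'
    have e1 : prodTwist p (1 + HahnSeries.C (δ : Qb) * (r : LaurentSeries Qb))
        = ((∏ z : rootsOfUnity p Qb, (1 + gC A δ * Yz z) : gRing A) : LaurentSeries Qb) := by
      show _ = (gRing A).subtype (∏ z : rootsOfUnity p Qb, (1 + gC A δ * Yz z))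
      rw [map_prod]
      unfold prodTwist
      refine Finset.prod_congr (by ext; simp) fun z _ => ?_
      have : twist (z : Qbˣ) (1 + HahnSeries.C (δ : Qb) * (r : LaurentSeries Qb))
          = 1 + twist (z : Qbˣ) (HahnSeries.C (δ : Qb)) * twist (z : Qbˣ) (r : LaurentSeries Qb) := by
        have h2 := map_add (twistHom (z : Qbˣ)) 1 (HahnSeries.C (δ : Qb) * (r : LaurentSeries Qb))
        rw [map_one, map_mul] at h2
        exact h2
      rw [this]
      have hC : twist (z : Qbˣ) (HahnSeries.C (δ : Qb) : LaurentSeries Qb) = HahnSeries.C (δ : Qb) := by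
        ext n
        rw [twist_coeff, HahnSeries.C_apply, HahnSeries.coeff_single]
        split_ifs with hn
        · rw [hn, zpow_zero, Units.val_one, one_mul]
        · rw [mul_zero]
      rw [hC]
      rfl
    rw [normL_def, e1, hQ']
    have e2 : ((1 + gC A δ * ∑ z : rootsOfUnity p Qb, Yz z + gC A δ ^ 2 * Q : gRing A) :
        LaurentSeries Qb) = 1 + HahnSeries.C (δ : Qb) *
          (HahnSeries.C (p : Qb) * qExpand Qb p (contract p (r : LaurentSeries Qb)))
          + HahnSeries.C (δ : Qb) * (HahnSeries.C (δ : Qb) * (Q : LaurentSeries Qb)) := by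
      rw [← YF_sum_twist]
      have e5 : ((∑ z : rootsOfUnity p Qb, Yz z : gRing A) : LaurentSeries Qb)
          = ∑ z : rootsOfUnity p Qb, twist (z : Qbˣ) (r : LaurentSeries Qb) := by
        show (gRing A).subtype (∑ z : rootsOfUnity p Qb, Yz z) = _
        rw [map_sum]
        rfl
      simp only [Subring.coe_add, Subring.coe_mul, Subring.coe_one, Subring.coe_pow]
      rw [pow_two, mul_assoc, e5]
      rfl
    rw [e2, contract_add, contract_add, YN_contract_one, YN_contract_C_mul, YN_contract_C_mul,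
      YN_contract_C_mul, YN_contract_C_mul, contract_qExpand]
    simp only [Subring.coe_add, Subring.coe_mul]
    have e3 : ((gC A (p : A) : gRing A) : LaurentSeries Qb) = HahnSeries.C (p : Qb) := by
      show HahnSeries.C (((p : A) : Qb)) = HahnSeries.C (p : Qb)
      rfl
    have e4 : ((gC A δ : gRing A) : LaurentSeries Qb) = HahnSeries.C (δ : Qb) := rfl
    rw [e3, e4]
    ring

/-- (Y5) -/
theorem heckeMul_one_add (δ : A) (hδ : IsLocalRing.residue A δ = 0) (r : gRing A) :
    ∃ r₁ : gRing A, gRed A r₁ = qExpand (kk A) p (gRed A r) ∧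
      heckeMul p (1 + HahnSeries.C (δ : Qb) * (r : LaurentSeries Qb)) =
        1 + HahnSeries.C (δ : Qb) * (r₁ : LaurentSeries Qb) := by
  obtain ⟨E, hE0, hE⟩ := normL_one_add A p δ hδ r
  obtain ⟨hV, hVr⟩ := qExpand_mem_gRing A p r
  refine ⟨⟨_, hV⟩ + E + gC A δ * ⟨_, hV⟩ * E, ?_, ?_⟩
  · rw [map_add, map_add, map_mul, map_mul, hE0, hVr, mul_zero, add_zero, add_zero]
  · unfold heckeMul
    rw [hE, map_add, map_one, map_mul, qExpand_C]
    simp only [Subring.coe_add, Subring.coe_mul]
    have e4 : ((gC A δ : gRing A) : LaurentSeries Qb) = HahnSeries.C (δ : Qb) := rfl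
    rw [e4]
    ring

end

end Fermat.Agent.S33Lib
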