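import Fermat.Agent.S33.MDefs
import Fermat.Agent.S33.YNorm
import Fermat.Agent.S34.Frob
import Fermat.Agent.S37.NormBeta

/-!
# S33 library, modular part, leaf (KM3a): `T_p (1 + δ r) = 1 + δ r₁`, `r̄₁ = V r̄` a `p`-th power
-/

set_option autoImplicit false
set_option synthInstance.maxHeartbeats 400000
set_option linter.unusedSectionVars false

open AlgebraicCurve IntermediateField ModularCurve
  Fermat.Agent.S24Lib Fermat.Agent.FFLib Fermat.Agent.S18Lib Fermat.Agent.S28Lib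
  Fermat.Agent.ESLib Fermat.Agent.S34Lib

namespace Fermat.Agent.S33Lib

noncomputable section

variable (M p : ℕ) [NeZero M] [NeZero p] [hpF : Fact p.Prime] (hpM : ¬ p ∣ M)
variable (A : ValuationSubring Qb) (hA : A.LiesOverPrime p)

/-- the `q`-expansion of `1 + δ r` -/
theorem MH_coe_one_add (δ : A) (r : (RG1 M p hpM A hA).O) :
    (((1 + (RG1 M p hpM A hA).const δ * r : (RG1 M p hpM A hA).O) : FB M) : LaurentSeries Qb) =
      1 + HahnSeries.C (δ : Qb) * (((r : (RG1 M p hpM A hA).O) : FB M) : LaurentSeries Qb) := by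
  show (1 : LaurentSeries Qb) + ((algebraMap Qb (FB M) (δ : Qb) : FB M) : LaurentSeries Qb) * _ = _
  rw [rr_coe_algebraMap]

/-- (KM3a) `S33/MHecke.lean` : `T_p (1 + δ r) = 1 + δ r₁`, `r̄₁ = V r̄` a `p`-th power -/
theorem heckeMul_rep_M (δ : A) (hδ : IsLocalRing.residue A δ = 0) (hδ0 : δ ≠ 0)
    (r : (RG1 M p hpM A hA).O) :
    ∃ r₁ : (RG1 M p hpM A hA).O,
      (((1 + (RG1 M p hpM A hA).const δ * r₁ : (RG1 M p hpM A hA).O) : FB M) : LaurentSeries Qb) =
        heckeMul p (((1 + (RG1 M p hpM A hA).const δ * r : (RG1 M p hpM A hA).O) : FB M) :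
          LaurentSeries Qb) ∧
      (((RG1 M p hpM A hA).red r₁ : FT A M) : LaurentSeries (kk A)) =
        qExpand (kk A) p (((RG1 M p hpM A hA).red r : FT A M) : LaurentSeries (kk A)) ∧
      ∃ y : FT A M, (RG1 M p hpM A hA).red r₁ = y ^ p := by
  have : CharP (kk A) p := Fermat.Agent.S18Lib.charP_kk A hA
  obtain ⟨r₁, hr₁, hE⟩ := heckeMul_one_add A p δ hδ
    ⟨(((r : (RG1 M p hpM A hA).O) : FB M) : LaurentSeries Qb), r.2⟩
  have hδQ : (δ : Qb) ≠ 0 := fun h0 => hδ0 (Subtype.ext h0)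
  have hmem0 := Fermat.Agent.S37Lib.heckeMul_mem M p hpF.out hpM
    ((1 + (RG1 M p hpM A hA).const δ * r : (RG1 M p hpM A hA).O) : FB M)
  rw [MH_coe_one_add] at hmem0
  have hmem : (r₁ : LaurentSeries Qb) ∈ FB M := by
    have e : (r₁ : LaurentSeries Qb) = ((algebraMap Qb (FB M) (δ : Qb)⁻¹ : FB M) : LaurentSeries Qb) *
        (heckeMul p (1 + HahnSeries.C (δ : Qb) *
          (((r : (RG1 M p hpM A hA).O) : FB M) : LaurentSeries Qb)) - 1) := by
      rw [rr_coe_algebraMap, hE, add_sub_cancel_left, ← mul_assoc, ← map_mul, inv_mul_cancel₀ hδQ,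
        map_one, one_mul]
    rw [e]
    exact mul_mem (algebraMap Qb (FB M) (δ : Qb)⁻¹).2 (sub_mem hmem0 (one_mem _))
  have hred : (((RG1 M p hpM A hA).red ⟨⟨(r₁ : LaurentSeries Qb), hmem⟩, r₁.2⟩ : FT A M) :
      LaurentSeries (kk A)) =
        qExpand (kk A) p (((RG1 M p hpM A hA).red r : FT A M) : LaurentSeries (kk A)) := hr₁
  refine ⟨⟨⟨(r₁ : LaurentSeries Qb), hmem⟩, r₁.2⟩, ?_, hred, ?_⟩
  · rw [MH_coe_one_add, MH_coe_one_add, hE]
  · obtain ⟨w, hw, hwp⟩ := exists_pow_eq_qExpand M p A hA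
      (((RG1 M p hpM A hA).red r : FT A M) : LaurentSeries (kk A)) ((RG1 M p hpM A hA).red r).2
    exact ⟨⟨w, hw⟩, Subtype.ext (hred.trans hwp.symm)⟩

end

end Fermat.Agent.S33Lib
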