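import Fermat.Agent.S33.MDefs
import Fermat.Agent.S34.RedG2Cor

/-!
# S33 library, modular part, leaf (KM0): inertia acts trivially on the reduction at level `M`
-/

set_option autoImplicit false
set_option synthInstance.maxHeartbeats 400000
set_option linter.unusedSectionVars false

open AlgebraicCurve IntermediateField ModularCurve
  Fermat.Agent.S24Lib Fermat.Agent.FFLib Fermat.Agent.S18Lib Fermat.Agent.S28Lib
  Fermat.Agent.ESLib Fermat.Agent.S34Lib

namespace Fermat.Agent.S33Lib

noncomputable section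

variable (M p : ℕ) [NeZero M] [NeZero p] [hpF : Fact p.Prime] (hpM : ¬ p ∣ M)
variable (A : ValuationSubring Qb) (hA : A.LiesOverPrime p)

/-- (KM0) `S33/MInertia.lean` : inertia acts trivially on the reduction at level `M` -/
theorem inertia_mem_M (σ : GQ) (hσ : σ ∈ A.inertiaSubgroupIn ℚ) (y : (RG1 M p hpM A hA).O) :
    ∃ hy : gal M σ ((y : (RG1 M p hpM A hA).O) : FB M) ∈ (RG1 M p hpM A hA).O,
      (RG1 M p hpM A hA).red ⟨_, hy⟩ = (RG1 M p hpM A hA).red y := by
  obtain ⟨h, hred⟩ := RC_inertia_mem A σ hσ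
    ⟨(((y : (RG1 M p hpM A hA).O) : FB M) : LaurentSeries Qb), y.2⟩
  exact ⟨h, Subtype.ext hred⟩

end

end Fermat.Agent.S33Lib
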