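import Fermat.Agent.S33.MDefs
import Fermat.Agent.S33.LInst1
import Fermat.Agent.S34.GoodM

/-!
# S33 library, modular part, leaf (KM1): the system `𝓛` at level `M`
-/

set_option autoImplicit false
set_option synthInstance.maxHeartbeats 400000
set_option linter.unusedSectionVars false

open AlgebraicCurve IntermediateField ModularCurve CongruenceSubgroup
  Fermat.Agent.S24Lib Fermat.Agent.FFLib Fermat.Agent.S18Lib Fermat.Agent.S28Lib
  Fermat.Agent.ESLib Fermat.Agent.S34Lib

namespace Fermat.Agent.S33Lib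

noncomputable section

variable (M p : ℕ) [NeZero M] [NeZero p] [hpF : Fact p.Prime] (hpM : ¬ p ∣ M)
variable (A : ValuationSubring Qb) (hA : A.LiesOverPrime p)

/-- (KM1) `S33/MLSysM.lean` -/
theorem exists_lsys_M (hbase : 2 ∣ M ∨ 3 ∣ M) :
    ∃ (x : (RG1 M p hpM A hA).O) (𝓛 : ℕ → Submodule (kk A) (FT A M)) (n₀ : ℕ),
      ((x : (RG1 M p hpM A hA).O) : FB M) = jBar M ∧
      IsLSys (RG1 M p hpM A hA) IsLocalRing.residue_surjective p x 𝓛 n₀ := by
  have hk := isAlgClosed_kk A
  have hFt := isFF_FT A M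
  have hF := isFF_bar M
  have hy : cE A (jqModC A) ∈ FB M := by
    have := uj_coe_jBar M A
    change ((jBar M : FB M) : LaurentSeries Qb) = cE A (jqModC A) at this
    rw [← this]
    exact (jBar M).2
  obtain ⟨h, hred⟩ := rd_int M hpM A hA (jqModC A) hy
  have hx : (⟨cE A (jqModC A), hy⟩ : FB M) = jBar M :=
    Subtype.ext (uj_coe_jBar M A).symm
  set x : (RM M p hpM A hA).O := ⟨⟨cE A (jqModC A), hy⟩, h⟩ with hxdef
  have hr : (RM M p hpM A hA).red x = jT A M := by
    apply Subtype.ext
    refine hred.trans ?_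
    change coeffMap (IsLocalRing.residue A) (jqModC A) = _
    rw [coeffMap_jqModC]
    rfl
  have hxc : ((x : (RM M p hpM A hA).O) : FB M) = jBar M := hx
  have hxT : Transcendental (kk A) ((RM M p hpM A hA).red x) := by
    rw [hr]; exact transcendental_jT A M
  obtain ⟨n₀, hn₀⟩ := redSpace_L_eq hF hFt IsLocalRing.residue_surjective (RM M p hpM A hA)
    (Module.finrank ℂ (CuspForm (Gamma0 M) 2) : ℤ)
    (fun E => by rw [← ell_eq_ell]; exact riemann_lower M E)
    (fun c => by
      obtain ⟨E, h1, h2⟩ := riemann_upper M hpM hbase A hA c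
      exact ⟨E, h1, by rw [← ell_eq_ell]; exact h2⟩)
    x hxT
    (by
      rw [hr, hxc, finrank_eq_index M]
      exact idx_le_finrank_FT M hpM A hA)
  exact ⟨x, _, n₀, hxc, isLSys_of_redData hFt IsLocalRing.residue_surjective (RM M p hpM A hA)
    hpF.out.pos x hxT n₀ hn₀⟩

end

end Fermat.Agent.S33Lib
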