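import Fermat.Agent.Lib.FF.Separable
import Fermat.Agent.Lib.FF.ThetaD
import Fermat.Agent.S18.HHMemFT
import Fermat.Agent.S18.CTheta

/-!
# S33 library, block (Y), leaf (SEP): `θ f = 0 ⟹ f` is a `p`-th power
-/

set_option autoImplicit false
set_option synthInstance.maxHeartbeats 400000

open ModularCurve

namespace Fermat.Agent.S33Lib

open Fermat.Agent.S18Lib Fermat.Agent.S28Lib

section sep

open Polynomial IntermediateField

variable {k κ Ω : Type*} [Field k] [Field κ] [Algebra k κ]
    [Field Ω] [Algebra κ Ω] [Algebra k Ω] [IsScalarTower k κ Ω]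
    (p : ℕ) [Fact p.Prime]

/-- the evaluation `P ↦ ∑ (P_i) ^ p t ^ i` -/
noncomputable def sepEv [CharP κ p] (t : κ) : κ[X] →+* κ := eval₂RingHom (frobenius κ p) t

theorem sepEv_C [CharP κ p] (t a : κ) : sepEv p t (C a) = a ^ p := by
  simp [sepEv, frobenius_def]

theorem sepEv_X [CharP κ p] (t : κ) : sepEv p t X = t := by
  simp [sepEv]

theorem sepEv_monomial [CharP κ p] (t a : κ) (n : ℕ) :
    sepEv p t (monomial n a) = a ^ p * t ^ n := by
  simp [sepEv, frobenius_def, eval₂_monomial]

theorem sepEv_D [CharP κ p] [CharP Ω p] (D : Derivation k κ Ω) (t : κ) (P : κ[X]) :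
    D (sepEv p t P) = sepEv p t (derivative P) • D t := by
  induction P using Polynomial.induction_on' with
  | add P Q hP hQ => rw [map_add, map_add, hP, hQ, map_add, map_add, add_smul]
  | monomial n a =>
    have hn : (n : κ) ^ p = n := by rw [← frobenius_def, map_natCast]
    rw [sepEv_monomial, derivative_monomial, sepEv_monomial, Derivation.leibniz,
      Fermat.Agent.FFLib.sep_D_pow D p, smul_zero, add_zero, Derivation.leibniz_pow, mul_pow,
      hn, ← Nat.cast_smul_eq_nsmul κ, smul_smul, smul_smul]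

theorem sep_eq_C [CharP κ p] (P : κ[X]) (hdeg : P.natDegree < p) (h : derivative P = 0) :
    P = C (P.coeff 0) := by
  ext i
  rcases i with _ | i
  · simp
  · rw [coeff_C_succ]
    by_cases hi : i + 1 ≤ P.natDegree
    · have h1 := congrArg (fun Q : κ[X] => Q.coeff i) h
      simp only [coeff_derivative, coeff_zero] at h1
      rcases mul_eq_zero.1 h1 with h2 | h2
      · exact h2
      · exfalso
        have h3 : ((i + 1 : ℕ) : κ) = 0 := by push_cast; exact h2
        rw [CharP.cast_eq_zero_iff κ p] at h3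
        have := Nat.le_of_dvd (Nat.succ_pos i) h3
        omega
    · exact coeff_eq_zero_of_natDegree_lt (by omega)

theorem sepEv_inj [CharP κ p] [CharP Ω p] (D : Derivation k κ Ω) (t : κ) (ht : D t ≠ 0) :
    ∀ (n : ℕ) (P : κ[X]), P.natDegree ≤ n → n < p → sepEv p t P = 0 → P = 0 := by
  intro n
  induction n with
  | zero =>
    intro P hP _ h0
    rw [eq_C_of_natDegree_le_zero hP, sepEv_C] at h0
    rw [eq_C_of_natDegree_le_zero hP, pow_eq_zero_iff (Fact.out : p.Prime).ne_zero |>.1 h0, map_zero]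
  | succ n ih =>
    intro P hP hn h0
    have h1 : sepEv p t (derivative P) • D t = 0 := by rw [← sepEv_D, h0, map_zero]
    have h2 : derivative P = 0 :=
      ih _ ((natDegree_derivative_le P).trans (by omega)) (by omega)
        (Fermat.Agent.FFLib.sep_smul_eq_zero ht h1)
    have h3 := sep_eq_C p P (by omega) h2
    rw [h3, sepEv_C] at h0
    rw [h3, pow_eq_zero_iff (Fact.out : p.Prime).ne_zero |>.1 h0, map_zero]

/-- `κ ^ p [t]` is a field -/
noncomputable def sepField [CharP κ p] (t : κ) : Subfield κ :=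
  { (sepEv p t).range with
    inv_mem' := fun y hy => by
      have hp : p.Prime := Fact.out
      have e : y⁻¹ = y ^ (p - 1) * (y⁻¹) ^ p := by
        rcases eq_or_ne y 0 with rfl | hy0
        · simp [hp.ne_zero]
        · obtain ⟨m, rfl⟩ : ∃ m, p = m + 1 := ⟨p - 1, by have := hp.pos; omega⟩
          rw [Nat.add_sub_cancel, pow_succ, ← mul_assoc, ← mul_pow, mul_inv_cancel₀ hy0, one_pow,
            one_mul]
      show y⁻¹ ∈ (sepEv p t).range
      rw [e]
      exact mul_mem (pow_mem hy _) ⟨C y⁻¹, sepEv_C p t _⟩ }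

theorem mem_sepField [CharP κ p] (t y : κ) : y ∈ sepField p t ↔ ∃ P, sepEv p t P = y := Iff.rfl

/-- abstract form -/
theorem exists_pow_eq_of_derivation_eq_zero {k κ Ω : Type*} [Field k] [Field κ] [Algebra k κ]
    [Field Ω] [Algebra κ Ω] [Algebra k Ω] [IsScalarTower k κ Ω]
    (p : ℕ) [Fact p.Prime] [CharP k p] [PerfectField k] (D : Derivation k κ Ω) (t : κ)
    (ht : D t ≠ 0) [Algebra.IsAlgebraic (IntermediateField.adjoin k {t}) κ] (f : κ)
    (hf : D f = 0) : ∃ g : κ, f = g ^ p := by
  have hp : p.Prime := Fact.out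
  have : CharP κ p := charP_of_injective_algebraMap (algebraMap k κ).injective p
  have : CharP Ω p := charP_of_injective_algebraMap (algebraMap k Ω).injective p
  have : CharP k⟮t⟯ p := charP_of_injective_algebraMap (algebraMap k k⟮t⟯).injective p
  have : ExpChar k⟮t⟯ p := ExpChar.prime hp
  have hsep : Algebra.IsSeparable k⟮t⟯ κ :=
    Fermat.Agent.FFLib.isSeparable_of_derivation_ne_zero D t ht
  have hk : ∀ a : k, algebraMap k κ a ∈ sepField p t := fun a => by
    refine ⟨C (algebraMap k κ ((frobeniusEquiv k p).symm a)), ?_⟩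
    rw [sepEv_C, ← map_pow, ← frobenius_def, ← frobeniusEquiv_apply]
    simp
  have htS : t ∈ sepField p t := ⟨X, sepEv_X p t⟩
  have h1 : k⟮t⟯ ≤ (sepField p t).toIntermediateField hk :=
    adjoin_le_iff.2 (Set.singleton_subset_iff.2 htS)
  have hall : ∀ x : κ, x ∈ sepField p t := fun x => by
    have e := adjoin_simple_eq_adjoin_pow_expChar_of_isSeparable' k⟮t⟯ κ x p
    have h2 : k⟮t⟯⟮x ^ p⟯ ≤ (sepField p t).toIntermediateField (fun a => h1 a.2) :=
      adjoin_le_iff.2 (Set.singleton_subset_iff.2 ⟨C x, sepEv_C p t x⟩)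
    exact h2 (e ▸ mem_adjoin_simple_self _ x)
  obtain ⟨P, hP⟩ := hall f
  have hM : (X ^ p - C t : κ[X]).Monic := monic_X_pow_sub_C t hp.ne_zero
  have hMd : (X ^ p - C t : κ[X]).natDegree = p := natDegree_X_pow_sub_C
  have hM0 : sepEv p t (X ^ p - C t) = 0 := by
    rw [map_sub, map_pow, sepEv_X, sepEv_C, sub_self]
  have hR : sepEv p t (P %ₘ (X ^ p - C t)) = f := by
    have h2 := congrArg (sepEv p t) (modByMonic_add_div P (X ^ p - C t))
    rw [map_add, map_mul, hM0, zero_mul, add_zero, hP] at h2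
    exact h2
  have hdeg : (P %ₘ (X ^ p - C t)).natDegree < p := by
    have := natDegree_modByMonic_lt P hM (fun h1 => by
      rw [h1, natDegree_one] at hMd
      exact hp.ne_zero hMd.symm)
    rwa [hMd] at this
  have h3 : sepEv p t (derivative (P %ₘ (X ^ p - C t))) • D t = 0 := by
    rw [← sepEv_D, hR, hf]
  have h4 : derivative (P %ₘ (X ^ p - C t)) = 0 :=
    sepEv_inj p D t ht (p - 1) _ ((natDegree_derivative_le _).trans (by omega))
      (by have := hp.pos; omega) (Fermat.Agent.FFLib.sep_smul_eq_zero ht h3)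
  have h5 := sep_eq_C p _ hdeg h4
  refine ⟨(P %ₘ (X ^ p - C t)).coeff 0, ?_⟩
  rw [← hR, h5, sepEv_C, coeff_C_zero]

end sep

theorem exists_pow_eq_of_thetaD_eq_zero (A : ValuationSubring Qb) (M p : ℕ) [NeZero M]
    [Fact p.Prime] (hA : A.LiesOverPrime p) (f : FT A M)
    (hf : thetaD (kk A) (f : LaurentSeries (kk A)) = 0) : ∃ g : FT A M, f = g ^ p := by
  haveI := isAlgClosed_kk A
  haveI : CharP (kk A) p := charP_kk A hA
  haveI : FiniteDimensional (IntermediateField.adjoin (kk A) {jT A M}) (FT A M) :=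
    finiteDimensional_jT A M
  haveI : Algebra.IsAlgebraic (IntermediateField.adjoin (kk A) {jT A M}) (FT A M) :=
    Algebra.IsAlgebraic.of_finite _ _
  have ht : Fermat.Agent.FFLib.thetaD (kk A) ((jT A M : FT A M) : LaurentSeries (kk A)) ≠ 0 := by
    apply Fermat.Agent.FFLib.thetaD_ne_zero (n := -1)
    change ((-1 : ℤ) : kk A) * (jqModC (kk A)).coeff (-1) ≠ 0
    rw [coeff_jqModC_neg_one]
    simp
  have hf' : Fermat.Agent.FFLib.thetaDF (FT A M) f = 0 := by
    rw [Fermat.Agent.FFLib.thetaDF_apply]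
    ext n
    have := congrArg (fun x : LaurentSeries (kk A) => x.coeff n) hf
    simpa [thetaD_coeff] using this
  exact exists_pow_eq_of_derivation_eq_zero (Ω := LaurentSeries (kk A)) p
    (Fermat.Agent.FFLib.thetaDF (FT A M)) (jT A M) ht f hf'

end Fermat.Agent.S33Lib
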