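import Fermat.Agent.ES.Integral
import Fermat.Agent.ES.Formal
import Fermat.Agent.S18.CGauss
import Fermat.Agent.S18.CTheta
import Fermat.Agent.S18.RedRing

/-!
# S33 library, block (Y3): formal identities for `V = qExpand p`, `contract p`, `θ = thetaD`,
`U = normL p`.
-/

set_option autoImplicit false
set_option synthInstance.maxHeartbeats 400000

open ModularCurve

namespace Fermat.Agent.S33Lib

open Fermat.Agent.S18Lib Fermat.Agent.S28Lib Fermat.Agent.ESLib

noncomputable section

variable (A : ValuationSubring Qb)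

variable (p : ℕ) [Fact p.Prime] [NeZero p] [CharP (kk A) p]

/-! ## (Y3) `S33/YFormal.lean` : formal identities -/

omit [Fact p.Prime] in
theorem contract_thetaD {R : Type*} [CommRing R] (f : LaurentSeries R) :
    contract p (thetaD R f) = HahnSeries.C (p : R) * thetaD R (contract p f) := by
  ext n
  rw [contract_coeff, thetaD_coeff, HahnSeries.C_mul_eq_smul, HahnSeries.coeff_smul, smul_eq_mul,
    thetaD_coeff, contract_coeff]
  push_cast
  ring

omit [Fact p.Prime] in
theorem contract_add {R : Type*} [CommRing R] (f g : LaurentSeries R) :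
    contract p (f + g) = contract p f + contract p g := by
  ext n
  rw [HahnSeries.coeff_add, contract_coeff, contract_coeff, contract_coeff, HahnSeries.coeff_add]

omit [Fact p.Prime] in
theorem contract_mul_qExpand {R : Type*} [CommRing R] (f g : LaurentSeries R) :
    contract p (f * qExpand R p g) = contract p f * g := by
  set f0 := qExpand R p (contract p f) with hf0
  have hsplit : f = f0 + (f - f0) := by ring
  have h1 : contract p (f0 * qExpand R p g) = contract p f * g := by
    rw [hf0, ← map_mul, contract_qExpand]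
  have h2 : contract p ((f - f0) * qExpand R p g) = 0 := by
    ext n
    rw [contract_coeff, HahnSeries.coeff_mul, HahnSeries.coeff_zero]
    apply Finset.sum_eq_zero
    intro ij hij
    rw [Finset.mem_antidiagonal] at hij
    by_cases hj : (p : ℤ) ∣ ij.2
    · have hi : (p : ℤ) ∣ ij.1 := by
        have : ij.1 = (p : ℤ) * n - ij.2 := by rw [← hij.2.2]; ring
        rw [this]
        exact dvd_sub (dvd_mul_right _ _) hj
      obtain ⟨m, hm⟩ := hi
      rw [HahnSeries.coeff_sub, hm, hf0, qExpand_coeff_mul, contract_coeff, sub_self, zero_mul]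
    · rw [qExpand_coeff_of_not_dvd p _ hj, mul_zero]
  conv_lhs => rw [hsplit, add_mul, contract_add, h1, h2, add_zero]

theorem contract_pow_char (f : LaurentSeries (kk A)) :
    contract p (f ^ p) = coeffMap (frobenius (kk A) p) f := by
  rw [pow_char_eq p, contract_qExpand]

omit [Fact p.Prime] in
/-- `∑_{z ∈ μ_p} z ^ n` -/
theorem YF_sum_zpow (n : ℤ) :
    haveI : Fintype (rootsOfUnity p Qb) := Fintype.ofFinite _
    ∑ z : rootsOfUnity p Qb, (((z : Qbˣ) ^ n : Qbˣ) : Qb) = if (p : ℤ) ∣ n then (p : Qb) else 0 := by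
  let _ : Fintype (rootsOfUnity p Qb) := Fintype.ofFinite _
  obtain ⟨ζ, hζ⟩ := exists_primitiveRoot_Qb p
  split_ifs with hn
  · obtain ⟨m, rfl⟩ := hn
    have h1 : ∀ z : rootsOfUnity p Qb, (((z : Qbˣ) ^ ((p : ℤ) * m) : Qbˣ) : Qb) = 1 := by
      intro z
      have hz := z.2
      rw [mem_rootsOfUnity] at hz
      rw [zpow_mul, zpow_natCast, hz, one_zpow, Units.val_one]
    simp only [h1, Finset.sum_const, Finset.card_univ, nsmul_eq_mul, mul_one]
    rw [← Nat.card_eq_fintype_card, hζ.card_rootsOfUnity]
  · have hu : IsUnit ζ := hζ.isUnit (NeZero.ne p)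
    obtain ⟨u, hu'⟩ := hu
    have hup : IsPrimitiveRoot u p := by
      rw [← IsPrimitiveRoot.coe_units_iff, hu']
      exact hζ
    have hmem : u ∈ rootsOfUnity p Qb := by
      rw [mem_rootsOfUnity]
      exact hup.pow_eq_one
    set w : rootsOfUnity p Qb := ⟨u, hmem⟩ with hw
    set S := ∑ z : rootsOfUnity p Qb, (((z : Qbˣ) ^ n : Qbˣ) : Qb) with hS
    have h1 : ((u ^ n : Qbˣ) : Qb) * S = S := by
      rw [hS, Finset.mul_sum]
      refine Fintype.sum_equiv (Equiv.mulLeft w) _ _ fun z => ?_
      rw [← Units.val_mul, ← mul_zpow]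
      rfl
    have h2 : ((u ^ n : Qbˣ) : Qb) ≠ 1 := by
      intro h
      apply hn
      rw [← hup.zpow_eq_one_iff_dvd]
      exact Units.ext h
    have h3 : (((u ^ n : Qbˣ) : Qb) - 1) * S = 0 := by rw [sub_mul, h1, one_mul, sub_self]
    rcases mul_eq_zero.mp h3 with h4 | h4
    · exact absurd (sub_eq_zero.mp h4) h2
    · exact h4

omit [Fact p.Prime] in
/-- `∑_{z ∈ μ_p} b(z q) = p · V (contract b)` -/
theorem YF_sum_twist (b : LaurentSeries Qb) :
    haveI : Fintype (rootsOfUnity p Qb) := Fintype.ofFinite _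
    ∑ z : rootsOfUnity p Qb, twist (z : Qbˣ) b
      = HahnSeries.C (p : Qb) * qExpand Qb p (contract p b) := by
  let _ : Fintype (rootsOfUnity p Qb) := Fintype.ofFinite _
  ext n
  rw [HahnSeries.coeff_sum, HahnSeries.C_mul_eq_smul, HahnSeries.coeff_smul, smul_eq_mul]
  simp only [twist_coeff]
  rw [← Finset.sum_mul]
  have := YF_sum_zpow p n
  rw [this]
  split_ifs with hn
  · obtain ⟨m, rfl⟩ := hn
    rw [qExpand_coeff_mul, contract_coeff]
  · rw [qExpand_coeff_of_not_dvd p _ hn, mul_zero, zero_mul]

theorem YF_thetaD_twist {R : Type*} [CommRing R] (z : Rˣ) (f : LaurentSeries R) :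
    thetaD R (twist z f) = twist z (thetaD R f) := by
  ext n
  rw [thetaD_coeff, twist_coeff, twist_coeff, thetaD_coeff]
  ring

/-- logarithmic Leibniz rule for a finite product in a field -/
theorem YF_logDeriv_prod {k ι : Type*} [Field k] (s : Finset ι) (f : ι → LaurentSeries k)
    (hf : ∀ i ∈ s, f i ≠ 0) :
    thetaD k (∏ i ∈ s, f i) = (∏ i ∈ s, f i) * ∑ i ∈ s, thetaD k (f i) / f i := by
  classical
  induction s using Finset.induction_on with
  | empty => simp
  | insert a s ha ih =>
    have hfa : f a ≠ 0 := hf a (Finset.mem_insert_self a s)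
    rw [Finset.prod_insert ha, Finset.sum_insert ha, Derivation.leibniz,
      ih (fun i hi => hf i (Finset.mem_insert_of_mem hi)), smul_eq_mul, smul_eq_mul]
    field_simp
    ring

omit [Fact p.Prime] in
/-- logarithmic derivative of `U h` -/
theorem thetaD_normL (h : LaurentSeries Qb) (hh : h ≠ 0) :
    thetaD Qb (normL p h) = normL p h * contract p (thetaD Qb h / h) := by
  let _ : Fintype (rootsOfUnity p Qb) := Fintype.ofFinite _
  have hζ := exists_primitiveRoot_Qb p
  have hp0 : (HahnSeries.C (p : Qb) : LaurentSeries Qb) ≠ 0 := by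
    intro h0
    have : (p : Qb) = 0 := HahnSeries.C_injective (by rw [h0, map_zero])
    exact NeZero.ne p (by exact_mod_cast this)
  apply qExpand_injective (R := Qb) p
  apply mul_left_cancel₀ hp0
  rw [← thetaD_qExpand, map_mul, qExpand_normL p hζ]
  have htw : ∀ z : rootsOfUnity p Qb, twist (z : Qbˣ) h ≠ 0 := by
    intro z h0
    apply hh
    have : twistHom (z : Qbˣ) h = 0 := h0
    exact (map_eq_zero _).mp this
  have e1 : thetaD Qb (prodTwist p h) = prodTwist p h *
      ∑ z : rootsOfUnity p Qb, twist (z : Qbˣ) (thetaD Qb h / h) := by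
    have e2 : prodTwist p h = ∏ z : rootsOfUnity p Qb, twist (z : Qbˣ) h := by
      unfold prodTwist
      congr!
    rw [e2, YF_logDeriv_prod Finset.univ _ (fun z _ => htw z)]
    congr 1
    refine Finset.sum_congr rfl fun z _ => ?_
    rw [YF_thetaD_twist]
    exact (map_div₀ (twistHom (z : Qbˣ)) (thetaD Qb h) h).symm
  have e3 := YF_sum_twist p (thetaD Qb h / h)
  rw [e1]
  have e4 : ∑ z : rootsOfUnity p Qb, twist (z : Qbˣ) (thetaD Qb h / h)
      = HahnSeries.C (p : Qb) * qExpand Qb p (contract p (thetaD Qb h / h)) := by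
    rw [← e3]
  rw [e4]
  ring

end

end Fermat.Agent.S33Lib
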