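import Fermat.Agent.S33.YConst
import Fermat.Agent.S33.YFormal

/-!
# S33 library, block (Y1): `V`, `θ`, `contract p` (and the twists by `μ_p`) preserve `gRing A`
and commute with `gRed`.
-/

set_option autoImplicit false
set_option synthInstance.maxHeartbeats 400000

open ModularCurve

namespace Fermat.Agent.S33Lib

open Fermat.Agent.S18Lib Fermat.Agent.S28Lib Fermat.Agent.ESLib

noncomputable section

variable (A : ValuationSubring Qb)

/-! ## (Y1) `S33/YClosure.lean` : `V`, `θ`, `contract p` preserve `gRing A`, commute with `gRed` -/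

theorem qExpand_mem_gRing (d : ℕ) [NeZero d] (x : gRing A) :
    ∃ h : qExpand Qb d (x : LaurentSeries Qb) ∈ gRing A,
      gRed A ⟨_, h⟩ = qExpand (kk A) d (gRed A x) := by
  have hs := gDen_ne A x
  have hx := gNum_spec A x
  have hs' : cR A (qExpand A d (gDen A x)) ≠ 0 := by
    rw [cR_def, coeffMap_qExpand'', ← cR_def]
    intro h0
    exact hs (qExpand_injective (R := kk A) d (by rw [h0, map_zero]))
  have he : qExpand Qb d (x : LaurentSeries Qb) * cE A (qExpand A d (gDen A x))
      = cE A (qExpand A d (gNum A x)) := by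
    rw [cE_def, cE_def, coeffMap_qExpand'', coeffMap_qExpand'', ← cE_def, ← cE_def, ← hx, map_mul]
  have hmem := (mem_gRing_iff A).mpr ⟨_, _, hs', he⟩
  refine ⟨hmem, ?_⟩
  rw [gRed_eq A ⟨_, hmem⟩ hs' he, gRed_eq A x hs hx, map_div₀, cR_def, cR_def, coeffMap_qExpand'',
    coeffMap_qExpand'']
  rfl

theorem thetaD_mem_gRing (x : gRing A) :
    ∃ h : thetaD Qb (x : LaurentSeries Qb) ∈ gRing A,
      gRed A ⟨_, h⟩ = thetaD (kk A) (gRed A x) := by
  have hs := gDen_ne A x
  have hx := gNum_spec A x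
  set a := gNum A x with ha
  set s := gDen A x with hsd
  have hs' : cR A (s * s) ≠ 0 := by
    rw [map_mul]
    exact mul_ne_zero hs hs
  have h1 : thetaD Qb ((x : LaurentSeries Qb) * cE A s) = thetaD Qb (cE A a) := by rw [hx]
  rw [Derivation.leibniz, smul_eq_mul, smul_eq_mul] at h1
  have hEa : thetaD Qb (cE A a) = cE A (thetaD A a) := (coeffMap_thetaD _ _).symm
  have hEs : thetaD Qb (cE A s) = cE A (thetaD A s) := (coeffMap_thetaD _ _).symm
  have he : thetaD Qb (x : LaurentSeries Qb) * cE A (s * s)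
      = cE A (thetaD A a * s - a * thetaD A s) := by
    rw [map_sub, map_mul, map_mul, map_mul, ← hEa, ← hEs, ← h1, ← hx]
    ring
  have hmem := (mem_gRing_iff A).mpr ⟨_, _, hs', he⟩
  refine ⟨hmem, ?_⟩
  rw [gRed_eq A ⟨_, hmem⟩ hs' he]
  have hu := gRed_mul_eq A x hx
  have h2 : thetaD (kk A) (gRed A x * cR A s) = thetaD (kk A) (cR A a) := by rw [hu]
  rw [Derivation.leibniz, smul_eq_mul, smul_eq_mul] at h2
  have hRa : thetaD (kk A) (cR A a) = cR A (thetaD A a) := (coeffMap_thetaD _ _).symm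
  have hRs : thetaD (kk A) (cR A s) = cR A (thetaD A s) := (coeffMap_thetaD _ _).symm
  rw [div_eq_iff hs', map_sub, map_mul, map_mul, map_mul, ← hRa, ← hRs, ← h2, ← hu]
  ring

variable (p : ℕ) [Fact p.Prime] [NeZero p] [CharP (kk A) p]

theorem YK_cE_twist (z : rootsOfUnity p Qb) (s : LaurentSeries A) :
    cE A (twist (rootA A p z) s) = twist (z : Qbˣ) (cE A s) := by
  rw [cE_def, coeffMap_twist]
  congr 1

theorem YK_cR_twist (z : rootsOfUnity p Qb) (s : LaurentSeries A) :
    cR A (twist (rootA A p z) s) = cR A s := by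
  rw [cR_def, coeffMap_twist]
  have := map_residue_rootA (A := A) p z
  rw [show Units.map ((IsLocalRing.residue A : A →+* kk A) : A →* kk A) (rootA A p z) = 1
    from this, twist_one]
  rfl

/-- the twists by `μ_p` preserve the Gauss ring and act trivially on the reduction -/
theorem twist_mem_gRing (z : rootsOfUnity p Qb) (x : gRing A) :
    ∃ h : twist (z : Qbˣ) (x : LaurentSeries Qb) ∈ gRing A, gRed A ⟨_, h⟩ = gRed A x := by
  have hs := gDen_ne A x
  have hx := gNum_spec A x
  have hs' : cR A (twist (rootA A p z) (gDen A x)) ≠ 0 := by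
    rw [YK_cR_twist]
    exact hs
  have he : twist (z : Qbˣ) (x : LaurentSeries Qb) * cE A (twist (rootA A p z) (gDen A x))
      = cE A (twist (rootA A p z) (gNum A x)) := by
    rw [YK_cE_twist, YK_cE_twist, ← twist_mul, hx]
  have hmem := (mem_gRing_iff A).mpr ⟨_, _, hs', he⟩
  refine ⟨hmem, ?_⟩
  rw [gRed_eq A ⟨_, hmem⟩ hs' he, gRed_eq A x hs hx, YK_cR_twist, YK_cR_twist]

theorem contract_mem_gRing (x : gRing A) :
    ∃ h : contract p (x : LaurentSeries Qb) ∈ gRing A,
      gRed A ⟨_, h⟩ = contract p (gRed A x) := by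
  classical
  let _ : Fintype (rootsOfUnity p Qb) := Fintype.ofFinite _
  have hs := gDen_ne A x
  have hx := gNum_spec A x
  set a := gNum A x with ha
  set s := gDen A x with hsd
  obtain ⟨Y, hY1, hY2⟩ := exists_normL_int (A := A) p s
  have hζ := exists_primitiveRoot_Qb p
  set P : LaurentSeries A := ∏ z ∈ (Finset.univ.erase (1 : rootsOfUnity p Qb)),
    twist (rootA A p z) s with hP
  have hEP : cE A s * cE A P = qExpand Qb p (cE A Y) := by
    rw [cE_def A Y, hY1, qExpand_normL p hζ, hP, map_prod]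
    have e2 : prodTwist p (coeffMap A.subtype s)
        = ∏ z : rootsOfUnity p Qb, twist (z : Qbˣ) (cE A s) := by
      unfold prodTwist
      congr!
    rw [e2, ← Finset.mul_prod_erase Finset.univ _ (Finset.mem_univ (1 : rootsOfUnity p Qb))]
    congr 1
    · rw [OneMemClass.coe_one, twist_one]
    · exact Finset.prod_congr rfl fun z _ => YK_cE_twist A p z s
  have hRP : cR A P = cR A s ^ (p - 1) := by
    rw [hP, map_prod]
    simp only [YK_cR_twist, Finset.prod_const]
    congr 1
    obtain ⟨ζ, hζ'⟩ := hζ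
    rw [Finset.card_erase_of_mem (Finset.mem_univ _), Finset.card_univ,
      ← Nat.card_eq_fintype_card, hζ'.card_rootsOfUnity]
  have hRY : cR A Y = coeffMap (frobenius (kk A) p) (cR A s) := hY2
  have hY0 : cR A Y ≠ 0 := by
    rw [hRY]
    intro h0
    apply hs
    have h1 := pow_char_eq p (cR A s)
    rw [h0, map_zero] at h1
    exact pow_eq_zero_iff (NeZero.ne p) |>.mp h1
  have he : contract p (x : LaurentSeries Qb) * cE A Y = cE A (contract p (a * P)) := by
    rw [← contract_mul_qExpand, ← hEP, ← mul_assoc, hx, ← map_mul, cE_def, cE_def, coeffMap_contract]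
  have hmem := (mem_gRing_iff A).mpr ⟨_, _, hY0, he⟩
  refine ⟨hmem, ?_⟩
  rw [gRed_eq A ⟨_, hmem⟩ hY0 he, div_eq_iff hY0, hRY, ← contract_mul_qExpand, ← pow_char_eq p,
    cR_def A (contract p (a * P)), coeffMap_contract, ← cR_def, map_mul, hRP,
    ← gRed_mul_eq A x hx]
  congr 1
  have hp1 : p = (p - 1) + 1 := by
    have := (Fact.out : p.Prime).pos
    omega
  conv_rhs => rw [hp1, pow_succ]
  ring

end

end Fermat.Agent.S33Lib
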