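import Fermat.Agent.S33.YConst
import Fermat.Agent.S33.YFormal
import Fermat.Agent.S33.YClosure
import Fermat.Agent.S33.YNorm

/-!
# S33 library, block (Y6): the `θ`-trick.
-/

set_option autoImplicit false
set_option synthInstance.maxHeartbeats 400000

open ModularCurve

namespace Fermat.Agent.S33Lib

open Fermat.Agent.S18Lib Fermat.Agent.S28Lib Fermat.Agent.ESLib

noncomputable section

variable (A : ValuationSubring Qb)

/-! ### bundled operations on the Gauss ring -/

/-- `θ` on `gRing A` -/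
def gTh (x : gRing A) : gRing A :=
  ⟨thetaD Qb (x : LaurentSeries Qb), (thetaD_mem_gRing A x).choose⟩

theorem gRed_gTh (x : gRing A) : gRed A (gTh A x) = thetaD (kk A) (gRed A x) :=
  (thetaD_mem_gRing A x).choose_spec

theorem coe_gTh (x : gRing A) :
    ((gTh A x : gRing A) : LaurentSeries Qb) = thetaD Qb (x : LaurentSeries Qb) := rfl

/-- `V_d` on `gRing A` -/
def gV (d : ℕ) [NeZero d] (x : gRing A) : gRing A :=
  ⟨qExpand Qb d (x : LaurentSeries Qb), (qExpand_mem_gRing A d x).choose⟩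

theorem gRed_gV (d : ℕ) [NeZero d] (x : gRing A) :
    gRed A (gV A d x) = qExpand (kk A) d (gRed A x) :=
  (qExpand_mem_gRing A d x).choose_spec

theorem coe_gV (d : ℕ) [NeZero d] (x : gRing A) :
    ((gV A d x : gRing A) : LaurentSeries Qb) = qExpand Qb d (x : LaurentSeries Qb) := rfl

/-- the inverse of an element reducing to `1` -/
def gInv (x : gRing A) (hx : gRed A x = 1) : gRing A :=
  ⟨(x : LaurentSeries Qb)⁻¹, inv_mem_gRing A x (by rw [hx]; exact one_ne_zero)⟩

theorem coe_gInv (x : gRing A) (hx : gRed A x = 1) :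
    ((gInv A x hx : gRing A) : LaurentSeries Qb) = (x : LaurentSeries Qb)⁻¹ := rfl

theorem YT_coe_ne_zero (x : gRing A) (hx : gRed A x ≠ 0) : (x : LaurentSeries Qb) ≠ 0 := by
  intro h0
  apply hx
  have : x = 0 := Subtype.ext h0
  rw [this, map_zero]

theorem gRed_gInv (x : gRing A) (hx : gRed A x = 1) : gRed A (gInv A x hx) = 1 := by
  have h0 : (x : LaurentSeries Qb) ≠ 0 := YT_coe_ne_zero A x (by rw [hx]; exact one_ne_zero)
  have h1 : x * gInv A x hx = 1 := Subtype.ext (mul_inv_cancel₀ h0)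
  have h2 := congrArg (gRed A) h1
  rwa [map_mul, hx, one_mul, map_one] at h2

/-- `1 + δ r` -/
def gOneAdd (δ : A) (r : gRing A) : gRing A := 1 + gC A δ * r

theorem coe_gOneAdd (δ : A) (r : gRing A) :
    ((gOneAdd A δ r : gRing A) : LaurentSeries Qb) =
      1 + HahnSeries.C (δ : Qb) * (r : LaurentSeries Qb) := rfl

theorem gRed_gOneAdd (δ : A) (hδ : IsLocalRing.residue A δ = 0) (r : gRing A) :
    gRed A (gOneAdd A δ r) = 1 := by
  rw [gOneAdd, map_add, map_one, map_mul, gRed_gC, hδ, map_zero, zero_mul, add_zero]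

/-! ### formal identities -/

theorem YT_thetaD_C_mul {R : Type*} [CommRing R] (c : R) (f : LaurentSeries R) :
    thetaD R (HahnSeries.C c * f) = HahnSeries.C c * thetaD R f := by
  ext n
  rw [thetaD_coeff, HahnSeries.C_mul_eq_smul, HahnSeries.C_mul_eq_smul, HahnSeries.coeff_smul,
    HahnSeries.coeff_smul, thetaD_coeff, smul_eq_mul, smul_eq_mul]
  ring

theorem YT_thetaD_pow {R : Type*} [CommRing R] (f : LaurentSeries R) (n : ℕ) :
    thetaD R (f ^ (n + 1)) = HahnSeries.C ((n + 1 : ℕ) : R) * (f ^ n * thetaD R f) := by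
  rw [Derivation.leibniz_pow, Nat.add_sub_cancel, smul_eq_mul, nsmul_eq_mul, map_natCast]

theorem YT_thetaD_one_add {R : Type*} [CommRing R] (c : R) (f : LaurentSeries R) :
    thetaD R (1 + HahnSeries.C c * f) = HahnSeries.C c * thetaD R f := by
  rw [map_add, Derivation.map_one_eq_zero, zero_add, YT_thetaD_C_mul]

variable (p : ℕ) [Fact p.Prime] [NeZero p] [CharP (kk A) p]

/-- `U_p` (on coefficients) on `gRing A` -/
def gU (x : gRing A) : gRing A :=
  ⟨contract p (x : LaurentSeries Qb), (contract_mem_gRing A p x).choose⟩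

theorem gRed_gU (x : gRing A) : gRed A (gU A p x) = contract p (gRed A x) :=
  (contract_mem_gRing A p x).choose_spec

theorem coe_gU (x : gRing A) :
    ((gU A p x : gRing A) : LaurentSeries Qb) = contract p (x : LaurentSeries Qb) := rfl

theorem YT_C_p_ne_zero : (HahnSeries.C (p : Qb) : LaurentSeries Qb) ≠ 0 := by
  intro h0
  have : (p : Qb) = 0 := HahnSeries.C_injective (by rw [h0, map_zero])
  exact NeZero.ne p (by exact_mod_cast this)

/-- characteristic zero: `U (r ^ (p - 1) θ r) = θ (U (r ^ p))` -/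
theorem YT_contract_pow_theta (r : LaurentSeries Qb) :
    contract p (r ^ (p - 1) * thetaD Qb r) = thetaD Qb (contract p (r ^ p)) := by
  have hp : p.Prime := Fact.out
  apply mul_left_cancel₀ (YT_C_p_ne_zero p)
  rw [← contract_thetaD, ← YN_contract_C_mul]
  congr 1
  obtain ⟨m, rfl⟩ : ∃ m, p = m + 1 := ⟨p - 1, by have := hp.pos; omega⟩
  rw [YT_thetaD_pow, Nat.add_sub_cancel]

/-- characteristic `p`: `U (r̄ ^ (p - 1) θ r̄) = Frob (θ r̄)` for liftable `r̄` -/
theorem YT_contract_pow_theta_red (r : gRing A) :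
    contract p (gRed A r ^ (p - 1) * thetaD (kk A) (gRed A r)) =
      coeffMap (frobenius (kk A) p) (thetaD (kk A) (gRed A r)) := by
  have h1 : gU A p (r ^ (p - 1) * gTh A r) = gTh A (gU A p (r ^ p)) :=
    Subtype.ext (YT_contract_pow_theta p (r : LaurentSeries Qb))
  have h2 := congrArg (gRed A) h1
  rw [gRed_gU, map_mul, map_pow, gRed_gTh, gRed_gTh, gRed_gU, map_pow, contract_pow_char,
    ← coeffMap_thetaD] at h2
  exact h2

theorem YT_isUnit_natCast (i : ℕ) (hi : i + 1 < p) : IsUnit ((i + 1 : ℕ) : A) := by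
  by_contra hnu
  have h1 : IsLocalRing.residue A ((i + 1 : ℕ) : A) = 0 := by
    rw [IsLocalRing.residue_eq_zero_iff, IsLocalRing.mem_maximalIdeal, mem_nonunits_iff]
    exact hnu
  rw [map_natCast, CharP.cast_eq_zero_iff (kk A) p] at h1
  have := Nat.le_of_dvd (Nat.succ_pos i) h1
  omega

/-- the truncated logarithm -/
theorem YT_exists_log (δ : A) (r : gRing A) :
    ∃ Lg : gRing A, thetaD Qb (Lg : LaurentSeries Qb) *
        (1 + HahnSeries.C (δ : Qb) * (r : LaurentSeries Qb)) =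
      thetaD Qb (r : LaurentSeries Qb) *
        (1 - (-(HahnSeries.C (δ : Qb) * (r : LaurentSeries Qb))) ^ (p - 1)) := by
  set c : ℕ → A := fun i => (-δ) ^ i * Ring.inverse ((i + 1 : ℕ) : A) with hc
  refine ⟨⟨∑ i ∈ Finset.range (p - 1),
    HahnSeries.C ((c i : A) : Qb) * (r : LaurentSeries Qb) ^ (i + 1),
    sum_mem fun i _ => mul_mem (C_mem_gRing A _) (pow_mem r.2 _)⟩, ?_⟩
  show thetaD Qb (∑ i ∈ Finset.range (p - 1),
    HahnSeries.C ((c i : A) : Qb) * (r : LaurentSeries Qb) ^ (i + 1)) * _ = _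
  have h1 : thetaD Qb (∑ i ∈ Finset.range (p - 1),
      HahnSeries.C ((c i : A) : Qb) * (r : LaurentSeries Qb) ^ (i + 1)) =
      thetaD Qb (r : LaurentSeries Qb) * ∑ i ∈ Finset.range (p - 1),
        (-(HahnSeries.C (δ : Qb) * (r : LaurentSeries Qb))) ^ i := by
    rw [map_sum, Finset.mul_sum]
    refine Finset.sum_congr rfl fun i hi => ?_
    have hi' : i + 1 < p := by
      have := Finset.mem_range.1 hi
      omega
    have h2 : c i * ((i + 1 : ℕ) : A) = (-δ) ^ i := by
      rw [hc]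
      simp only
      rw [mul_assoc, Ring.inverse_mul_cancel _ (YT_isUnit_natCast A p i hi'), mul_one]
    have h3 : ((c i : A) : Qb) * ((i + 1 : ℕ) : Qb) = (-(δ : Qb)) ^ i := by
      have := congrArg (fun z : A => (z : Qb)) h2
      simpa using this
    rw [YT_thetaD_C_mul, YT_thetaD_pow, ← mul_assoc, ← map_mul, h3, map_pow, map_neg,
      ← neg_mul, mul_pow]
    ring
  rw [h1, mul_assoc]
  congr 1
  have := geom_sum_mul_neg (-(HahnSeries.C (δ : Qb) * (r : LaurentSeries Qb))) (p - 1)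
  rw [← this]
  ring

/-! ## (Y6) `S33/YTheta.lean` : the `θ`-trick -/

/-- `contract (θ h / h)` for `h = 1 + δ r` -/
theorem contract_logDeriv (δ : A) (hδ : IsLocalRing.residue A δ = 0) (r : gRing A) :
    ∃ E₁ E₂ : gRing A,
      gRed A E₂ = (-1) ^ (p - 1) * coeffMap (frobenius (kk A) p) (thetaD (kk A) (gRed A r)) ∧
      contract p (thetaD Qb (1 + HahnSeries.C (δ : Qb) * (r : LaurentSeries Qb)) /
          (1 + HahnSeries.C (δ : Qb) * (r : LaurentSeries Qb))) =
        HahnSeries.C ((p : Qb) * δ) * (E₁ : LaurentSeries Qb) +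
          HahnSeries.C ((δ : Qb) ^ p) * (E₂ : LaurentSeries Qb) := by
  have hp : p.Prime := Fact.out
  obtain ⟨Lg, hLg⟩ := YT_exists_log A p δ r
  have hred := gRed_gOneAdd A δ hδ r
  have hh0 : (1 + HahnSeries.C (δ : Qb) * (r : LaurentSeries Qb)) ≠ 0 :=
    YT_coe_ne_zero A (gOneAdd A δ r) (by rw [hred]; exact one_ne_zero)
  refine ⟨gTh A (gU A p Lg),
    gC A ((-1) ^ (p - 1)) * gU A p (r ^ (p - 1) * gTh A r * gInv A (gOneAdd A δ r) hred), ?_, ?_⟩
  · rw [map_mul, gRed_gC, gRed_gU, map_mul, map_mul, map_pow (gRed A), gRed_gTh, gRed_gInv, mul_one,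
      YT_contract_pow_theta_red, map_pow, map_neg, map_one, map_pow, map_neg, map_one]
  · set R : LaurentSeries Qb := (r : LaurentSeries Qb) with hR
    set d : LaurentSeries Qb := HahnSeries.C (δ : Qb) with hd
    have e1 : thetaD Qb (Lg : LaurentSeries Qb) =
        thetaD Qb R * (1 - (-(d * R)) ^ (p - 1)) * (1 + d * R)⁻¹ := by
      rw [← hLg, mul_assoc, mul_inv_cancel₀ hh0, mul_one]
    have e2 : (HahnSeries.C ((δ : Qb) ^ p) : LaurentSeries Qb) = d ^ (p - 1) * d := by
      rw [map_pow, ← pow_succ]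
      congr 1
      have := hp.pos
      omega
    have e3 : thetaD Qb (1 + d * R) / (1 + d * R) =
        d * thetaD Qb (Lg : LaurentSeries Qb) +
          HahnSeries.C ((δ : Qb) ^ p) * (HahnSeries.C (((-1) ^ (p - 1) : A) : Qb) *
            (R ^ (p - 1) * thetaD Qb R * (1 + d * R)⁻¹)) := by
      have e4 : (HahnSeries.C (((-1) ^ (p - 1) : A) : Qb) : LaurentSeries Qb) = (-1) ^ (p - 1) := by
        rw [show (((-1) ^ (p - 1) : A) : Qb) = (-1) ^ (p - 1) from rfl, map_pow, map_neg, map_one]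
      rw [hd, YT_thetaD_one_add, ← hd, e1, e2, e4, neg_pow (d * R), mul_pow, div_eq_mul_inv]
      ring
    rw [e3, contract_add, hd, YN_contract_C_mul, YN_contract_C_mul, YN_contract_C_mul,
      contract_thetaD, map_mul]
    show _ = _ * thetaD Qb (contract p (Lg : LaurentSeries Qb)) + _ *
      (HahnSeries.C (((-1) ^ (p - 1) : A) : Qb) *
        contract p (R ^ (p - 1) * thetaD Qb R * (1 + HahnSeries.C (δ : Qb) * R)⁻¹))
    ring

/-- (Y6) if `T_p (1 + δ r) = (1 + γ Y₁) ^ p`, `γ ^ p = δ`, `θ r̄ ≠ 0`, then `p γ ~ δ ^ p` -/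
theorem theta_trick (δ γ : A) (hγ : IsLocalRing.residue A γ = 0) (hγδ : γ ^ p = δ) (hδ0 : δ ≠ 0)
    (r Y₁ : gRing A) (hθ : thetaD (kk A) (gRed A r) ≠ 0)
    (hY₁ : gRed A Y₁ ^ p = qExpand (kk A) p (gRed A r))
    (h : heckeMul p (1 + HahnSeries.C (δ : Qb) * (r : LaurentSeries Qb)) =
      (1 + HahnSeries.C (γ : Qb) * (Y₁ : LaurentSeries Qb)) ^ p) :
    A.valuation (p : Qb) * A.valuation (γ : Qb) = A.valuation (δ : Qb) ^ p := by
  have hp : p.Prime := Fact.out
  have hδ : IsLocalRing.residue A δ = 0 := by rw [← hγδ, map_pow, hγ, zero_pow hp.ne_zero]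
  obtain ⟨E₁, E₂, hE₂, hE⟩ := contract_logDeriv A p δ hδ r
  have hredH := gRed_gOneAdd A δ hδ r
  have hredY := gRed_gOneAdd A γ hγ Y₁
  have hH0 : (1 + HahnSeries.C (δ : Qb) * (r : LaurentSeries Qb)) ≠ 0 :=
    YT_coe_ne_zero A (gOneAdd A δ r) (by rw [hredH]; exact one_ne_zero)
  have hY0 : (1 + HahnSeries.C (γ : Qb) * (Y₁ : LaurentSeries Qb)) ≠ 0 :=
    YT_coe_ne_zero A (gOneAdd A γ Y₁) (by rw [hredY]; exact one_ne_zero)
  -- the two non-vanishing statements
  have hFinj : Function.Injective (coeffMap (frobenius (kk A) p)) :=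
    coeffMap_injective (frobenius_inj (kk A) p)
  have hE₂0 : gRed A E₂ ≠ 0 := by
    rw [hE₂]
    refine mul_ne_zero (pow_ne_zero _ (neg_ne_zero.2 one_ne_zero)) ?_
    intro h0
    exact hθ (hFinj (by rw [h0, map_zero]))
  have hθY : thetaD (kk A) (gRed A Y₁) ≠ 0 := by
    intro h0
    apply hθ
    have h1 : coeffMap (frobenius (kk A) p) (gRed A Y₁) = gRed A r :=
      qExpand_injective (R := kk A) p (by rw [← pow_char_eq p, hY₁])
    rw [← h1, ← coeffMap_thetaD, h0, map_zero]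
  set X : gRing A := gTh A Y₁ * gInv A (gOneAdd A γ Y₁) hredY -
    gC A (γ ^ (p - 1)) * (gV A p (gTh A r * gInv A (gOneAdd A δ r) hredH) + E₁) with hX
  have hX0 : gRed A X ≠ 0 := by
    have hp1 : p - 1 ≠ 0 := by have := hp.two_le; omega
    rw [hX, map_sub, map_mul, gRed_gTh, gRed_gInv, mul_one, map_mul, gRed_gC, map_pow, hγ,
      zero_pow hp1, map_zero, zero_mul, sub_zero]
    exact hθY
  have key : HahnSeries.C ((p : Qb) * γ) * (X : LaurentSeries Qb) =
      HahnSeries.C ((δ : Qb) ^ p) * (E₂ : LaurentSeries Qb) := by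
    set H : LaurentSeries Qb := 1 + HahnSeries.C (δ : Qb) * (r : LaurentSeries Qb) with hH
    set Y : LaurentSeries Qb := 1 + HahnSeries.C (γ : Qb) * (Y₁ : LaurentSeries Qb) with hY
    have hVH0 : qExpand Qb p H ≠ 0 := fun h0 =>
      hH0 (qExpand_injective (R := Qb) p (by rw [h0, map_zero]))
    have t1 : thetaD Qb (heckeMul p H) = heckeMul p H *
        (HahnSeries.C (p : Qb) * qExpand Qb p (thetaD Qb H / H) +
          contract p (thetaD Qb H / H)) := by
      rw [heckeMul, Derivation.leibniz, thetaD_normL p H hH0, thetaD_qExpand, smul_eq_mul,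
        smul_eq_mul, map_div₀]
      field_simp
      ring
    have t2 : thetaD Qb (Y ^ p) = Y ^ p *
        (HahnSeries.C (p : Qb) * (HahnSeries.C (γ : Qb) * thetaD Qb (Y₁ : LaurentSeries Qb) * Y⁻¹)) := by
      obtain ⟨m, hm⟩ : ∃ m, p = m + 1 := ⟨p - 1, by have := hp.pos; omega⟩
      have : thetaD Qb (Y ^ (m + 1)) = Y ^ (m + 1) *
        (HahnSeries.C ((m + 1 : ℕ) : Qb) *
          (HahnSeries.C (γ : Qb) * thetaD Qb (Y₁ : LaurentSeries Qb) * Y⁻¹)) := by
        rw [YT_thetaD_pow, hY, YT_thetaD_one_add, ← hY, pow_succ]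
        field_simp
      rw [← hm] at this
      exact this
    have t3 : HahnSeries.C (p : Qb) * qExpand Qb p (thetaD Qb H / H) +
          contract p (thetaD Qb H / H) =
        HahnSeries.C (p : Qb) * (HahnSeries.C (γ : Qb) * thetaD Qb (Y₁ : LaurentSeries Qb) * Y⁻¹) := by
      apply mul_left_cancel₀ (pow_ne_zero p hY0)
      rw [← t2, ← h, ← t1]
    have t4 : thetaD Qb H / H =
        HahnSeries.C (δ : Qb) * (thetaD Qb (r : LaurentSeries Qb) * H⁻¹) := by
      rw [hH, YT_thetaD_one_add, ← hH, div_eq_mul_inv, mul_assoc]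
    have t5 : (HahnSeries.C (δ : Qb) : LaurentSeries Qb) =
        HahnSeries.C (γ : Qb) * HahnSeries.C (((γ ^ (p - 1) : A)) : Qb) := by
      rw [← map_mul, ← hγδ]
      congr 1
      show (γ : Qb) ^ p = (γ : Qb) * (γ : Qb) ^ (p - 1)
      rw [← pow_succ']
      congr 1
      have := hp.pos
      omega
    have hXc : (X : LaurentSeries Qb) = thetaD Qb (Y₁ : LaurentSeries Qb) * Y⁻¹ -
        HahnSeries.C (((γ ^ (p - 1) : A)) : Qb) *
          (qExpand Qb p (thetaD Qb (r : LaurentSeries Qb) * H⁻¹) + (E₁ : LaurentSeries Qb)) := rfl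
    have t6 : qExpand Qb p (thetaD Qb H / H) = HahnSeries.C (δ : Qb) *
        qExpand Qb p (thetaD Qb (r : LaurentSeries Qb) * H⁻¹) := by
      rw [t4, map_mul, qExpand_C]
    have t7 : (HahnSeries.C ((p : Qb) * δ) : LaurentSeries Qb) =
        HahnSeries.C (p : Qb) * HahnSeries.C (δ : Qb) := map_mul _ _ _
    have t8 : (HahnSeries.C ((p : Qb) * γ) : LaurentSeries Qb) =
        HahnSeries.C (p : Qb) * HahnSeries.C (γ : Qb) := map_mul _ _ _
    rw [hE, t6, t7, t5] at t3
    rw [hXc, t8]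
    linear_combination (-1 : LaurentSeries Qb) * t3
  have := valuation_eq_of_gRed_ne_zero A ((p : Qb) * γ) ((δ : Qb) ^ p) X E₂ hX0 hE₂0 key
  rwa [map_mul, map_pow] at this

end

end Fermat.Agent.S33Lib
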