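import Fermat.Agent.S33.MDefs
import Fermat.Agent.S33.MHecke
import Fermat.Agent.S33.XPow
import Fermat.Agent.S33.YTheta
import Fermat.Agent.S33.YSep

/-!
# S33 library, modular part, leaf (KM3b): the kernel of `T_p`
-/

set_option autoImplicit false
set_option synthInstance.maxHeartbeats 400000
set_option linter.unusedSectionVars false

open AlgebraicCurve IntermediateField ModularCurve
  Fermat.Agent.S24Lib Fermat.Agent.FFLib Fermat.Agent.S18Lib Fermat.Agent.S28Lib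
  Fermat.Agent.ESLib Fermat.Agent.S34Lib

namespace Fermat.Agent.S33Lib

noncomputable section

variable (M p : ℕ) [NeZero M] [NeZero p] [hpF : Fact p.Prime] (hpM : ¬ p ∣ M)
variable (A : ValuationSubring Qb) (hA : A.LiesOverPrime p)

/-- `O` is integrally closed -/
theorem MT_mem_of_pow_mem (Y : FB M) (n : ℕ) (hn : 0 < n) (h : Y ^ n ∈ (RG1 M p hpM A hA).O) :
    Y ∈ (RG1 M p hpM A hA).O := by
  rcases (RM M p hpM A hA).O.mem_or_inv_mem Y with h1 | h1
  · exact h1
  · have h2 : Y⁻¹ ∈ (RG1 M p hpM A hA).O := h1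
    rcases eq_or_ne Y 0 with rfl | hY0
    · exact zero_mem _
    obtain ⟨m, rfl⟩ : ∃ m, n = m + 1 := ⟨n - 1, by omega⟩
    have e : Y = Y ^ (m + 1) * Y⁻¹ ^ m := by
      rw [pow_succ, mul_assoc, mul_comm Y, ← mul_assoc, ← mul_pow, mul_inv_cancel₀ hY0, one_pow,
        one_mul]
    rw [e]
    exact mul_mem h (pow_mem h2 _)

/-- (KM3b) `S33/MTheta.lean` : the kernel of `T_p` -/
theorem theta_M (π : A) (hπ : IsLocalRing.residue A π = 0) (hπ0 : π ≠ 0)
    (hlt : A.valuation (p : Qb) ^ p < A.valuation ((π ^ p : A) : Qb) ^ (p - 1))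
    (r : (RG1 M p hpM A hA).O) (hr : ∀ y : FT A M, (RG1 M p hpM A hA).red r ≠ y ^ p)
    (Y : FB M)
    (hY : ((Y ^ p : FB M) : LaurentSeries Qb) =
      heckeMul p (((1 + (RG1 M p hpM A hA).const (π ^ p) * r : (RG1 M p hpM A hA).O) : FB M) :
          LaurentSeries Qb)) :
    A.valuation (π : Qb) ^ (p ^ 2 - 1) = A.valuation (p : Qb) := by
  have hp : p.Prime := hpF.out
  have := isAlgClosed_kk A
  have : CharP (kk A) p := Fermat.Agent.S18Lib.charP_kk A hA
  have : CharP (FT A M) p := charP_of_injective_algebraMap (algebraMap (kk A) (FT A M)).injective p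
  have hδ : IsLocalRing.residue A (π ^ p) = 0 := by rw [map_pow, hπ, zero_pow hp.ne_zero]
  have hδ0 : π ^ p ≠ 0 := pow_ne_zero _ hπ0
  obtain ⟨r₁, h1, h2, -⟩ := heckeMul_rep_M M p hpM A hA (π ^ p) hδ hδ0 r
  have hr0 : (RG1 M p hpM A hA).red r ≠ 0 := by
    intro h0
    exact hr 0 (by rw [h0, zero_pow hp.ne_zero])
  have hr₁0 : (RG1 M p hpM A hA).red r₁ ≠ 0 := by
    intro h0
    apply hr0
    apply Subtype.ext
    apply qExpand_injective (R := kk A) p
    rw [← h2, h0]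
    simp
  have hYp : Y ^ p = ((1 + (RG1 M p hpM A hA).const (π ^ p) * r₁ : (RG1 M p hpM A hA).O) : FB M) := Subtype.ext (hY.trans h1.symm)
  have hYO : Y ∈ (RG1 M p hpM A hA).O := MT_mem_of_pow_mem M p hpM A hA Y p hp.pos (by rw [hYp]; exact Subtype.prop _)
  have hYp' : (⟨Y, hYO⟩ : (RG1 M p hpM A hA).O) ^ p = 1 + (RG1 M p hpM A hA).const (π ^ p) * r₁ := Subtype.ext hYp
  have hYred : (RG1 M p hpM A hA).red ⟨Y, hYO⟩ = 1 := by
    apply xs_eq_one_of_pow p
    rw [← map_pow, hYp', map_add, map_one, map_mul, (RG1 M p hpM A hA).red_const, hδ, map_zero, zero_mul, add_zero]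
  obtain ⟨γ, g₁, hg₁, hγ, hg₁r⟩ := pow_leading' (RG1 M p hpM A hA) ⟨Y, hYO⟩ r₁ hYred (π ^ p) hlt hYp' hr₁0
  have hγ0 : IsLocalRing.residue A γ = 0 := by
    have : IsLocalRing.residue A γ ^ p = 0 := by rw [← map_pow, hγ, hδ]
    exact pow_eq_zero_iff hp.ne_zero |>.1 this
  have hθ : Fermat.Agent.S18Lib.thetaD (kk A) (gRed A ⟨(((r : (RG1 M p hpM A hA).O) : FB M) : LaurentSeries Qb), r.2⟩) ≠ 0 := by
    intro h0
    obtain ⟨y, hy⟩ := exists_pow_eq_of_thetaD_eq_zero A M p hA ((RG1 M p hpM A hA).red r) h0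
    exact hr y hy
  have key := theta_trick A p (π ^ p) γ hγ0 hγ hδ0
    ⟨(((r : (RG1 M p hpM A hA).O) : FB M) : LaurentSeries Qb), r.2⟩
    ⟨(((g₁ : (RG1 M p hpM A hA).O) : FB M) : LaurentSeries Qb), g₁.2⟩ hθ
    (by
      have e := congrArg (fun z : FT A M => (z : LaurentSeries (kk A))) hg₁r
      exact e.trans h2)
    (by
      have e1 := MH_coe_one_add M p hpM A hA (π ^ p) r
      have e2 := MH_coe_one_add M p hpM A hA γ g₁
      have e3 : ((Y : FB M) : LaurentSeries Qb) = 1 + HahnSeries.C (γ : Qb) *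
          (((g₁ : (RG1 M p hpM A hA).O) : FB M) : LaurentSeries Qb) := by
        rw [← e2, ← hg₁]
      show heckeMul p (1 + HahnSeries.C (((π ^ p : A)) : Qb) *
          (((r : (RG1 M p hpM A hA).O) : FB M) : LaurentSeries Qb)) = (1 + HahnSeries.C (γ : Qb) *
          (((g₁ : (RG1 M p hpM A hA).O) : FB M) : LaurentSeries Qb)) ^ p
      rw [← e1, ← hY, ← e3]
      rfl)
  have hπQ : (π : Qb) ≠ 0 := fun h0 => hπ0 (Subtype.ext h0)
  have hvπ : A.valuation (π : Qb) ≠ 0 := (map_ne_zero _).2 hπQ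
  have hvγ : A.valuation (γ : Qb) = A.valuation (π : Qb) := by
    have e : A.valuation (γ : Qb) ^ p = A.valuation (π : Qb) ^ p := by
      rw [← map_pow, ← map_pow]
      exact congrArg (fun z : A => A.valuation (z : Qb)) hγ
    exact (pow_left_inj₀ zero_le' zero_le' hp.ne_zero).1 e
  rw [hvγ, show (((π ^ p : A)) : Qb) = (π : Qb) ^ p from rfl, map_pow, ← pow_mul] at key
  apply mul_right_cancel₀ hvπ
  rw [key, ← pow_succ]
  congr 1
  have : 1 ≤ p ^ 2 := Nat.one_le_pow _ _ hp.pos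
  rw [sq] at this ⊢
  omega

end

end Fermat.Agent.S33Lib
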