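import Fermat.Agent.S33.MDefs
import Fermat.Agent.S33.MGapExcl
import Fermat.Agent.S33.MInertia
import Fermat.Agent.S33.MLSysM
import Fermat.Agent.S33.MHecke
import Fermat.Agent.S33.MTheta
import Fermat.Agent.S33.LTwist
import Fermat.Agent.S33.XSum
import Fermat.Agent.ES.TrunkX

/-!
# S33 library, modular part, leaf (KM): KEY at level `M`
-/

set_option autoImplicit false
set_option synthInstance.maxHeartbeats 400000
set_option linter.unusedSectionVars false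

open AlgebraicCurve IntermediateField ModularCurve
  Fermat.Agent.S24Lib Fermat.Agent.FFLib Fermat.Agent.S18Lib Fermat.Agent.S28Lib
  Fermat.Agent.ESLib Fermat.Agent.S34Lib

namespace Fermat.Agent.S33Lib

noncomputable section

variable (M p : ℕ) [NeZero M] [NeZero p] [hpF : Fact p.Prime] (hpM : ¬ p ∣ M)
variable (A : ValuationSubring Qb) (hA : A.LiesOverPrime p)

theorem MK_heckeMul_pow (f : LaurentSeries Qb) (n : ℕ) :
    heckeMul p (f ^ (n + 1)) = heckeMul p f ^ (n + 1) := by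
  induction n with
  | zero => rw [zero_add, pow_one, pow_one]
  | succ n ih => rw [pow_succ, heckeMul_mul p (exists_primitiveRoot_Qb p), ih, ← pow_succ]

theorem MK_heckeMul_pow' (f : LaurentSeries Qb) (n : ℕ) (hn : 0 < n) :
    heckeMul p (f ^ n) = heckeMul p f ^ n := by
  obtain ⟨m, rfl⟩ : ∃ m, n = m + 1 := ⟨n - 1, by omega⟩
  exact MK_heckeMul_pow p f m

variable {r : ℕ} (b : Module.Basis (Fin r) ℤ (EP M ℤ)) (τ₀ : GQ)
  (x : (RG1 M p hpM A hA).O) (𝓛 : ℕ → Submodule (kk A) (FT A M)) (n : ℕ)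

/-- the data of a `τ₀`-fixed class with a gap constant -/
def MKBad (v : Fin r → ZMod p) (u : (RG1 M p hpM A hA).O) (π : A) : Prop :=
  (RG1 M p hpM A hA).red u = 1 ∧ P.Kap b p ((u : (RG1 M p hpM A hA).O) : FB M) v ∧
    (∃ g : FB M, gal M τ₀ ((u : (RG1 M p hpM A hA).O) : FB M) = g ^ p * u) ∧
    HasGap (RG1 M p hpM A hA) IsLocalRing.residue_surjective p x 𝓛 n u π

variable {b τ₀ x 𝓛 n}

/-- the gap constant only depends on the class -/
theorem MKBad.valuation_eq (H : TrunkHyp M)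
    (C : IsChartAt (RG1 M p hpM A hA) IsLocalRing.residue_surjective p x 𝓛 n)
    {v : Fin r → ZMod p} {u u' : (RG1 M p hpM A hA).O} {π π' : A}
    (h : MKBad M p hpM A hA b τ₀ x 𝓛 n v u π) (h' : MKBad M p hpM A hA b τ₀ x 𝓛 n v u' π') :
    A.valuation (π : Qb) = A.valuation (π' : Qb) := by
  have hp : p.Prime := hpF.out
  have := isAlgClosed_kk A
  have : CharP (kk A) p := Fermat.Agent.S18Lib.charP_kk A hA
  obtain ⟨hu, hK, -, hgap⟩ := h
  obtain ⟨hu', hK', -, hgap'⟩ := h'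
  have h1 := hK'.mul H hp.pos (hK.inv H hp.pos)
  rw [add_neg_cancel] at h1
  obtain ⟨g, -, hg⟩ := h1.eq_pow H hp.pos
  have hu0 := hK.ne_zero H hp.pos
  have h2 : ((u' : (RG1 M p hpM A hA).O) : FB M) = g ^ p * u := by
    rw [← hg, inv_mul_cancel_right₀ hu0]
  exact hasGap_class (RG1 M p hpM A hA) IsLocalRing.residue_surjective C u u' hu hu' g h2 π π'
    hgap hgap'

/-- the descent step -/
theorem MKBad.step (H : TrunkHyp M) {Θ₀ : TT0 M →+* Module.End ℤ (EP M ℤ)}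
    (hΘ : P.IsThetaTr Θ₀) (hp2 : p ≠ 2)
    (hτ₀ : τ₀ ∈ A.inertiaSubgroupIn ℚ) (ζ : Qb) (hζ : ζ ^ p = 1) (hmove : τ₀ ζ ≠ ζ)
    (hx : ((x : (RG1 M p hpM A hA).O) : FB M) = jBar M)
    (C : IsChartAt (RG1 M p hpM A hA) IsLocalRing.residue_surjective p x 𝓛 n)
    (hGap : ∀ u : (RG1 M p hpM A hA).O, (RG1 M p hpM A hA).red u = 1 →
      (∀ v : Place Qb (FB M), (p : ℤ) ∣ v.ord ((u : (RG1 M p hpM A hA).O) : FB M)) →
      (¬ ∃ g : FB M, ((u : (RG1 M p hpM A hA).O) : FB M) = g ^ p) →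
      ∃ π : A, HasGap (RG1 M p hpM A hA) IsLocalRing.residue_surjective p x 𝓛 n u π)
    {v : Fin r → ZMod p} {u : (RG1 M p hpM A hA).O} {π : A}
    (h : MKBad M p hpM A hA b τ₀ x 𝓛 n v u π) :
    ∃ (v' : Fin r → ZMod p) (u' : (RG1 M p hpM A hA).O) (π' : A),
      MKBad M p hpM A hA b τ₀ x 𝓛 n v' u' π' ∧ A.valuation (π' : Qb) < A.valuation (π : Qb) := by
  have hp : p.Prime := hpF.out
  have := isAlgClosed_kk A
  have : CharP (kk A) p := Fermat.Agent.S18Lib.charP_kk A hA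
  obtain ⟨hu, hK, ⟨g, hg⟩, hgap⟩ := h
  have hτx : gal M τ₀ ((x : (RG1 M p hpM A hA).O) : FB M) = x := by
    rw [hx]
    exact UK_gal_jBarD M 1 (one_dvd _) τ₀
  have hτO := inertia_mem_M M p hpM A hA τ₀ hτ₀
  obtain ⟨hne1, hne2⟩ := gap_excluded p A hp2 hA (RG1 M p hpM A hA) C τ₀ hτ₀ ζ hζ hmove hτx hτO
    u hu π hgap g hg
  obtain ⟨hπ0, hπres, hlt, g₁, rr, hg₁, hrep, hnp⟩ :=
    hasGap_rep (RG1 M p hpM A hA) IsLocalRing.residue_surjective C u hu π hgap hne1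
  have hg₁0 : ((g₁ : (RG1 M p hpM A hA).O) : FB M) ≠ 0 :=
    xs_coe_ne_zero (RG1 M p hpM A hA) (by rw [hg₁]; exact one_ne_zero)
  have hrepF : ((1 + (RG1 M p hpM A hA).const (π ^ p) * rr : (RG1 M p hpM A hA).O) : FB M) =
      ((g₁ : (RG1 M p hpM A hA).O) : FB M) ^ p * u :=
    congrArg (fun z : (RG1 M p hpM A hA).O => (z : FB M)) hrep
  have hK' : P.Kap b p
      ((1 + (RG1 M p hpM A hA).const (π ^ p) * rr : (RG1 M p hpM A hA).O) : FB M) v := by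
    rw [hrepF]
    exact hK.pow_mul H hp.pos hg₁0
  have hδ : IsLocalRing.residue A (π ^ p) = 0 := by rw [map_pow, hπres, zero_pow hp.ne_zero]
  have hδ0 : π ^ p ≠ 0 := pow_ne_zero _ hπ0
  obtain ⟨r₁, e1, -, y, hy⟩ := heckeMul_rep_M M p hpM A hA (π ^ p) hδ hδ0 rr
  obtain ⟨f', hf', hKf'⟩ := hK'.hecke H hΘ hp hpM
  have hf'' : f' = ((1 + (RG1 M p hpM A hA).const (π ^ p) * r₁ : (RG1 M p hpM A hA).O) : FB M) :=
    Subtype.ext (hf'.trans e1.symm)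
  rw [hf''] at hKf'
  have hu' : (RG1 M p hpM A hA).red (1 + (RG1 M p hpM A hA).const (π ^ p) * r₁) = 1 := by
    rw [map_add, map_one, map_mul, RedG.red_const, hδ, map_zero, zero_mul, add_zero]
  have hnpow : ¬ ∃ Y : FB M,
      ((1 + (RG1 M p hpM A hA).const (π ^ p) * r₁ : (RG1 M p hpM A hA).O) : FB M) = Y ^ p := by
    rintro ⟨Y, hY⟩
    exact hne2 (theta_M M p hpM A hA π hπres hπ0 hlt rr hnp Y (by rw [← hY]; exact e1))
  obtain ⟨π', hgap'⟩ := hGap _ hu' (hKf'.isKum H hp.pos).2 hnpow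
  -- the Galois condition
  have hgal : ∃ g' : FB M, gal M τ₀
      ((1 + (RG1 M p hpM A hA).const (π ^ p) * r₁ : (RG1 M p hpM A hA).O) : FB M) = g' ^ p *
      ((1 + (RG1 M p hpM A hA).const (π ^ p) * r₁ : (RG1 M p hpM A hA).O) : FB M) := by
    set G : FB M := gal M τ₀ ((g₁ : (RG1 M p hpM A hA).O) : FB M) * g *
      ((g₁ : (RG1 M p hpM A hA).O) : FB M)⁻¹ with hG
    have h3 : gal M τ₀
        ((1 + (RG1 M p hpM A hA).const (π ^ p) * rr : (RG1 M p hpM A hA).O) : FB M) = G ^ p *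
        ((1 + (RG1 M p hpM A hA).const (π ^ p) * rr : (RG1 M p hpM A hA).O) : FB M) := by
      rw [hrepF, map_mul, map_pow, hg, hG, mul_pow, mul_pow, inv_pow]
      field_simp
    refine ⟨⟨heckeMul p (G : LaurentSeries Qb), Fermat.Agent.S37Lib.heckeMul_mem M p hp hpM G⟩, ?_⟩
    apply Subtype.ext
    have h4 : heckeMul p ((G : LaurentSeries Qb) ^ p) = heckeMul p (G : LaurentSeries Qb) ^ p :=
      MK_heckeMul_pow' p _ p hp.pos
    have h5 := congrArg (fun z : FB M => (z : LaurentSeries Qb)) h3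
    simp only [coe_gal] at h5
    rw [coe_gal, e1, ← heckeMul_gal, h5]
    show heckeMul p ((G : LaurentSeries Qb) ^ p * _) = heckeMul p (G : LaurentSeries Qb) ^ p * _
    rw [heckeMul_mul p (exists_primitiveRoot_Qb p), h4, e1]
  obtain ⟨g', hg'⟩ := hgal
  obtain ⟨hne1', -⟩ := gap_excluded p A hp2 hA (RG1 M p hpM A hA) C τ₀ hτ₀ ζ hζ hmove hτx hτO
    _ hu' π' hgap' g' hg'
  have hlt' := hasGap_lt (RG1 M p hpM A hA) IsLocalRing.residue_surjective C _ hu' π' hgap' hne1'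
    (π ^ p) r₁ rfl y hy
  refine ⟨_, _, π', ⟨hu', hKf', ⟨g', hg'⟩, hgap'⟩, ?_⟩
  rw [show (((π ^ p : A)) : Qb) = (π : Qb) ^ p from rfl, map_pow] at hlt'
  exact lt_of_pow_lt_pow_left₀ p zero_le' hlt'

/-- (KM) `S33/MKeyM.lean` : **KEY at level `M`** -/
theorem key_M (hbase : 2 ∣ M ∨ 3 ∣ M) (hp2 : p ≠ 2) (hpM : ¬ p ∣ M) (hA : A.LiesOverPrime p)
    (τ₀ : GQ) (hτ₀ : τ₀ ∈ A.inertiaSubgroupIn ℚ) (ζ : Qb) (hζ : ζ ^ p = 1) (hmove : τ₀ ζ ≠ ζ)
    (h : FB M) (hK : IsKum M p h) (h1 : GOne A (h : LaurentSeries Qb))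
    (g : FB M) (hg : gal M τ₀ h = g ^ p * h) : ∃ a : FB M, h = a ^ p := by
  have hp : p.Prime := hpF.out
  have := isAlgClosed_kk A
  have : CharP (kk A) p := Fermat.Agent.S18Lib.charP_kk A hA
  have H : TrunkHyp M := (trunkHyp0 M).toTrunkHyp
  obtain ⟨r, b, Θ₀, -, hTr⟩ := H.theta
  obtain ⟨x, 𝓛, n₀, hx, hL⟩ := exists_lsys_M M p hpM A hA hbase
  obtain ⟨n, C, hGap⟩ := exists_hasGap_of_lsys (isFF_FB M) IsLocalRing.residue_surjective
    (RG1 M p hpM A hA) hp.pos (by rw [hx]; exact transcendental_jBar M) hL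
  by_contra hnot
  obtain ⟨hmem, hred⟩ := h1
  have hred₀ : (RG1 M p hpM A hA).red ⟨h, hmem⟩ = 1 := Subtype.ext hred
  obtain ⟨φ, hφ, hRt⟩ := H.exists_of_isKum hp.pos hK
  obtain ⟨π₀, hgap₀⟩ := hGap ⟨h, hmem⟩ hred₀ hK.2 hnot
  have hB₀ : MKBad M p hpM A hA b τ₀ x 𝓛 n (P.crd b p ⟨φ, hφ⟩) ⟨h, hmem⟩ π₀ :=
    ⟨hred₀, ⟨⟨φ, hφ⟩, hRt, rfl⟩, ⟨g, hg⟩, hgap₀⟩
  -- the finite set of bad classes
  let T : Type := {v : Fin r → ZMod p // ∃ u π, MKBad M p hpM A hA b τ₀ x 𝓛 n v u π}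
  have : Finite T := Subtype.finite
  have : Nonempty T := ⟨⟨_, _, _, hB₀⟩⟩
  choose U Pi hUP using fun t : T => t.2
  obtain ⟨t₀, ht₀⟩ := Finite.exists_min (fun t : T => A.valuation ((Pi t : A) : Qb))
  obtain ⟨v', u', π', hB', hlt⟩ := (hUP t₀).step M p hpM A hA H hTr hp2 hτ₀ ζ hζ hmove hx C hGap
  have h2 := ht₀ ⟨v', u', π', hB'⟩
  have h3 := (hUP ⟨v', u', π', hB'⟩).valuation_eq M p hpM A hA H C hB'
  rw [h3] at h2
  exact absurd hlt (not_lt.2 h2)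

end

end Fermat.Agent.S33Lib
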