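import Fermat.Agent.S33.MDefs
import Fermat.Agent.S33.LInst2
import Fermat.Agent.S34.UnipKummer

/-!
# S33 library, modular part, (KP1): the system of expected spaces at level `p M`
-/

set_option autoImplicit false
set_option synthInstance.maxHeartbeats 400000
set_option linter.unusedSectionVars false

open AlgebraicCurve IntermediateField ModularCurve
  Fermat.Agent.S24Lib Fermat.Agent.FFLib Fermat.Agent.S18Lib Fermat.Agent.S28Lib
  Fermat.Agent.ESLib Fermat.Agent.S34Lib

namespace Fermat.Agent.S33Lib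

noncomputable section

variable {M p : ℕ} [NeZero M] [NeZero p] [hpF : Fact p.Prime] {hpM : ¬ p ∣ M}
variable {A : ValuationSubring Qb}
variable {R : RedG A (IsLocalRing.residue A) (FB (p * M)) (FT A M × FT A M)}

/-- (KP1) `S33/MLSysP.lean` -/
theorem exists_lsys_pM (hbase : 2 ∣ M ∨ 3 ∣ M) (hA : A.LiesOverPrime p)
    (hR : IsQRed2 M p hpM A R) :
    ∃ (x : R.O) (𝓛 : ℕ → Submodule (kk A) (FT A M × FT A M)) (n₀ : ℕ),
      ((x : R.O) : FB (p * M)) = jN M p * jQ M p ∧
      IsLSys R IsLocalRing.residue_surjective p x 𝓛 n₀ := by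
  have := isAlgClosed_kk A
  have : CharP (kk A) p := charP_kk hpF.out hA
  obtain ⟨x, hx, hxr⟩ := exists_xO hR hA
  obtain ⟨hx₁, hx₂, S, n₀, hS, hW⟩ := UK_exists_nodes M p hpM hbase A hA R hR x hx hxr
  obtain ⟨𝓛, h𝓛⟩ := exists_isLSys_of_HW (isFF_bar (p * M)) (isFF_FT A M)
    IsLocalRing.residue_surjective R (p := p) x hx₁ hx₂ S n₀ hS hW
  exact ⟨x, 𝓛, n₀, hx, h𝓛⟩

end

end Fermat.Agent.S33Lib
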