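import Fermat.Agent.S33.MDefs
import Fermat.Agent.S36.NrmDefs
import Fermat.Agent.S35.NormFormula
import Fermat.Agent.S35.NormKum

/-!
# S33 library, modular part, (NM): the norm `F → F'` on `q`-expansions
-/

set_option autoImplicit false
set_option synthInstance.maxHeartbeats 400000
set_option linter.unusedSectionVars false

open AlgebraicCurve IntermediateField ModularCurve
  Fermat.Agent.S24Lib Fermat.Agent.FFLib Fermat.Agent.S18Lib Fermat.Agent.S28Lib
  Fermat.Agent.ESLib Fermat.Agent.S34Lib Fermat.Agent.S36Lib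

namespace Fermat.Agent.S33Lib

noncomputable section

variable (M p : ℕ) [NeZero M] [NeZero p] [hpF : Fact p.Prime] (hpM : ¬ p ∣ M)
variable (A : ValuationSubring Qb) (hA : A.LiesOverPrime p)

/-- `N_{F/F'} x = x · U (w x)` -/
theorem coe_nrm_pi1 (x : FB (p * M)) :
    ((nrm (pi1 M p) x : FB M) : LaurentSeries Qb) =
      (x : LaurentSeries Qb) * normL p ((wq M p hpM x : FB (p * M)) : LaurentSeries Qb) :=
  Fermat.Agent.S35Lib.coe_nm M p hpM x

theorem nrm_pi1_gal (σ : GQ) (x : FB (p * M)) :
    gal M σ (nrm (pi1 M p) x) = nrm (pi1 M p) (gal (p * M) σ x) :=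
  (Fermat.Agent.S36Lib.norm_along_equiv (pi1 M p).toRingHom (pi1 M p).toRingHom (gal M σ)
    (gal (p * M) σ) (fun x => (LV_gal_inclusion (FB_le M p) σ x).symm) x).symm

end

end Fermat.Agent.S33Lib
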