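import Fermat.Agent.ES.Integral
import Fermat.Agent.ES.Formal
import Fermat.Agent.S18.CGauss
import Fermat.Agent.S18.CTheta
import Fermat.Agent.S18.RedRing

/-!
# S33 library, block (Y0): constants in the Gauss ring `gRing A ⊆ ℚ̄((q))`.
-/

set_option autoImplicit false
set_option synthInstance.maxHeartbeats 400000

open ModularCurve

namespace Fermat.Agent.S33Lib

open Fermat.Agent.S18Lib Fermat.Agent.S28Lib Fermat.Agent.ESLib

noncomputable section

variable (A : ValuationSubring Qb)

/-! ## (Y0) `S33/YConst.lean` : constants -/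

theorem C_mem_gRing (a : A) : (HahnSeries.C (a : Qb) : LaurentSeries Qb) ∈ gRing A := by
  rw [← rr_cE_C]
  exact cE_mem_gRing A _

/-- a constant of `A` as an element of `gRing A` -/
def gC (a : A) : gRing A := ⟨HahnSeries.C (a : Qb), C_mem_gRing A a⟩

theorem gRed_gC (a : A) : gRed A (gC A a) = HahnSeries.C (IsLocalRing.residue A a) := by
  have := gRed_mul_eq A (gC A a) (a := HahnSeries.C a) (s := 1)
    (by rw [map_one, mul_one, rr_cE_C]; rfl)
  rw [map_one, mul_one, rr_cR_C] at this
  exact this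

theorem YC_not_lt (a b : Qb) (X Y : gRing A) (hY : gRed A Y ≠ 0)
    (h : HahnSeries.C a * (X : LaurentSeries Qb) = HahnSeries.C b * (Y : LaurentSeries Qb)) :
    ¬ A.valuation a < A.valuation b := by
  intro hlt
  have hb : b ≠ 0 := by
    rintro rfl
    rw [map_zero] at hlt
    exact not_lt_zero hlt
  have hvb : 0 < A.valuation b := zero_lt_iff.mpr ((map_ne_zero _).mpr hb)
  have hlt1 : A.valuation (a / b) < 1 := by
    rw [map_div₀]
    exact (div_lt_one₀ hvb).mpr hlt
  have hmem : a / b ∈ A := (A.valuation_le_one_iff _).mp hlt1.le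
  have hres : IsLocalRing.residue A (⟨a / b, hmem⟩ : A) = 0 := by
    rw [IsLocalRing.residue_eq_zero_iff, A.valuation_lt_one_iff]
    exact hlt1
  have hCb : (HahnSeries.C b : LaurentSeries Qb) ≠ 0 := by
    intro h0
    exact hb (HahnSeries.C_injective (by rw [h0, map_zero]))
  have hYX : Y = gC A ⟨a / b, hmem⟩ * X := by
    apply Subtype.ext
    rw [Subring.coe_mul]
    show (Y : LaurentSeries Qb) = HahnSeries.C (a / b) * (X : LaurentSeries Qb)
    apply mul_left_cancel₀ hCb
    rw [← h, ← mul_assoc, ← map_mul, mul_div_cancel₀ _ hb]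
  apply hY
  rw [hYX, map_mul, gRed_gC, hres, map_zero, zero_mul]

/-- comparison of constants: `a X = b Y`, `X̄ ≠ 0`, `Ȳ ≠ 0` ⟹ `v(a) = v(b)` -/
theorem valuation_eq_of_gRed_ne_zero (a b : Qb) (X Y : gRing A) (hX : gRed A X ≠ 0)
    (hY : gRed A Y ≠ 0)
    (h : HahnSeries.C a * (X : LaurentSeries Qb) = HahnSeries.C b * (Y : LaurentSeries Qb)) :
    A.valuation a = A.valuation b :=
  le_antisymm (not_lt.mp (YC_not_lt A b a Y X hX h.symm)) (not_lt.mp (YC_not_lt A a b X Y hY h))

end

end Fermat.Agent.S33Lib
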