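import Fermat.Agent.S33.MDefs
import Fermat.Agent.S33.MNorm
import Fermat.Agent.S33.YConst
import Fermat.Agent.S33.YNorm

/-!
# S33 library, modular part, (KP2): `N (1 + δ r) = 1 + δ r'`, `r̄' = r̄_∞`
-/

set_option autoImplicit false
set_option synthInstance.maxHeartbeats 400000
set_option linter.unusedSectionVars false

open AlgebraicCurve IntermediateField ModularCurve
  Fermat.Agent.S24Lib Fermat.Agent.FFLib Fermat.Agent.S18Lib Fermat.Agent.S28Lib
  Fermat.Agent.ESLib Fermat.Agent.S34Lib Fermat.Agent.S36Lib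

namespace Fermat.Agent.S33Lib

noncomputable section

variable {M p : ℕ} [NeZero M] [NeZero p] [hpF : Fact p.Prime] {hpM : ¬ p ∣ M}
variable {A : ValuationSubring Qb} (hA : A.LiesOverPrime p)
variable {R : RedG A (IsLocalRing.residue A) (FB (p * M)) (FT A M × FT A M)}

/-- (KP2) `S33/MNormRep.lean` : `N (1 + δ r) = 1 + δ r'`, `r̄' = r̄_∞` -/
theorem nrm_rep (hR : IsQRed2 M p hpM A R) (δ : A) (hδ : IsLocalRing.residue A δ = 0)
    (hδ0 : δ ≠ 0) (r : R.O) :
    ∃ r' : (RG1 M p hpM A hA).O,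
      nrm (pi1 M p) ((1 + R.const δ * r : R.O) : FB (p * M)) =
        ((1 + (RG1 M p hpM A hA).const δ * r' : (RG1 M p hpM A hA).O) : FB M) ∧
      (RG1 M p hpM A hA).red r' = (R.red r).1 := by
  have : CharP (kk A) p := charP_kk hpF.out hA
  have hd0 : (δ : Qb) ≠ 0 := fun h => hδ0 (Subtype.ext h)
  have hC : ∀ a : Qb, algebraMap Qb (LaurentSeries Qb) a = HahnSeries.C a := fun a => by
    rw [algebraMap_laurentSeries_eq_single]; rfl
  obtain ⟨hr1, hr2⟩ := (hR.mem_iff _).1 r.2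
  obtain ⟨E, hE0, hE⟩ := normL_one_add A p δ hδ ⟨_, hr2⟩
  set rL : LaurentSeries Qb := (((r : R.O) : FB (p * M)) : LaurentSeries Qb) with hrL
  set h : FB (p * M) := ((1 + R.const δ * r : R.O) : FB (p * M)) with hh
  have hcoe : (h : LaurentSeries Qb) = 1 + HahnSeries.C (δ : Qb) * rL := by
    rw [hh]
    push_cast
    rw [R.coe_const, rr_coe_algebraMap]
  have hw : ((wq M p hpM h : FB (p * M)) : LaurentSeries Qb) =
      1 + HahnSeries.C (δ : Qb) *
        ((wq M p hpM ((r : R.O) : FB (p * M)) : FB (p * M)) : LaurentSeries Qb) := by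
    rw [hh]
    push_cast
    rw [R.coe_const, map_add, map_one, map_mul, AlgEquiv.commutes]
    push_cast
    rw [hC]
  have hN : ((nrm (pi1 M p) h : FB M) : LaurentSeries Qb) =
      1 + HahnSeries.C (δ : Qb) *
        (rL + (E : LaurentSeries Qb) + HahnSeries.C (δ : Qb) * rL * (E : LaurentSeries Qb)) := by
    rw [coe_nrm_pi1 M p hpM, hw, hE, hcoe]
    ring
  -- the element `r'`
  let g : gRing A := (⟨rL, hr1⟩ : gRing A) + E + gC A δ * ⟨rL, hr1⟩ * E
  have hg : (g : LaurentSeries Qb) =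
      rL + (E : LaurentSeries Qb) + HahnSeries.C (δ : Qb) * rL * (E : LaurentSeries Qb) := rfl
  let r'F : FB M := algebraMap Qb (FB M) (δ : Qb)⁻¹ * (nrm (pi1 M p) h - 1)
  have hr'F : (r'F : LaurentSeries Qb) = g := by
    show ((algebraMap Qb (FB M) (δ : Qb)⁻¹ * (nrm (pi1 M p) h - 1) : FB M) : LaurentSeries Qb) = _
    push_cast
    rw [hC, hN, hg, add_sub_cancel_left, ← mul_assoc, ← map_inv₀, ← map_mul,
      inv_mul_cancel₀ hd0, map_one, one_mul]
  have hmem : r'F ∈ (RG1 M p hpM A hA).O := by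
    rw [mem_RG1_iff, hr'F]
    exact g.2
  refine ⟨⟨r'F, hmem⟩, ?_, ?_⟩
  · apply Subtype.ext
    push_cast
    rw [(RG1 M p hpM A hA).coe_const, rr_coe_algebraMap, hr'F, hN, hg]
  · apply Subtype.ext
    rw [coe_red_RG1, hR.red_fst r hr1]
    have h1 : (⟨(((⟨r'F, hmem⟩ : (RG1 M p hpM A hA).O) : FB M) : LaurentSeries Qb),
        (⟨r'F, hmem⟩ : (RG1 M p hpM A hA).O).2⟩ : gRing A) = g := Subtype.ext hr'F
    rw [h1]
    show gRed A ((⟨rL, hr1⟩ : gRing A) + E + gC A δ * ⟨rL, hr1⟩ * E) = _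
    rw [map_add, map_add, map_mul, hE0, mul_zero, add_zero, add_zero]

end

end Fermat.Agent.S33Lib
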