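import Fermat.Agent.S33.MDefs
import Fermat.Agent.S33.MNorm
import Fermat.Agent.S33.MNormRep
import Fermat.Agent.S33.MLSysP
import Fermat.Agent.S33.MGapExcl
import Fermat.Agent.S33.MKeyM
import Fermat.Agent.S33.LTwist
import Fermat.Agent.S33.XSum
import Fermat.Agent.S33.XPow
import Fermat.Agent.S36.NrmKum
import Fermat.Agent.S35.NormKum

/-!
# S33 library, modular part, (KP): KEY at level `p M`, base level
-/

set_option autoImplicit false
set_option synthInstance.maxHeartbeats 400000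
set_option linter.unusedSectionVars false
set_option maxHeartbeats 400000

open AlgebraicCurve IntermediateField ModularCurve
  Fermat.Agent.S24Lib Fermat.Agent.FFLib Fermat.Agent.S18Lib Fermat.Agent.S28Lib
  Fermat.Agent.ESLib Fermat.Agent.S34Lib Fermat.Agent.S36Lib

namespace Fermat.Agent.S33Lib

noncomputable section

variable (M p : ℕ) [NeZero M] [NeZero p] [hpF : Fact p.Prime] (hpM : ¬ p ∣ M)
variable (A : ValuationSubring Qb) (hA : A.LiesOverPrime p)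

/-- an element of `FB M` whose `p`-th power is integral with reduction `1` is integral with
reduction `1` -/
theorem KP_root_mem (a : FB M) (ha : a ^ p ∈ (RG1 M p hpM A hA).O)
    (hr : (RG1 M p hpM A hA).red ⟨_, ha⟩ = 1) :
    ∃ h : a ∈ (RG1 M p hpM A hA).O, (RG1 M p hpM A hA).red ⟨a, h⟩ = 1 := by
  have : CharP (kk A) p := charP_kk hpF.out hA
  have hp := hpF.out
  have hmem : a ∈ (RM M p hpM A hA).O := by
    rcases (RM M p hpM A hA).O.mem_or_inv_mem a with h | h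
    · exact h
    · have h1 : a = a ^ p * (a⁻¹) ^ (p - 1) := by
        by_cases ha0 : a = 0
        · rw [ha0, zero_pow hp.ne_zero, zero_mul]
        · rw [inv_pow, ← div_eq_mul_inv, eq_div_iff (pow_ne_zero _ ha0), ← pow_succ',
            Nat.sub_add_cancel hp.one_le]
      rw [h1]
      have ha' : a ^ p ∈ (RM M p hpM A hA).O := ha
      exact mul_mem ha' (pow_mem h _)
  refine ⟨hmem, ?_⟩
  have : CharP (FT A M) p := charP_of_injective_algebraMap (algebraMap (kk A) (FT A M)).injective p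
  have h2 : ((RG1 M p hpM A hA).red ⟨a, hmem⟩) ^ p = 1 := by
    rw [← map_pow, ← hr]
    rfl
  have h3 : ((RG1 M p hpM A hA).red ⟨a, hmem⟩ - 1) ^ p = 0 := by
    rw [sub_pow_char, h2, one_pow, sub_self]
  exact sub_eq_zero.1 (pow_eq_zero_iff hp.ne_zero |>.1 h3)

variable {M p hpM A}
variable {R : RedG A (IsLocalRing.residue A) (FB (p * M)) (FT A M × FT A M)}

/-- the first component of the leading term of a `τ₀`-fixed Kummer class is a `p`-th power -/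
theorem KP_fst (hbase : 2 ∣ M ∨ 3 ∣ M) (hp2 : p ≠ 2) (hA : A.LiesOverPrime p)
    (hR : IsQRed2 M p hpM A R)
    (τ₀ : GQ) (hτ₀ : τ₀ ∈ A.inertiaSubgroupIn ℚ) (ζ : Qb) (hζ : ζ ^ p = 1) (hmove : τ₀ ζ ≠ ζ)
    (δ : A) (hδ : IsLocalRing.residue A δ = 0) (hδ0 : δ ≠ 0)
    (hlt : A.valuation (p : Qb) ^ p < A.valuation (δ : Qb) ^ (p - 1))
    (r : R.O) (hK : IsKum (p * M) p ((1 + R.const δ * r : R.O) : FB (p * M)))
    (G : FB (p * M))
    (hG : gal (p * M) τ₀ ((1 + R.const δ * r : R.O) : FB (p * M)) =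
      G ^ p * ((1 + R.const δ * r : R.O) : FB (p * M))) :
    ∃ y : FT A M, (R.red r).1 = y ^ p := by
  have := isAlgClosed_kk A
  have : CharP (kk A) p := charP_kk hpF.out hA
  obtain ⟨r', hr', hred⟩ := nrm_rep hA hR δ hδ hδ0 r
  set h' : FB (p * M) := ((1 + R.const δ * r : R.O) : FB (p * M)) with hh'
  set e : (RG1 M p hpM A hA).O := 1 + (RG1 M p hpM A hA).const δ * r' with he
  have hered : (RG1 M p hpM A hA).red e = 1 := by
    rw [he, map_add, map_one, map_mul, RedG.red_const, hδ, map_zero, zero_mul, add_zero]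
  have hKN : IsKum M p (nrm (pi1 M p) h') := nrm_isKum (pi1 M p) hK
  have hG1 : GOne A ((nrm (pi1 M p) h' : FB M) : LaurentSeries Qb) := by
    rw [hr']
    refine ⟨e.2, ?_⟩
    have := coe_red_RG1 M p hpM A hA e
    rw [hered] at this
    exact this.symm
  have hgal : gal M τ₀ (nrm (pi1 M p) h') = (nrm (pi1 M p) G) ^ p * nrm (pi1 M p) h' := by
    rw [nrm_pi1_gal, hG, map_mul, map_pow]
  obtain ⟨a, ha⟩ := key_M M p A hbase hp2 hpM hA τ₀ hτ₀ ζ hζ hmove _ hKN hG1 _ hgal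
  have hae : a ^ p = (e : FB M) := by rw [← ha, hr']
  have hmem : a ^ p ∈ (RG1 M p hpM A hA).O := by rw [hae]; exact e.2
  have hr1 : (RG1 M p hpM A hA).red ⟨_, hmem⟩ = 1 := by
    rw [← hered]
    congr 1
    exact Subtype.ext hae
  obtain ⟨ham, har⟩ := KP_root_mem M p hpM A hA a hmem hr1
  obtain ⟨y, hy⟩ := pow_leading (RG1 M p hpM A hA) (⟨a, ham⟩ : (RG1 M p hpM A hA).O) r' har δ hlt
    (Subtype.ext hae)
  exact ⟨y, by rw [← hred, hy]⟩

variable (M p hpM A)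

/-- (KP) `S33/MKeyP.lean` : **KEY at level `p M`**, base level -/
theorem key_pM_base (hbase : 2 ∣ M ∨ 3 ∣ M) (hp2 : p ≠ 2) (hA : A.LiesOverPrime p)
    (τ₀ : GQ) (hτ₀ : τ₀ ∈ A.inertiaSubgroupIn ℚ) (ζ : Qb) (hζ : ζ ^ p = 1) (hmove : τ₀ ζ ≠ ζ)
    (h : FB (p * M)) (hK : IsKum (p * M) p h) (h1 : GOne A (h : LaurentSeries Qb))
    (h2 : GOne A ((wq M p hpM h : FB (p * M)) : LaurentSeries Qb))
    (g : FB (p * M)) (hg : gal (p * M) τ₀ h = g ^ p * h) : ∃ a : FB (p * M), h = a ^ p := by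
  have := isAlgClosed_kk A
  have : CharP (kk A) p := charP_kk hpF.out hA
  have hp := hpF.out
  obtain ⟨R, hR⟩ := exists_red2 M p hpM A hA
  obtain ⟨h1m, h1r⟩ := h1
  obtain ⟨h2m, h2r⟩ := h2
  let u : R.O := ⟨h, (hR.mem_iff h).2 ⟨h1m, h2m⟩⟩
  have hu : R.red u = 1 := by
    apply Prod.ext
    · apply Subtype.ext
      rw [hR.red_fst u h1m, h1r]
      rfl
    · apply Subtype.ext
      rw [hR.red_snd u h2m, h2r]
      rfl
  obtain ⟨x, 𝓛, n₀, hx, hL⟩ := exists_lsys_pM hbase hA hR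
  have hxT : Transcendental Qb ((x : R.O) : FB (p * M)) := by
    rw [hx]; exact DG_transcendental_x M p hpM
  obtain ⟨n, C, hgap⟩ := exists_hasGap_of_lsys (isFF_FB (p * M)) IsLocalRing.residue_surjective R
    hp.pos hxT hL
  by_contra hne
  obtain ⟨π, hπ⟩ := hgap u hu hK.2 hne
  have hτx : gal (p * M) τ₀ ((x : R.O) : FB (p * M)) = x := by
    rw [hx, map_mul]
    congr 1
    · exact UK_gal_jBarD (p * M) 1 (one_dvd _) τ₀
    · exact UK_gal_jBarD (p * M) p (dvd_mul_right p M) τ₀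
  have hτO := inertia_mem hR τ₀ hτ₀
  obtain ⟨hne1, -⟩ := gap_excluded p A hp2 hA R C τ₀ hτ₀ ζ hζ hmove hτx hτO u hu π hπ g hg
  obtain ⟨hπ0, hπr, hlt, g₁, r, hg₁, hrep, hnot⟩ :=
    hasGap_rep R IsLocalRing.residue_surjective C u hu π hπ hne1
  have hδ : IsLocalRing.residue A (π ^ p) = 0 := by rw [map_pow, hπr, zero_pow hp.ne_zero]
  have hδ0 : π ^ p ≠ 0 := pow_ne_zero _ hπ0
  -- `g₁ ≠ 0`
  have hg₁0 : ((g₁ : R.O) : FB (p * M)) ≠ 0 := by
    intro h0
    have : g₁ = 0 := Subtype.ext h0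
    rw [this, map_zero] at hg₁
    exact zero_ne_one hg₁
  have hrepF : ((1 + R.const (π ^ p) * r : R.O) : FB (p * M)) =
      ((g₁ : R.O) : FB (p * M)) ^ p * h := by
    rw [hrep]; rfl
  have hKpow : IsKum (p * M) p (((g₁ : R.O) : FB (p * M)) ^ p) := by
    refine ⟨pow_ne_zero _ hg₁0, fun P => ?_⟩
    rw [ma_ord_pow]
    exact Dvd.intro _ rfl
  have hK' : IsKum (p * M) p ((1 + R.const (π ^ p) * r : R.O) : FB (p * M)) := by
    rw [hrepF]
    refine ⟨mul_ne_zero hKpow.1 hK.1, fun P => ?_⟩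
    rw [P.ord_mul hKpow.1 hK.1]
    exact dvd_add (hKpow.2 P) (hK.2 P)
  have hG' : gal (p * M) τ₀ ((1 + R.const (π ^ p) * r : R.O) : FB (p * M)) =
      (gal (p * M) τ₀ ((g₁ : R.O) : FB (p * M)) * g * ((g₁ : R.O) : FB (p * M))⁻¹) ^ p *
        ((1 + R.const (π ^ p) * r : R.O) : FB (p * M)) := by
    rw [hrepF, map_mul, map_pow, hg, mul_pow, mul_pow, inv_pow]
    field_simp
  obtain ⟨y₁, hy₁⟩ := KP_fst hbase hp2 hA hR τ₀ hτ₀ ζ hζ hmove (π ^ p) hδ hδ0 hlt r hK' _ hG'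
  -- the same for `w`
  obtain ⟨hwm, hwr⟩ := wq_mem hR r
  have hwrep : ((1 + R.const (π ^ p) * ⟨_, hwm⟩ : R.O) : FB (p * M)) =
      wq M p hpM ((1 + R.const (π ^ p) * r : R.O) : FB (p * M)) := by
    push_cast
    rw [map_add, map_one, map_mul, R.coe_const, AlgEquiv.commutes]
  have hKw : IsKum (p * M) p ((1 + R.const (π ^ p) * ⟨_, hwm⟩ : R.O) : FB (p * M)) := by
    rw [hwrep]; exact Fermat.Agent.S35Lib.isKum_wq M p hpM p _ hK'
  have hGw : gal (p * M) τ₀ ((1 + R.const (π ^ p) * ⟨_, hwm⟩ : R.O) : FB (p * M)) =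
      (wq M p hpM (gal (p * M) τ₀ ((g₁ : R.O) : FB (p * M)) * g *
        ((g₁ : R.O) : FB (p * M))⁻¹)) ^ p *
        ((1 + R.const (π ^ p) * ⟨_, hwm⟩ : R.O) : FB (p * M)) := by
    rw [hwrep, ← wq_gal, hG', map_mul, map_pow]
  obtain ⟨y₂, hy₂⟩ := KP_fst hbase hp2 hA hR τ₀ hτ₀ ζ hζ hmove (π ^ p) hδ hδ0 hlt ⟨_, hwm⟩ hKw _ hGw
  rw [hwr] at hy₂
  exact hnot (y₁, y₂) (Prod.ext hy₁ hy₂)

end

end Fermat.Agent.S33Lib
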