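import Fermat.Agent.S34.RedSp
import Fermat.Agent.S34.Gap

/-!
# S33 library, block (X): abstract `p`-gap theory on a `RedG`. Definitions.

`R : RedG A resK F Φ`, `Φ` a reduced `k`-algebra of characteristic `p`.
* `IsPChart R hres p U₁' U₂' W₁ W₂ W₁₂` : think of `U_i' = L(p B_i)`, `W_i = V(L(B_i))`,
  `W₁₂ = V(L(B₁ + B₂))` for two "charts" `B₁, B₂` (effective divisors with disjoint supports).
* `IsPTwist R hres p U₁' U₂' W₁ W₂ W₁₂ u U₁ U₂` : think of `div u = p D`, `D` not principal,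
  `U_i = L(B_i + D) = {s | s ^ p * u ∈ U_i'}`.
* `IsGap R hres U₁ U₂ s₁ s₂ w π` : the output of `S34Lib.exists_gapG`.
-/

set_option autoImplicit false

open Fermat.Agent.S18Lib Fermat.Agent.S34Lib

namespace Fermat.Agent.S33Lib

variable {K k F Φ : Type*} [Field K] [Field k] [Field F] [Algebra K F] [CommRing Φ] [Algebra k Φ]
  {A : ValuationSubring K} {resK : A →+* k}

/-- two charts for the trivial class -/
structure IsPChart (R : RedG A resK F Φ) (hres : Function.Surjective resK) (p : ℕ)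
    (U₁' U₂' : Submodule K F) (W₁ W₂ W₁₂ : Submodule k Φ) : Prop where
  fin₁ : FiniteDimensional K U₁'
  fin₂ : FiniteDimensional K U₂'
  one₁ : (1 : F) ∈ U₁'
  one₂ : (1 : F) ∈ U₂'
  inter : ∀ f ∈ U₁' ⊓ U₂', f ∈ (algebraMap K F).range
  interV : ∀ a ∈ redSp R hres U₁' ⊓ redSp R hres U₂', a ∈ (algebraMap k Φ).range
  oneW₁ : (1 : Φ) ∈ W₁
  oneW₂ : (1 : Φ) ∈ W₂
  interW : ∀ a ∈ W₁ ⊓ W₂, a ∈ (algebraMap k Φ).range
  root₁ : ∀ y : Φ, y ^ p ∈ redSp R hres U₁' → y ∈ W₁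
  root₂ : ∀ y : Φ, y ^ p ∈ redSp R hres U₂' → y ∈ W₂
  split : ∀ y₁ ∈ redSp R hres U₁', ∀ y₂ ∈ redSp R hres U₂', y₁ + y₂ ∈ W₁₂ → y₁ ∈ W₁ ∧ y₂ ∈ W₂

/-- the two charts twisted by a non-trivial class `[u]` -/
structure IsPTwist (R : RedG A resK F Φ) (hres : Function.Surjective resK) (p : ℕ)
    (U₁' U₂' : Submodule K F) (W₁ W₂ W₁₂ : Submodule k Φ) (u : F) (U₁ U₂ : Submodule K F) :
    Prop where
  fin₁ : FiniteDimensional K U₁
  fin₂ : FiniteDimensional K U₂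
  mem₁ : ∀ s : F, s ∈ U₁ ↔ s ^ p * u ∈ U₁'
  mem₂ : ∀ s : F, s ∈ U₂ ↔ s ^ p * u ∈ U₂'
  disj : U₁ ⊓ U₂ = ⊥
  red₁ : redSp R hres U₁ = W₁
  red₂ : redSp R hres U₂ = W₂
  red₁₂ : redSp R hres (U₁ ⊔ U₂) ≤ W₁₂

/-- a gap datum -/
structure IsGap (R : RedG A resK F Φ) (hres : Function.Surjective resK) (U₁ U₂ : Submodule K F)
    (s₁ s₂ w : R.O) (π : A) : Prop where
  mem₁ : ((s₁ : R.O) : F) ∈ U₁
  mem₂ : ((s₂ : R.O) : F) ∈ U₂
  red₁ : R.red s₁ = 1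
  red₂ : R.red s₂ = 1
  ne : π ≠ 0
  res : resK π = 0
  eq : s₁ - s₂ = R.const π * w
  not_mem : R.red w ∉ redSp R hres U₁ ⊔ redSp R hres U₂

end Fermat.Agent.S33Lib
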